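import Mathlib

set_option autoImplicit false

/-!
# Mass transport between two projections of a product

An equivariant measure preserving involution of `Y × P` moves the fundamental domain `𝔉 × P` to
another one; integrals of invariant functions agree.  The integral operators defined by it are
bounded and have adjoints of the same shape.
-/

noncomputable section

open MeasureTheory Set Filter
open scoped ENNReal Pointwise

namespace FermatAgent.LT

variable {Γ Y P : Type*} [Group Γ] [Countable Γ] [MeasurableSpace Y] [MeasurableSpace P]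
  [MulAction Γ Y] [MulAction Γ P] [MeasurableConstSMul Γ Y] [MeasurableConstSMul Γ P]
  {μ : Measure Y} {ν : Measure P} [SFinite μ] [SFinite ν]
  [SMulInvariantMeasure Γ Y μ] [SMulInvariantMeasure Γ P ν]

/-- The data: an equivariant measure preserving involution of `Y × P`. -/
structure Transport (Γ : Type*) [SMul Γ Y] [SMul Γ P] (μ : Measure Y) (ν : Measure P) where
  /-- the involution -/
  τ : Y × P → Y × P
  involutive : Function.Involutive τ
  preserving : MeasurePreserving τ (μ.prod ν) (μ.prod ν)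
  equivariant : ∀ (γ : Γ) (z : Y × P), τ (γ • z) = γ • τ z

namespace Transport

omit [Countable Γ] in
theorem measurePreserving_prod_smul (γ : Γ) :
    MeasurePreserving (fun z : Y × P => γ • z) (μ.prod ν) (μ.prod ν) :=
  (MeasureTheory.measurePreserving_smul γ μ).prod (MeasureTheory.measurePreserving_smul γ ν)

omit [Countable Γ] [MeasurableConstSMul Γ Y] [MeasurableConstSMul Γ P] [SFinite μ] [SFinite ν]
  [SMulInvariantMeasure Γ Y μ] [SMulInvariantMeasure Γ P ν] in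
/-- `𝔉 × P` is a fundamental domain. -/
theorem isFundamentalDomain_prod {𝔉 : Set Y} (h : IsFundamentalDomain Γ 𝔉 μ) :
    IsFundamentalDomain Γ (Prod.fst ⁻¹' 𝔉 : Set (Y × P)) (μ.prod ν) :=
  h.preimage_of_equiv Measure.quasiMeasurePreserving_fst (e := id) Function.bijective_id
    (fun _ _ => rfl)

variable (T : Transport Γ μ ν)

omit [Countable Γ] [MeasurableConstSMul Γ Y] [MeasurableConstSMul Γ P] [SFinite μ] [SFinite ν]
  [SMulInvariantMeasure Γ Y μ] [SMulInvariantMeasure Γ P ν] in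
theorem measurable : Measurable T.τ := T.preserving.measurable

/-- The involution as a permutation. -/
def equiv : Y × P ≃ Y × P := T.involutive.toPerm

omit [Countable Γ] [MeasurableConstSMul Γ Y] [MeasurableConstSMul Γ P] [SFinite μ] [SFinite ν]
  [SMulInvariantMeasure Γ Y μ] [SMulInvariantMeasure Γ P ν] in
theorem isFundamentalDomain_moved {𝔉 : Set Y} (h : IsFundamentalDomain Γ 𝔉 μ) :
    IsFundamentalDomain Γ (T.τ ⁻¹' (Prod.fst ⁻¹' 𝔉)) (μ.prod ν) :=
  (isFundamentalDomain_prod h).preimage_of_equiv T.preserving.quasiMeasurePreserving (e := id)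
    Function.bijective_id (fun γ z => T.equivariant γ z)

/-- **Mass transport.** -/
theorem lintegral_swap {𝔉 : Set Y} (h : IsFundamentalDomain Γ 𝔉 μ) {F : Y × P → ℝ≥0∞}
    (hF : ∀ (γ : Γ) z, F (γ • z) = F z) (hm : Measurable F) :
    ∫⁻ y in 𝔉, ∫⁻ p, F (T.τ (y, p)) ∂ν ∂μ = ∫⁻ y in 𝔉, ∫⁻ p, F (y, p) ∂ν ∂μ := by
  have : SMulInvariantMeasure Γ (Y × P) (μ.prod ν) :=
    ⟨fun γ _ hs => (measurePreserving_prod_smul γ).measure_preimage hs.nullMeasurableSet⟩
  have : MeasurableConstSMul Γ (Y × P) := ⟨fun γ => (measurePreserving_prod_smul (μ := μ) (ν := ν) γ).measurable⟩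
  have e : ∀ G : Y × P → ℝ≥0∞, Measurable G → ∫⁻ y in 𝔉, ∫⁻ p, G (y, p) ∂ν ∂μ =
      ∫⁻ z in Prod.fst ⁻¹' 𝔉, G z ∂(μ.prod ν) := by
    intro G hG
    rw [show (Prod.fst ⁻¹' 𝔉 : Set (Y × P)) = 𝔉 ×ˢ univ from (prod_univ).symm,
      ← Measure.prod_restrict, Measure.restrict_univ, lintegral_prod _ hG.aemeasurable]
  have hnull : NullMeasurableSet (Prod.fst ⁻¹' 𝔉 : Set (Y × P)) (μ.prod ν) :=
    (isFundamentalDomain_prod h).nullMeasurableSet
  rw [e F hm, e (fun z => F (T.τ z)) (hm.comp T.measurable)]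
  have h1 : ∫⁻ z in Prod.fst ⁻¹' 𝔉, F (T.τ z) ∂(μ.prod ν) =
      ∫⁻ z in T.τ ⁻¹' (Prod.fst ⁻¹' 𝔉), F z ∂(μ.prod ν) := by
    let e' : Y × P ≃ᵐ Y × P := ⟨T.equiv, T.measurable, T.measurable⟩
    have hmp : MeasurePreserving e' (μ.prod ν) (μ.prod ν) := T.preserving
    have h2 := hmp.setLIntegral_comp_preimage_emb e'.measurableEmbedding F
      (T.τ ⁻¹' (Prod.fst ⁻¹' 𝔉))
    rw [← h2]
    congr 1
    congr 1
    ext z
    simp only [Set.mem_preimage]
    rw [show T.τ (e' z) = z from T.involutive z]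
  rw [h1]
  exact (T.isFundamentalDomain_moved h).setLIntegral_eq (isFundamentalDomain_prod h) F hF

/-- The integral operator of a weight. -/
def op (W : Y × P → ℂ) (Φ : Y → ℂ) (y : Y) : ℂ := ∫ p, W (y, p) * Φ (T.τ (y, p)).1 ∂ν

/-- The weight of the adjoint. -/
def adj (W : Y × P → ℂ) (z : Y × P) : ℂ := (starRingEnd ℂ) (W (T.τ z))

/-- A bounded equivariant weight. -/
structure IsWeight (W : Y × P → ℂ) (V : ℝ≥0∞) : Prop where
  measurable : Measurable W
  invariant : ∀ (γ : Γ) z, W (γ • z) = W z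
  row : ∀ y, ∫⁻ p, ‖W (y, p)‖ₑ ∂ν ≤ V
  col : ∀ y, ∫⁻ p, ‖W (T.τ (y, p))‖ₑ ∂ν ≤ V

variable {T}

omit [Countable Γ] [MeasurableConstSMul Γ Y] [MeasurableConstSMul Γ P] [SFinite μ] [SFinite ν]
  [SMulInvariantMeasure Γ Y μ] [SMulInvariantMeasure Γ P ν] in
theorem IsWeight.adj {W : Y × P → ℂ} {V : ℝ≥0∞} (hW : T.IsWeight W V) :
    T.IsWeight (T.adj W) V where
  measurable := Complex.continuous_conj.measurable.comp (hW.measurable.comp T.measurable)
  invariant γ z := by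
    change (starRingEnd ℂ) _ = (starRingEnd ℂ) _
    rw [T.equivariant, hW.invariant]
  row y := by simpa [Transport.adj, RCLike.enorm_conj] using hW.col y
  col y := by simpa [Transport.adj, RCLike.enorm_conj, T.involutive _] using hW.row y

omit [Countable Γ] [MeasurableConstSMul Γ Y] [MeasurableConstSMul Γ P] [SFinite μ]
  [SMulInvariantMeasure Γ Y μ] [SMulInvariantMeasure Γ P ν] in
theorem IsWeight.measurable_op {W : Y × P → ℂ} {V : ℝ≥0∞} (hW : T.IsWeight W V) {Φ : Y → ℂ}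
    (hΦ : Measurable Φ) : Measurable (T.op W Φ) :=
  (StronglyMeasurable.integral_prod_right'
    (f := fun z : Y × P => W z * Φ (T.τ z).1)
    ((hW.measurable.mul (hΦ.comp (measurable_fst.comp T.measurable))).stronglyMeasurable)).measurable

omit [Countable Γ] [MeasurableConstSMul Γ Y] [MeasurableConstSMul Γ P]
  [SMulInvariantMeasure Γ Y μ] [SMulInvariantMeasure Γ P ν] [SFinite μ] [SFinite ν] in
theorem IsWeight.op_invariant {W : Y × P → ℂ} {V : ℝ≥0∞} (hW : T.IsWeight W V) {Φ : Y → ℂ}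
    (hΦ : ∀ (γ : Γ) y, Φ (γ • y) = Φ y) (hν : ∀ γ : Γ, MeasurePreserving (fun p : P => γ • p) ν ν)
    (γ : Γ) (y : Y) : T.op W Φ (γ • y) = T.op W Φ y := by
  let e : P ≃ᵐ P := ⟨MulAction.toPerm γ, (hν γ).measurable, (hν γ⁻¹).measurable⟩
  have hemb : MeasurableEmbedding (fun p : P => γ • p) := e.measurableEmbedding
  rw [op, op, ← (hν γ).integral_comp hemb (fun p => W (γ • y, p) * Φ (T.τ (γ • y, p)).1)]
  refine integral_congr_ae (Eventually.of_forall fun p => ?_)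
  change W (γ • (y, p)) * Φ (T.τ (γ • (y, p))).1 = _
  rw [hW.invariant, T.equivariant, Prod.smul_fst, hΦ]

omit [Countable Γ] [MeasurableConstSMul Γ Y] [MeasurableConstSMul Γ P] [SFinite μ] [SFinite ν]
  [SMulInvariantMeasure Γ Y μ] [SMulInvariantMeasure Γ P ν] in
/-- Cauchy-Schwarz for one row. -/
theorem IsWeight.enorm_op_sq_le {W : Y × P → ℂ} {V : ℝ≥0∞} (hW : T.IsWeight W V) {Φ : Y → ℂ}
    (hΦ : Measurable Φ) (y : Y) :
    ‖T.op W Φ y‖ₑ ^ 2 ≤ V * ∫⁻ p, ‖W (y, p)‖ₑ * ‖Φ (T.τ (y, p)).1‖ₑ ^ 2 ∂ν := by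
  set f : P → ℝ≥0∞ := fun p => ‖W (y, p)‖ₑ ^ (1 / 2 : ℝ)
  set g : P → ℝ≥0∞ := fun p => ‖W (y, p)‖ₑ ^ (1 / 2 : ℝ) * ‖Φ (T.τ (y, p)).1‖ₑ
  have hWm : Measurable fun p => W (y, p) := hW.measurable.comp measurable_prodMk_left
  have hΦm : Measurable fun p => Φ (T.τ (y, p)).1 :=
    hΦ.comp (measurable_fst.comp (T.measurable.comp measurable_prodMk_left))
  have hfm : Measurable f := hWm.enorm.pow_const _
  have hgm : Measurable g := hfm.mul hΦm.enorm
  have h1 : ‖T.op W Φ y‖ₑ ≤ ∫⁻ p, f p * g p ∂ν := by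
    refine (enorm_integral_le_lintegral_enorm _).trans_eq (lintegral_congr fun p => ?_)
    simp only [f, g]
    rw [enorm_mul, ← mul_assoc, ← ENNReal.rpow_add_of_nonneg _ _ (by norm_num) (by norm_num)]
    norm_num
  have hh : Real.HolderConjugate 2 2 := Real.HolderConjugate.two_two
  have h2 := ENNReal.lintegral_mul_le_Lp_mul_Lq ν hh hfm.aemeasurable hgm.aemeasurable
  have hf2 : ∀ p, f p ^ (2 : ℝ) = ‖W (y, p)‖ₑ := fun p => by
    simp only [f]; rw [← ENNReal.rpow_mul]; norm_num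
  have hg2 : ∀ p, g p ^ (2 : ℝ) = ‖W (y, p)‖ₑ * ‖Φ (T.τ (y, p)).1‖ₑ ^ 2 := fun p => by
    simp only [g]; rw [ENNReal.mul_rpow_of_nonneg _ _ (by norm_num), ← ENNReal.rpow_mul]; norm_num
  simp only [Pi.mul_apply, hf2, hg2] at h2
  have h3 := pow_le_pow_left' (h1.trans h2) 2
  rw [mul_pow, ← ENNReal.rpow_natCast (_ ^ (1 / 2 : ℝ)) 2,
    ← ENNReal.rpow_natCast ((∫⁻ p, ‖W (y, p)‖ₑ * ‖Φ (T.τ (y, p)).1‖ₑ ^ 2 ∂ν) ^ (1 / 2 : ℝ)) 2,
    ← ENNReal.rpow_mul, ← ENNReal.rpow_mul] at h3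
  norm_num at h3
  exact h3.trans (mul_le_mul_left (hW.row y) _)

/-- **Boundedness.** -/
theorem IsWeight.lintegral_op_sq_le {𝔉 : Set Y} (h : IsFundamentalDomain Γ 𝔉 μ) {W : Y × P → ℂ}
    {V : ℝ≥0∞} (hW : T.IsWeight W V) {Φ : Y → ℂ} (hΦm : Measurable Φ)
    (hΦ : ∀ (γ : Γ) y, Φ (γ • y) = Φ y) :
    ∫⁻ y in 𝔉, ‖T.op W Φ y‖ₑ ^ 2 ∂μ ≤ V * V * ∫⁻ y in 𝔉, ‖Φ y‖ₑ ^ 2 ∂μ := by
  set F : Y × P → ℝ≥0∞ := fun z => ‖W z‖ₑ * ‖Φ (T.τ z).1‖ₑ ^ 2
  have hFm : Measurable F :=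
    hW.measurable.enorm.mul ((hΦm.comp (measurable_fst.comp T.measurable)).enorm.pow_const 2)
  have hFi : ∀ (γ : Γ) z, F (γ • z) = F z := fun γ z => by
    simp only [F]
    rw [hW.invariant, T.equivariant, Prod.smul_fst, hΦ]
  calc ∫⁻ y in 𝔉, ‖T.op W Φ y‖ₑ ^ 2 ∂μ
      ≤ ∫⁻ y in 𝔉, V * ∫⁻ p, F (y, p) ∂ν ∂μ := lintegral_mono fun y => hW.enorm_op_sq_le hΦm y
    _ = V * ∫⁻ y in 𝔉, ∫⁻ p, F (y, p) ∂ν ∂μ :=
        lintegral_const_mul V hFm.lintegral_prod_right'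
    _ = V * ∫⁻ y in 𝔉, ∫⁻ p, F (T.τ (y, p)) ∂ν ∂μ := by rw [T.lintegral_swap h hFi hFm]
    _ ≤ V * (V * ∫⁻ y in 𝔉, ‖Φ y‖ₑ ^ 2 ∂μ) := by
        refine mul_le_mul_right ?_ V
        rw [← lintegral_const_mul V (hΦm.enorm.pow_const 2)]
        refine lintegral_mono fun y => ?_
        simp only [F, T.involutive _]
        rw [lintegral_mul_const _ (show Measurable fun p => ‖W (T.τ (y, p))‖ₑ from
          (hW.measurable.comp (T.measurable.comp measurable_prodMk_left)).enorm)]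
        exact mul_le_mul_left (hW.col y) _
    _ = _ := by rw [mul_assoc]

/-- **The adjoint.** -/
theorem IsWeight.integral_op_mul {𝔉 : Set Y} (h : IsFundamentalDomain Γ 𝔉 μ) {W : Y × P → ℂ}
    {V : ℝ≥0∞} (hW : T.IsWeight W V) (hV : V ≠ ⊤) {Φ Ψ : Y → ℂ} (hΦm : Measurable Φ)
    (hΨm : Measurable Ψ) (hΦ : ∀ (γ : Γ) y, Φ (γ • y) = Φ y) (hΨ : ∀ (γ : Γ) y, Ψ (γ • y) = Ψ y)
    (hΦ2 : ∫⁻ y in 𝔉, ‖Φ y‖ₑ ^ 2 ∂μ ≠ ⊤) (hΨ2 : ∫⁻ y in 𝔉, ‖Ψ y‖ₑ ^ 2 ∂μ ≠ ⊤) :
    ∫ y in 𝔉, (starRingEnd ℂ) (T.op W Φ y) * Ψ y ∂μ =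
      ∫ y in 𝔉, (starRingEnd ℂ) (Φ y) * T.op (T.adj W) Ψ y ∂μ := by
  have : SMulInvariantMeasure Γ (Y × P) (μ.prod ν) :=
    ⟨fun γ _ hs => (measurePreserving_prod_smul γ).measure_preimage hs.nullMeasurableSet⟩
  have : MeasurableConstSMul Γ (Y × P) := ⟨fun γ => (measurePreserving_prod_smul (μ := μ) (ν := ν) γ).measurable⟩
  set F : Y × P → ℂ := fun z => (starRingEnd ℂ) (W z * Φ (T.τ z).1) * Ψ z.1
  have hFm : Measurable F :=
    (Complex.continuous_conj.measurable.comp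
      (hW.measurable.mul (hΦm.comp (measurable_fst.comp T.measurable)))).mul (hΨm.comp measurable_fst)
  have hFi : ∀ (γ : Γ) z, F (γ • z) = F z := fun γ z => by
    simp only [F]
    rw [hW.invariant, T.equivariant, Prod.smul_fst, hΦ, Prod.smul_fst, hΨ]
  -- integrability on `𝔉 × P`
  have hint : IntegrableOn F (Prod.fst ⁻¹' 𝔉) (μ.prod ν) := by
    refine ⟨hFm.aestronglyMeasurable, ?_⟩
    rw [hasFiniteIntegral_iff_enorm,
      show (Prod.fst ⁻¹' 𝔉 : Set (Y × P)) = 𝔉 ×ˢ univ from (prod_univ).symm,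
      ← Measure.prod_restrict, Measure.restrict_univ, lintegral_prod _ hFm.enorm.aemeasurable]
    have hle : ∀ y, ∫⁻ p, ‖F (y, p)‖ₑ ∂ν ≤
        ∫⁻ p, ‖W (y, p)‖ₑ * ‖Φ (T.τ (y, p)).1‖ₑ ^ 2 ∂ν + V * ‖Ψ y‖ₑ ^ 2 := by
      intro y
      have hm1 : Measurable fun p => ‖W (y, p)‖ₑ := (hW.measurable.comp measurable_prodMk_left).enorm
      refine le_trans (lintegral_mono fun p => ?_)
        (le_trans (le_of_eq (lintegral_add_right _ (hm1.mul_const (‖Ψ y‖ₑ ^ 2))))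
          (add_le_add_right (le_of_eq_of_le (lintegral_mul_const _ hm1)
            (mul_le_mul_left (hW.row y) _)) _))
      simp only [F, enorm_mul, RCLike.enorm_conj]
      rw [mul_assoc, ← mul_add]
      refine mul_le_mul_right ?_ _
      rcases le_total ‖Φ (T.τ (y, p)).1‖ₑ ‖Ψ y‖ₑ with h' | h'
      · exact le_add_left ((mul_le_mul_left h' _).trans_eq (sq _).symm)
      · exact le_add_right ((mul_le_mul_right h' _).trans_eq (sq _).symm)
    refine lt_of_le_of_lt (lintegral_mono hle) ?_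
    rw [lintegral_add_right _ ((hΨm.enorm.pow_const 2).const_mul V),
      lintegral_const_mul _ (hΨm.enorm.pow_const 2)]
    refine ENNReal.add_lt_top.mpr ⟨?_, ENNReal.mul_lt_top hV.lt_top hΨ2.lt_top⟩
    have hG : Measurable fun z : Y × P => ‖W z‖ₑ * ‖Φ (T.τ z).1‖ₑ ^ 2 :=
      hW.measurable.enorm.mul ((hΦm.comp (measurable_fst.comp T.measurable)).enorm.pow_const 2)
    rw [← T.lintegral_swap h (fun γ z => by rw [hW.invariant, T.equivariant, Prod.smul_fst, hΦ]) hG]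
    refine lt_of_le_of_lt (lintegral_mono (g := fun y => V * ‖Φ y‖ₑ ^ 2) fun y => ?_) ?_
    · simp only [T.involutive _]
      rw [lintegral_mul_const _ (show Measurable fun p => ‖W (T.τ (y, p))‖ₑ from
        (hW.measurable.comp (T.measurable.comp measurable_prodMk_left)).enorm)]
      exact mul_le_mul_left (hW.col y) _
    · rw [lintegral_const_mul _ (hΦm.enorm.pow_const 2)]
      exact ENNReal.mul_lt_top hV.lt_top hΦ2.lt_top
  have hint' : IntegrableOn (fun z => F (T.τ z)) (Prod.fst ⁻¹' 𝔉) (μ.prod ν) := by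
    let e' : Y × P ≃ᵐ Y × P := ⟨T.equiv, T.measurable, T.measurable⟩
    have hmp : MeasurePreserving e' (μ.prod ν) (μ.prod ν) := T.preserving
    have h1 : IntegrableOn F (T.τ ⁻¹' (Prod.fst ⁻¹' 𝔉)) (μ.prod ν) :=
      (T.isFundamentalDomain_moved h).integrableOn_iff (isFundamentalDomain_prod h) hFi |>.mpr hint
    have h2 := (hmp.integrableOn_comp_preimage e'.measurableEmbedding (f := F)
      (s := T.τ ⁻¹' (Prod.fst ⁻¹' 𝔉))).mpr h1
    refine h2.mono_set fun z hz => ?_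
    simp only [Set.mem_preimage] at hz ⊢
    rwa [show T.τ (e' z) = z from T.involutive z]
  have hswap : ∫ z in Prod.fst ⁻¹' 𝔉, F (T.τ z) ∂(μ.prod ν) =
      ∫ z in Prod.fst ⁻¹' 𝔉, F z ∂(μ.prod ν) := by
    let e' : Y × P ≃ᵐ Y × P := ⟨T.equiv, T.measurable, T.measurable⟩
    have hmp : MeasurePreserving e' (μ.prod ν) (μ.prod ν) := T.preserving
    have h2 := hmp.setIntegral_preimage_emb e'.measurableEmbedding F (T.τ ⁻¹' (Prod.fst ⁻¹' 𝔉))
    rw [(T.isFundamentalDomain_moved h).setIntegral_eq (isFundamentalDomain_prod h) hFi] at h2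
    rw [← h2]
    congr 2
    ext z
    simp only [Set.mem_preimage]
    rw [show T.τ (e' z) = z from T.involutive z]
  have e1 : ∀ G : Y × P → ℂ, IntegrableOn G (Prod.fst ⁻¹' 𝔉) (μ.prod ν) →
      ∫ z in Prod.fst ⁻¹' 𝔉, G z ∂(μ.prod ν) = ∫ y in 𝔉, ∫ p, G (y, p) ∂ν ∂μ := by
    intro G hG
    rw [show (Prod.fst ⁻¹' 𝔉 : Set (Y × P)) = 𝔉 ×ˢ univ from (prod_univ).symm,
      setIntegral_prod G (by rwa [prod_univ])]
    simp only [Measure.restrict_univ]
  rw [e1 _ hint', e1 _ hint] at hswap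
  calc ∫ y in 𝔉, (starRingEnd ℂ) (T.op W Φ y) * Ψ y ∂μ
      = ∫ y in 𝔉, ∫ p, F (y, p) ∂ν ∂μ := by
        refine integral_congr_ae (Eventually.of_forall fun y => ?_)
        simp only [F, op]
        rw [integral_mul_const, integral_conj]
    _ = ∫ y in 𝔉, ∫ p, F (T.τ (y, p)) ∂ν ∂μ := hswap.symm
    _ = _ := by
        refine integral_congr_ae (Eventually.of_forall fun y => ?_)
        simp only [F, op, T.involutive _, map_mul]
        rw [← integral_const_mul]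
        refine integral_congr_ae (Eventually.of_forall fun p => ?_)
        simp only [Transport.adj]
        ring

end Transport

end FermatAgent.LT
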