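import Mathlib
import Fermat.Agent.LT.Descent.Spectral.Transport

set_option autoImplicit false

/-!
# Invariant functions and operators on the square integrable functions of a fundamental domain
-/

noncomputable section

open MeasureTheory Set Filter
open scoped ENNReal Pointwise

namespace FermatAgent.LT

variable {Γ Y P : Type*} [Group Γ] [Countable Γ] [MeasurableSpace Y] [MeasurableSpace P]
  [MulAction Γ Y] [MulAction Γ P] [MeasurableConstSMul Γ Y] [MeasurableConstSMul Γ P]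
  {μ : Measure Y} {ν : Measure P} [SFinite μ] [SFinite ν]
  [SMulInvariantMeasure Γ Y μ] [SMulInvariantMeasure Γ P ν]

/-- A measurable fundamental domain meeting every orbit at most once. -/
structure AutDomain (Γ : Type*) {Y : Type*} [MeasurableSpace Y] [Group Γ] [MulAction Γ Y]
    (μ : Measure Y) where
  /-- the domain -/
  carrier : Set Y
  isFund : IsFundamentalDomain Γ carrier μ
  measurableSet : MeasurableSet carrier
  strict : ∀ γ : Γ, γ ≠ 1 → ∀ y ∈ carrier, γ • y ∉ carrier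

namespace AutDomain

variable (𝔇 : AutDomain Γ μ)

/-- The square integrable functions on the domain. -/
abbrev Space := Lp ℂ 2 (μ.restrict 𝔇.carrier)

open Classical in
/-- The invariant extension. -/
def ext (f : Y → ℂ) (y : Y) : ℂ :=
  if h : ∃ γ : Γ, γ • y ∈ 𝔇.carrier then f (h.choose • y) else 0

omit [Countable Γ] [MeasurableConstSMul Γ Y] [SFinite μ] [SMulInvariantMeasure Γ Y μ] in
theorem eq_of_mem {y : Y} {γ δ : Γ} (hγ : γ • y ∈ 𝔇.carrier) (hδ : δ • y ∈ 𝔇.carrier) : γ = δ := by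
  by_contra hne
  refine 𝔇.strict (δ * γ⁻¹) (fun h => hne ?_) _ hγ ?_
  · exact (mul_inv_eq_one.mp h).symm
  · rwa [mul_smul, inv_smul_smul]

omit [Countable Γ] [MeasurableConstSMul Γ Y] [SFinite μ] [SMulInvariantMeasure Γ Y μ] in
theorem ext_eq {f : Y → ℂ} {y : Y} {γ : Γ} (hγ : γ • y ∈ 𝔇.carrier) : 𝔇.ext f y = f (γ • y) := by
  classical
  have h : ∃ γ : Γ, γ • y ∈ 𝔇.carrier := ⟨γ, hγ⟩
  rw [ext, dif_pos h, 𝔇.eq_of_mem h.choose_spec hγ]

omit [Countable Γ] [MeasurableConstSMul Γ Y] [SFinite μ] [SMulInvariantMeasure Γ Y μ] in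
theorem ext_of_mem {f : Y → ℂ} {y : Y} (hy : y ∈ 𝔇.carrier) : 𝔇.ext f y = f y := by
  rw [𝔇.ext_eq (γ := 1) (by rwa [one_smul]), one_smul]

omit [Countable Γ] [MeasurableConstSMul Γ Y] [SFinite μ] [SMulInvariantMeasure Γ Y μ] in
theorem ext_invariant (f : Y → ℂ) (γ : Γ) (y : Y) : 𝔇.ext f (γ • y) = 𝔇.ext f y := by
  classical
  by_cases h : ∃ δ : Γ, δ • y ∈ 𝔇.carrier
  · obtain ⟨δ, hδ⟩ := h
    rw [𝔇.ext_eq hδ, 𝔇.ext_eq (γ := δ * γ⁻¹) (by rwa [smul_smul, inv_mul_cancel_right]),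
      smul_smul, inv_mul_cancel_right]
  · rw [ext, ext, dif_neg h, dif_neg]
    rintro ⟨δ, hδ⟩
    exact h ⟨δ * γ, by rwa [mul_smul]⟩

omit [SFinite μ] [SMulInvariantMeasure Γ Y μ] in
theorem measurable_ext {f : Y → ℂ} (hf : Measurable f) : Measurable (𝔇.ext f) := by
  classical
  intro s hs
  have : 𝔇.ext f ⁻¹' s = (⋃ γ : Γ, (fun y => γ • y) ⁻¹' (𝔇.carrier ∩ f ⁻¹' s)) ∪
      ((⋃ γ : Γ, (fun y => γ • y) ⁻¹' 𝔇.carrier)ᶜ ∩ {_y | (0 : ℂ) ∈ s}) := by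
    ext y
    simp only [mem_preimage, mem_union, mem_iUnion, mem_inter_iff, mem_compl_iff, mem_ofPred_eq]
    by_cases h : ∃ γ : Γ, γ • y ∈ 𝔇.carrier
    · obtain ⟨γ, hγ⟩ := h
      rw [𝔇.ext_eq hγ]
      refine ⟨fun hs => Or.inl ⟨γ, hγ, hs⟩, ?_⟩
      rintro (⟨δ, hδ, hs⟩ | ⟨hn, -⟩)
      · rwa [𝔇.eq_of_mem hγ hδ]
      · exact absurd ⟨γ, hγ⟩ hn
    · rw [ext, dif_neg h]
      exact ⟨fun hs => Or.inr ⟨h, hs⟩, fun h' => h'.elim (fun ⟨δ, hδ, _⟩ => absurd ⟨δ, hδ⟩ h) fun h' => h'.2⟩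
  rw [this]
  refine (MeasurableSet.iUnion fun γ => measurable_const_smul γ (𝔇.measurableSet.inter (hf hs))).union
    ((MeasurableSet.iUnion fun γ => measurable_const_smul γ 𝔇.measurableSet).compl.inter ?_)
  exact MeasurableSet.const _

omit [SFinite μ] [MeasurableConstSMul Γ Y] [SMulInvariantMeasure Γ Y μ] [Countable Γ] in
theorem ext_eq_ae {Φ : Y → ℂ} (hΦ : ∀ (γ : Γ) y, Φ (γ • y) = Φ y) : 𝔇.ext Φ =ᵐ[μ] Φ := by
  filter_upwards [𝔇.isFund.ae_covers] with y ⟨γ, hγ⟩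
  rw [𝔇.ext_eq hγ, hΦ]

omit [SFinite μ] in
theorem ext_congr_ae {f g : Y → ℂ} (h : f =ᵐ[μ.restrict 𝔇.carrier] g) : 𝔇.ext f =ᵐ[μ] 𝔇.ext g := by
  have h' : ∀ᵐ y ∂μ, y ∈ 𝔇.carrier → f y = g y := (ae_restrict_iff' 𝔇.measurableSet).mp h
  have hall : ∀ᵐ y ∂μ, ∀ γ : Γ, γ • y ∈ 𝔇.carrier → f (γ • y) = g (γ • y) :=
    ae_all_iff.mpr fun γ =>
      (MeasureTheory.measurePreserving_smul γ μ).quasiMeasurePreserving.ae h'
  filter_upwards [hall, 𝔇.isFund.ae_covers] with y hy ⟨γ, hγ⟩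
  rw [𝔇.ext_eq hγ, 𝔇.ext_eq hγ, hy γ hγ]

/-- The invariant extension of a class. -/
def lift (φ : 𝔇.Space) : Y → ℂ := 𝔇.ext ((Lp.aestronglyMeasurable φ).mk φ)

omit [SMulInvariantMeasure Γ Y μ] [SFinite μ] in
theorem measurable_lift (φ : 𝔇.Space) : Measurable (𝔇.lift φ) :=
  𝔇.measurable_ext (Lp.aestronglyMeasurable φ).stronglyMeasurable_mk.measurable

omit [Countable Γ] [MeasurableConstSMul Γ Y] [SFinite μ] [SMulInvariantMeasure Γ Y μ] in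
theorem lift_invariant (φ : 𝔇.Space) (γ : Γ) (y : Y) : 𝔇.lift φ (γ • y) = 𝔇.lift φ y :=
  𝔇.ext_invariant _ γ y

omit [Countable Γ] [MeasurableConstSMul Γ Y] [SFinite μ] [SMulInvariantMeasure Γ Y μ] in
theorem lift_ae_restrict (φ : 𝔇.Space) : 𝔇.lift φ =ᵐ[μ.restrict 𝔇.carrier] φ := by
  have h1 : ∀ᵐ y ∂(μ.restrict 𝔇.carrier), y ∈ 𝔇.carrier := ae_restrict_mem 𝔇.measurableSet
  filter_upwards [h1, (Lp.aestronglyMeasurable φ).ae_eq_mk] with y hy he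
  rw [lift, 𝔇.ext_of_mem hy, ← he]

omit [SFinite μ] in
theorem lift_ae_of_eq {φ : 𝔇.Space} {Φ : Y → ℂ} (hΦ : ∀ (γ : Γ) y, Φ (γ • y) = Φ y)
    (h : ⇑φ =ᵐ[μ.restrict 𝔇.carrier] Φ) : 𝔇.lift φ =ᵐ[μ] Φ :=
  ((𝔇.ext_congr_ae ((Lp.aestronglyMeasurable φ).ae_eq_mk.symm.trans h))).trans (𝔇.ext_eq_ae hΦ)

omit [Countable Γ] [MeasurableConstSMul Γ Y] [SFinite μ] [SMulInvariantMeasure Γ Y μ] in
theorem lintegral_lift (φ : 𝔇.Space) :
    ∫⁻ y in 𝔇.carrier, ‖𝔇.lift φ y‖ₑ ^ 2 ∂μ = ‖φ‖ₑ ^ 2 := by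
  rw [lintegral_congr_ae (g := fun y => ‖φ y‖ₑ ^ 2)
    ((𝔇.lift_ae_restrict φ).mono fun y hy => by simp only [hy]),
    Lp.enorm_def, eLpNorm_eq_lintegral_rpow_enorm_toReal two_ne_zero ENNReal.ofNat_ne_top
      (μ := μ.restrict 𝔇.carrier) (f := ⇑φ)]
  simp only [ENNReal.toReal_ofNat, one_div]
  rw [← ENNReal.rpow_natCast (_ ^ (2⁻¹ : ℝ)) 2, ← ENNReal.rpow_mul]
  norm_num

variable {T : Transport Γ μ ν}

omit [Countable Γ] [MeasurableConstSMul Γ Y] [MeasurableConstSMul Γ P]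
  [SMulInvariantMeasure Γ Y μ] [SMulInvariantMeasure Γ P ν] [SFinite μ] in
theorem op_congr_ae {W : Y × P → ℂ} {Φ Φ' : Y → ℂ} (h : Φ =ᵐ[μ] Φ') :
    T.op W Φ =ᵐ[μ] T.op W Φ' := by
  have h1 : ∀ᵐ z ∂(μ.prod ν), Φ (T.τ z).1 = Φ' (T.τ z).1 :=
    ((Measure.quasiMeasurePreserving_fst.comp T.preserving.quasiMeasurePreserving).ae h)
  filter_upwards [Measure.ae_ae_of_ae_prod h1] with y hy
  refine integral_congr_ae ?_
  filter_upwards [hy] with p hp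
  rw [hp]

theorem ae_integrable {W : Y × P → ℂ} {V : ℝ≥0∞} (hW : T.IsWeight W V) (hV : V ≠ ⊤) (φ : 𝔇.Space) :
    ∀ᵐ y ∂(μ.restrict 𝔇.carrier), Integrable (fun p => W (y, p) * 𝔇.lift φ (T.τ (y, p)).1) ν := by
  set Φ := 𝔇.lift φ
  have hΦm := 𝔇.measurable_lift φ
  set F : Y × P → ℝ≥0∞ := fun z => ‖W z‖ₑ * ‖Φ (T.τ z).1‖ₑ ^ 2
  have hFm : Measurable F :=
    hW.measurable.enorm.mul ((hΦm.comp (measurable_fst.comp T.measurable)).enorm.pow_const 2)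
  have hFi : ∀ (γ : Γ) z, F (γ • z) = F z := fun γ z => by
    simp only [F]
    rw [hW.invariant, T.equivariant, Prod.smul_fst,
      show Φ (γ • (T.τ z).1) = Φ (T.τ z).1 from 𝔇.lift_invariant φ γ _]
  have hfin : ∫⁻ y in 𝔇.carrier, ∫⁻ p, F (y, p) ∂ν ∂μ ≠ ⊤ := by
    rw [← T.lintegral_swap 𝔇.isFund hFi hFm]
    refine ne_top_of_le_ne_top (ENNReal.mul_ne_top hV
      (ENNReal.pow_ne_top (enorm_ne_top (x := φ)) : ‖φ‖ₑ ^ 2 ≠ ⊤)) ?_
    rw [← 𝔇.lintegral_lift, ← lintegral_const_mul V (hΦm.enorm.pow_const 2)]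
    refine lintegral_mono fun y => ?_
    simp only [F, T.involutive _]
    rw [lintegral_mul_const _ (show Measurable fun p => ‖W (T.τ (y, p))‖ₑ from
      (hW.measurable.comp (T.measurable.comp measurable_prodMk_left)).enorm)]
    exact mul_le_mul_left (hW.col y) _
  filter_upwards [ae_lt_top hFm.lintegral_prod_right' hfin] with y hy
  refine ⟨((hW.measurable.comp measurable_prodMk_left).mul
    (hΦm.comp (measurable_fst.comp (T.measurable.comp measurable_prodMk_left)))).aestronglyMeasurable, ?_⟩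
  rw [hasFiniteIntegral_iff_enorm]
  refine lt_of_le_of_lt (lintegral_mono (g := fun p => ‖W (y, p)‖ₑ + F (y, p)) fun p => ?_) ?_
  · simp only [enorm_mul, F]
    rcases le_total ‖Φ (T.τ (y, p)).1‖ₑ 1 with h1 | h1
    · exact le_add_right (mul_le_of_le_one_right' h1)
    · exact le_add_left (mul_le_mul_right (le_self_pow h1 two_ne_zero) _)
  · rw [lintegral_add_left (show Measurable fun p => ‖W (y, p)‖ₑ from
      (hW.measurable.comp measurable_prodMk_left).enorm)]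
    exact ENNReal.add_lt_top.mpr ⟨(hW.row y).trans_lt hV.lt_top, hy⟩

theorem memLp_op {W : Y × P → ℂ} {V : ℝ≥0∞} (hW : T.IsWeight W V) (hV : V ≠ ⊤) (φ : 𝔇.Space) :
    MemLp (T.op W (𝔇.lift φ)) 2 (μ.restrict 𝔇.carrier) := by
  refine ⟨(hW.measurable_op (𝔇.measurable_lift φ)).aestronglyMeasurable, ?_⟩
  rw [eLpNorm_lt_top_iff_lintegral_rpow_enorm_lt_top two_ne_zero ENNReal.ofNat_ne_top]
  simp only [ENNReal.toReal_ofNat, ENNReal.rpow_two]
  refine lt_of_le_of_lt (hW.lintegral_op_sq_le 𝔇.isFund (𝔇.measurable_lift φ) (𝔇.lift_invariant φ)) ?_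
  rw [𝔇.lintegral_lift]
  exact ENNReal.mul_lt_top (ENNReal.mul_lt_top hV.lt_top hV.lt_top)
    (ENNReal.pow_lt_top enorm_lt_top)

/-- The operator of a weight. -/
def clm {W : Y × P → ℂ} {V : ℝ≥0∞} (hW : T.IsWeight W V) (hV : V ≠ ⊤) :
    𝔇.Space →L[ℂ] 𝔇.Space :=
  LinearMap.mkContinuous
    { toFun := fun φ => (𝔇.memLp_op hW hV φ).toLp
      map_add' := fun φ ψ => by
        rw [← MemLp.toLp_add]
        refine MemLp.toLp_congr _ _ ?_
        have hlift : 𝔇.lift (φ + ψ) =ᵐ[μ] 𝔇.lift φ + 𝔇.lift ψ :=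
          𝔇.lift_ae_of_eq (fun γ y => by simp [𝔇.lift_invariant])
            ((Lp.coeFn_add φ ψ).trans ((𝔇.lift_ae_restrict φ).symm.add (𝔇.lift_ae_restrict ψ).symm))
        filter_upwards [ae_restrict_of_ae (op_congr_ae (T := T) (W := W) hlift),
          𝔇.ae_integrable hW hV φ, 𝔇.ae_integrable hW hV ψ] with y hy h1 h2
        rw [hy, Pi.add_apply, Transport.op, Transport.op, Transport.op, ← integral_add h1 h2]
        refine integral_congr_ae (Eventually.of_forall fun p => ?_)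
        simp [mul_add]
      map_smul' := fun c φ => by
        rw [RingHom.id_apply, ← MemLp.toLp_const_smul]
        refine MemLp.toLp_congr _ _ ?_
        have hlift : 𝔇.lift (c • φ) =ᵐ[μ] c • 𝔇.lift φ :=
          𝔇.lift_ae_of_eq (fun γ y => by simp [𝔇.lift_invariant])
            ((Lp.coeFn_smul c φ).trans ((𝔇.lift_ae_restrict φ).symm.fun_comp (c • ·)))
        filter_upwards [ae_restrict_of_ae (op_congr_ae (T := T) (W := W) hlift)] with y hy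
        rw [hy, Pi.smul_apply, Transport.op, Transport.op, smul_eq_mul, ← integral_const_mul]
        refine integral_congr_ae (Eventually.of_forall fun p => ?_)
        simp only [Pi.smul_apply, smul_eq_mul]
        ring } V.toReal fun φ => by
    refine (Lp.norm_toLp _ (𝔇.memLp_op hW hV φ)).trans_le ?_
    rw [← ENNReal.toReal_ofReal (norm_nonneg φ), ← ENNReal.toReal_mul]
    refine ENNReal.toReal_mono (ENNReal.mul_ne_top hV ENNReal.ofReal_ne_top) ?_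
    rw [ofReal_norm, eLpNorm_eq_lintegral_rpow_enorm_toReal two_ne_zero ENNReal.ofNat_ne_top]
    simp only [ENNReal.toReal_ofNat, one_div, ENNReal.rpow_two]
    rw [ENNReal.rpow_inv_le_iff two_pos, ENNReal.rpow_two, mul_pow, sq V, ← 𝔇.lintegral_lift]
    exact hW.lintegral_op_sq_le 𝔇.isFund (𝔇.measurable_lift φ) (𝔇.lift_invariant φ)

theorem clm_ae {W : Y × P → ℂ} {V : ℝ≥0∞} (hW : T.IsWeight W V) (hV : V ≠ ⊤) (φ : 𝔇.Space) :
    ⇑(𝔇.clm hW hV φ) =ᵐ[μ.restrict 𝔇.carrier] T.op W (𝔇.lift φ) :=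
  MemLp.coeFn_toLp (𝔇.memLp_op hW hV φ)

theorem lift_clm_ae {W : Y × P → ℂ} {V : ℝ≥0∞} (hW : T.IsWeight W V) (hV : V ≠ ⊤) (φ : 𝔇.Space) :
    𝔇.lift (𝔇.clm hW hV φ) =ᵐ[μ] T.op W (𝔇.lift φ) :=
  𝔇.lift_ae_of_eq (hW.op_invariant (𝔇.lift_invariant φ)
    fun γ => MeasureTheory.measurePreserving_smul γ ν) (𝔇.clm_ae hW hV φ)

/-- The operator of a hermitian weight is symmetric. -/
theorem inner_clm {W : Y × P → ℂ} {V : ℝ≥0∞} (hW : T.IsWeight W V) (hV : V ≠ ⊤)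
    (φ ψ : 𝔇.Space) :
    inner ℂ (𝔇.clm hW hV φ) ψ = inner ℂ φ (𝔇.clm hW.adj hV ψ) := by
  rw [L2.inner_def, L2.inner_def]
  have e1 : ∫ y in 𝔇.carrier, inner ℂ ((𝔇.clm hW hV φ : 𝔇.Space) y) (ψ y) ∂μ =
      ∫ y in 𝔇.carrier, (starRingEnd ℂ) (T.op W (𝔇.lift φ) y) * 𝔇.lift ψ y ∂μ := by
    refine integral_congr_ae ?_
    filter_upwards [𝔇.clm_ae hW hV φ, 𝔇.lift_ae_restrict ψ] with y h1 h2
    rw [h1, ← h2, RCLike.inner_apply, mul_comm]
  have e2 : ∫ y in 𝔇.carrier, inner ℂ (φ y) ((𝔇.clm hW.adj hV ψ : 𝔇.Space) y) ∂μ =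
      ∫ y in 𝔇.carrier, (starRingEnd ℂ) (𝔇.lift φ y) * T.op (T.adj W) (𝔇.lift ψ) y ∂μ := by
    refine integral_congr_ae ?_
    filter_upwards [𝔇.clm_ae hW.adj hV ψ, 𝔇.lift_ae_restrict φ] with y h1 h2
    rw [h1, ← h2, RCLike.inner_apply, mul_comm]
  rw [e1, e2]
  exact hW.integral_op_mul 𝔇.isFund hV (𝔇.measurable_lift φ) (𝔇.measurable_lift ψ)
    (𝔇.lift_invariant φ) (𝔇.lift_invariant ψ)
    (by rw [𝔇.lintegral_lift]; exact ENNReal.pow_ne_top enorm_ne_top)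
    (by rw [𝔇.lintegral_lift]; exact ENNReal.pow_ne_top enorm_ne_top)

end AutDomain

end FermatAgent.LT
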