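import Mathlib
import Fermat.Agent.LT.Base.Space
import Fermat.Agent.LT.Base.Proper
import Fermat.Agent.LT.Descent.Kernel.Conv

set_option autoImplicit false

/-!
# The calculus of invariant kernels on the space
-/

noncomputable section

open MeasureTheory Set Filter NumberField IsDedekindDomain
open scoped ComplexConjugate ENNReal MatrixGroups

namespace FermatAgent.LT

variable {L : Type*} [Field L] [NumberField L] {𝔫 : Ideal (𝓞 L)} [h𝔫 : Fact (𝔫 ≠ ⊥)]

instance : Countable (Cosets 𝔫) := countable_cosets h𝔫.out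

instance : MeasurableConstSMul PGL(2, L) (YSpace 𝔫) := ⟨measurable_ySmul h𝔫.out⟩

instance : SMulInvariantMeasure PGL(2, L) (YSpace 𝔫) (yVol 𝔫) :=
  ⟨fun γ _ hs => (measurePreserving_ySmul h𝔫.out γ).measure_preimage hs.nullMeasurableSet⟩

instance : SigmaFinite (yVol 𝔫) := by
  unfold yVol
  infer_instance

/-- Translation as a measurable equivalence. -/
def ySmulEquiv (γ : PGL(2, L)) : YSpace 𝔫 ≃ᵐ YSpace 𝔫 where
  toFun y := γ • y
  invFun y := γ⁻¹ • y
  left_inv := inv_smul_smul γ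
  right_inv := smul_inv_smul γ
  measurable_toFun := measurable_ySmul h𝔫.out γ
  measurable_invFun := measurable_ySmul h𝔫.out γ⁻¹

omit h𝔫 in
theorem H3.near_bounds {P Q : H3} {R : ℝ} (h : H3.coshDist P Q ≤ R) :
    Q.t ≤ 2 * R * P.t ∧ P.t ≤ 2 * R * Q.t ∧ ‖Q.z‖ ≤ ‖P.z‖ + 2 * R * P.t := by
  have hP := P.t_pos
  have hQ := Q.t_pos
  have h1 := H3.coshDist_ge_one P Q
  have hn := Complex.normSq_nonneg (P.z - Q.z)
  have e : H3.coshDist P Q * (2 * P.t * Q.t) =
      Complex.normSq (P.z - Q.z) + P.t ^ 2 + Q.t ^ 2 := by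
    rw [H3.coshDist]
    field_simp
    ring
  have h2 : Complex.normSq (P.z - Q.z) + P.t ^ 2 + Q.t ^ 2 ≤ R * (2 * P.t * Q.t) :=
    e ▸ mul_le_mul_of_nonneg_right h (by positivity)
  have hQle : Q.t ≤ 2 * R * P.t := by nlinarith
  refine ⟨hQle, by nlinarith, ?_⟩
  have h3 : ‖P.z - Q.z‖ ≤ 2 * R * P.t := by
    refine le_of_pow_le_pow_left₀ two_ne_zero (by nlinarith) ?_
    rw [← Complex.normSq_eq_norm_sq]
    nlinarith [mul_le_mul_of_nonneg_left hQle (by nlinarith : 0 ≤ 2 * R * P.t)]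
  calc ‖Q.z‖ ≤ ‖P.z‖ + ‖P.z - Q.z‖ := norm_le_insert _ _
    _ ≤ _ := by linarith

omit h𝔫 in
/-- Finitely many elements bring a point near a given one over finitely many cosets. -/
theorem finite_near {s : Set (Cosets 𝔫)} (hs : s.Finite) (R : ℝ) (x : XInf L) (z : YSpace 𝔫) :
    {γ : PGL(2, L) | (γ • z).2 ∈ s ∧ ∀ w, H3.coshDist (x w) ((γ • z).1 w) ≤ R}.Finite := by
  set R' := ∑ w : InfinitePlace L,
    (‖(z.1 w).z‖ + (z.1 w).t + 1 / (z.1 w).t +
      ((‖(x w).z‖ + 2 * |R| * (x w).t) + 2 * |R| * (x w).t + 2 * |R| / (x w).t)) with hR'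
  have hle : ∀ w : InfinitePlace L,
      ‖(z.1 w).z‖ + (z.1 w).t + 1 / (z.1 w).t +
        ((‖(x w).z‖ + 2 * |R| * (x w).t) + 2 * |R| * (x w).t + 2 * |R| / (x w).t) ≤ R' := by
    intro w
    refine Finset.single_le_sum (f := fun w : InfinitePlace L =>
      ‖(z.1 w).z‖ + (z.1 w).t + 1 / (z.1 w).t +
        ((‖(x w).z‖ + 2 * |R| * (x w).t) + 2 * |R| * (x w).t + 2 * |R| / (x w).t)) (fun u _ => ?_)
      (Finset.mem_univ w)
    have := (z.1 u).t_pos
    have := (x u).t_pos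
    positivity
  refine (hs.biUnion fun d' _ => finite_moving z.2 d' R').subset ?_
  rintro γ ⟨hd, hd'⟩
  refine mem_iUnion₂.mpr ⟨_, hd, z.1, ?_, ?_, rfl⟩
  · intro w
    have := hle w
    have h1 := (z.1 w).t_pos
    have h2 := (x w).t_pos
    have a1 : 0 ≤ 1 / (z.1 w).t := by positivity
    have a2 : 0 ≤ 2 * |R| * (x w).t := by positivity
    have a3 : 0 ≤ 2 * |R| / (x w).t := by positivity
    have a4 := norm_nonneg (z.1 w).z
    have a5 := norm_nonneg (x w).z
    refine ⟨by linarith, ?_, by linarith⟩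
    have hR0 : 0 < R' := by linarith
    rw [div_le_iff₀ hR0]
    have : 1 / (z.1 w).t ≤ R' := by linarith
    rwa [div_le_iff₀ h1, mul_comm] at this
  · intro w
    change ‖((γ • z).1 w).z‖ ≤ R' ∧ 1 / R' ≤ ((γ • z).1 w).t ∧ ((γ • z).1 w).t ≤ R'
    obtain ⟨b1, b2, b3⟩ := H3.near_bounds (hd' w)
    set Q := (γ • z).1 w
    have := hle w
    have h1 := (z.1 w).t_pos
    have h2 := (x w).t_pos
    have hQ := Q.t_pos
    have a1 : 0 < 1 / (z.1 w).t := by positivity
    have a2 : 0 ≤ 2 * |R| * (x w).t := by positivity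
    have a3 : 0 ≤ 2 * |R| / (x w).t := by positivity
    have a4 := norm_nonneg (z.1 w).z
    have a5 := norm_nonneg (x w).z
    have c1 : 2 * R * (x w).t ≤ 2 * |R| * (x w).t := by gcongr; exact le_abs_self R
    have c2 : 2 * R * Q.t ≤ 2 * |R| * Q.t := by gcongr; exact le_abs_self R
    refine ⟨by linarith, ?_, by linarith⟩
    have hR0 : 0 < R' := by linarith
    rw [div_le_iff₀ hR0]
    have h3 : 2 * |R| / (x w).t ≤ R' := by linarith
    rw [div_le_iff₀ h2] at h3
    nlinarith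

variable {k k' k'' : YSpace 𝔫 → YSpace 𝔫 → ℂ}

omit h𝔫 in
theorem IsYKernel.measurable_row (hk : IsYKernel k) (y : YSpace 𝔫) : Measurable (k y) :=
  hk.measurable.comp measurable_prodMk_left

omit h𝔫 in
theorem IsYKernel.measurable_col (hk : IsYKernel k) (y : YSpace 𝔫) : Measurable fun u => k u y :=
  hk.measurable.comp measurable_prodMk_right

omit h𝔫 in
theorem IsYKernel.integrable_row (hk : IsYKernel k) (y : YSpace 𝔫) :
    Integrable (k y) (yVol 𝔫) := by
  obtain ⟨V, hV⟩ := hk.row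
  exact ⟨(hk.measurable_row y).aestronglyMeasurable,
    hasFiniteIntegral_iff_enorm.mpr ((hV y).trans_lt ENNReal.ofReal_lt_top)⟩

omit h𝔫 in
/-- The absolute value of a kernel. -/
theorem IsYKernel.abs (hk : IsYKernel k) : IsYKernel fun y u => (‖k y u‖ : ℂ) where
  measurable := Complex.continuous_ofReal.measurable.comp hk.measurable.norm
  invariant γ y y' := by simp only [hk.invariant]
  bounded := by simpa using hk.bounded
  row := by
    obtain ⟨V, hV⟩ := hk.row
    exact ⟨V, fun y => le_of_eq_of_le (lintegral_congr fun u => by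
      rw [← ofReal_norm, ← ofReal_norm, Complex.norm_real, norm_norm]) (hV y)⟩
  col := by
    obtain ⟨V, hV⟩ := hk.col
    exact ⟨V, fun y => le_of_eq_of_le (lintegral_congr fun u => by
      rw [← ofReal_norm, ← ofReal_norm, Complex.norm_real, norm_norm]) (hV y)⟩
  supp := by
    obtain ⟨R, hR⟩ := hk.supp
    exact ⟨R, fun y y' h => hR y y' fun h0 => h (by simp [h0])⟩
  fin q := by
    obtain ⟨s, hs, hs'⟩ := hk.fin q
    exact ⟨s, hs, fun y y' h => hs' y y' fun h0 => h (by simp [h0])⟩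

theorem lintegral_yConv_le (hk : IsYKernel k) (hk' : IsYKernel k') {V V' : ℝ}
    (hV : ∀ y, ∫⁻ u, ‖k y u‖ₑ ∂(yVol 𝔫) ≤ ENNReal.ofReal V)
    (hV' : ∀ y, ∫⁻ u, ‖k' y u‖ₑ ∂(yVol 𝔫) ≤ ENNReal.ofReal V') (y : YSpace 𝔫) :
    ∫⁻ p, ∫⁻ u, ‖k y u‖ₑ * ‖k' u p‖ₑ ∂(yVol 𝔫) ∂(yVol 𝔫) ≤
      ENNReal.ofReal V * ENNReal.ofReal V' := by
  rw [lintegral_lintegral_swap (((hk.measurable_row y).enorm.comp measurable_snd).mul
    (hk'.measurable.enorm.comp measurable_swap)).aemeasurable]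
  calc ∫⁻ u, ∫⁻ p, ‖k y u‖ₑ * ‖k' u p‖ₑ ∂(yVol 𝔫) ∂(yVol 𝔫)
      ≤ ∫⁻ u, ‖k y u‖ₑ * ENNReal.ofReal V' ∂(yVol 𝔫) := lintegral_mono fun u => by
        rw [lintegral_const_mul _ (hk'.measurable_row u).enorm]
        exact mul_le_mul_right (hV' u) _
    _ = (∫⁻ u, ‖k y u‖ₑ ∂(yVol 𝔫)) * ENNReal.ofReal V' :=
        lintegral_mul_const _ (hk.measurable_row y).enorm
    _ ≤ _ := mul_le_mul_left (hV y) _

theorem IsYKernel.yConv (hk : IsYKernel k) (hk' : IsYKernel k') : IsYKernel (yConv k k') where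
  measurable := (StronglyMeasurable.integral_prod_right'
    (f := fun z : (YSpace 𝔫 × YSpace 𝔫) × YSpace 𝔫 => k z.1.1 z.2 * k' z.2 z.1.2)
    ((hk.measurable.comp ((measurable_fst.comp measurable_fst).prodMk measurable_snd)).mul
      (hk'.measurable.comp (measurable_snd.prodMk
        (measurable_snd.comp measurable_fst)))).stronglyMeasurable).measurable
  invariant γ y y' := by
    simp only [LT.yConv]
    rw [← (measurePreserving_ySmul h𝔫.out γ).integral_comp (ySmulEquiv γ).measurableEmbedding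
      (fun u => k (γ • y) u * k' u (γ • y'))]
    simp [hk.invariant, hk'.invariant]
  bounded := by
    obtain ⟨C, hC⟩ := hk'.bounded
    obtain ⟨V, hV⟩ := hk.row
    refine ⟨max V 0 * max C 0, fun y y' => ?_⟩
    refine (norm_integral_le_lintegral_norm _).trans ?_
    refine (ENNReal.toReal_mono ENNReal.ofReal_ne_top ?_).trans
      (ENNReal.toReal_ofReal (by positivity : (0 : ℝ) ≤ max V 0 * max C 0)).le
    calc ∫⁻ u, ENNReal.ofReal ‖k y u * k' u y'‖ ∂(yVol 𝔫)
        ≤ ∫⁻ u, ‖k y u‖ₑ * ENNReal.ofReal (max C 0) ∂(yVol 𝔫) := lintegral_mono fun u => by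
          rw [norm_mul, ENNReal.ofReal_mul (norm_nonneg _), ofReal_norm]
          exact mul_le_mul_right (ENNReal.ofReal_le_ofReal ((hC _ _).trans (le_max_left _ _))) _
      _ = (∫⁻ u, ‖k y u‖ₑ ∂(yVol 𝔫)) * ENNReal.ofReal (max C 0) :=
          lintegral_mul_const _ (hk.measurable_row y).enorm
      _ ≤ ENNReal.ofReal (max V 0) * ENNReal.ofReal (max C 0) :=
          mul_le_mul_left ((hV y).trans (ENNReal.ofReal_le_ofReal (le_max_left _ _))) _
      _ = _ := (ENNReal.ofReal_mul (le_max_right _ _)).symm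
  row := by
    obtain ⟨V, hV⟩ := hk.row
    obtain ⟨V', hV'⟩ := hk'.row
    refine ⟨max V 0 * max V' 0, fun y => ?_⟩
    refine ((lintegral_mono fun p => (enorm_integral_le_lintegral_enorm _).trans
      (le_of_eq (lintegral_congr fun u => enorm_mul _ _))).trans
      (lintegral_yConv_le hk hk' hV hV' y)).trans ?_
    rw [ENNReal.ofReal_mul (le_max_right _ _)]
    gcongr <;> exact le_max_left _ _
  col := by
    obtain ⟨V, hV⟩ := hk.col
    obtain ⟨V', hV'⟩ := hk'.col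
    refine ⟨max V 0 * max V' 0, fun y => ?_⟩
    refine (lintegral_mono (g := fun p => ∫⁻ u, ‖k p u‖ₑ * ‖k' u y‖ₑ ∂(yVol 𝔫)) fun p =>
      (enorm_integral_le_lintegral_enorm _).trans
        (le_of_eq (lintegral_congr fun u => enorm_mul _ _))).trans ?_
    rw [lintegral_lintegral_swap (f := fun p u => ‖k p u‖ₑ * ‖k' u y‖ₑ)
      (hk.measurable.enorm.mul ((hk'.measurable_col y).enorm.comp measurable_snd)).aemeasurable]
    calc ∫⁻ u, ∫⁻ p, ‖k p u‖ₑ * ‖k' u y‖ₑ ∂(yVol 𝔫) ∂(yVol 𝔫)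
        ≤ ∫⁻ u, ENNReal.ofReal V * ‖k' u y‖ₑ ∂(yVol 𝔫) := lintegral_mono fun u => by
          rw [lintegral_mul_const _ (hk.measurable_col u).enorm]
          exact mul_le_mul_left (hV u) _
      _ = ENNReal.ofReal V * ∫⁻ u, ‖k' u y‖ₑ ∂(yVol 𝔫) :=
          lintegral_const_mul _ (hk'.measurable_col y).enorm
      _ ≤ _ := by
          rw [ENNReal.ofReal_mul (le_max_right _ _)]
          exact mul_le_mul' (ENNReal.ofReal_le_ofReal (le_max_left _ _))
            ((hV' y).trans (ENNReal.ofReal_le_ofReal (le_max_left _ _)))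
  supp := by
    obtain ⟨R, hR⟩ := hk.supp
    obtain ⟨R', hR'⟩ := hk'.supp
    refine ⟨1 + 32 * R * R' * (R ^ 2 + R' ^ 2), fun y y' hne w => ?_⟩
    obtain ⟨u, hu⟩ : ∃ u, k y u * k' u y' ≠ 0 := by
      by_contra hc
      push Not at hc
      exact hne (by simp [LT.yConv, hc])
    have h1 := hR _ _ (left_ne_zero_of_mul hu) w
    have h2 := hR' _ _ (right_ne_zero_of_mul hu) w
    have a1 := H3.coshDist_ge_one (y.1 w) (u.1 w)
    have a2 := H3.coshDist_ge_one (u.1 w) (y'.1 w)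
    refine (H3.coshDist_le_mul _ (u.1 w) _).trans ?_
    have : (0 : ℝ) ≤ R := by linarith
    have : (0 : ℝ) ≤ R' := by linarith
    gcongr
  fin q := by
    choose s hs hs' using hk.fin
    choose s' hs'f hs'' using hk'.fin
    refine ⟨(⋃ b ∈ s q, s' b) ∪ ⋃ b ∈ s' q, s b,
      ((hs q).biUnion fun b _ => hs'f b).union ((hs'f q).biUnion fun b _ => hs b),
      fun y y' hne => ?_⟩
    obtain ⟨u, hu⟩ : ∃ u, k y u * k' u y' ≠ 0 := by
      by_contra hc
      push Not at hc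
      exact hne (by simp [LT.yConv, hc])
    refine ⟨fun hq => Or.inl (mem_iUnion₂.mpr ⟨u.2,
      (hs' q _ _ (left_ne_zero_of_mul hu)).1 hq, (hs'' u.2 _ _ (right_ne_zero_of_mul hu)).1 rfl⟩),
      fun hq => Or.inr (mem_iUnion₂.mpr ⟨u.2,
      (hs'' q _ _ (right_ne_zero_of_mul hu)).2 hq, (hs' u.2 _ _ (left_ne_zero_of_mul hu)).2 rfl⟩)⟩

theorem IsYKernel.yPow (hk : IsYKernel k) : ∀ m, IsYKernel (yPow k m)
  | 0 => hk
  | m + 1 => hk.yConv (IsYKernel.yPow hk m)

/-! ### Sums over the group -/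

omit h𝔫 in
/-- For two given points only finitely many translates of the second lie in the support of a
kernel at the first. -/
theorem IsYKernel.finite_kerSum (hk : IsYKernel k) (y z : YSpace 𝔫) :
    (Function.support fun γ : PGL(2, L) => k y (γ • z)).Finite := by
  obtain ⟨R, hR⟩ := hk.supp
  obtain ⟨s, hs, hs'⟩ := hk.fin y.2
  exact (finite_near hs R y.1 z).subset fun γ hγ => ⟨(hs' _ _ hγ).1 rfl, hR _ _ hγ⟩

omit h𝔫 in
theorem kerSum_smul_right (γ : PGL(2, L)) (y z : YSpace 𝔫) :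
    kerSum k y (γ • z) = kerSum k y z := by
  simp only [kerSum, smul_smul]
  exact (Equiv.mulRight γ).tsum_eq fun δ => k y (δ • z)

omit h𝔫 in
theorem kerSum_smul_left (hk : IsYKernel k) (γ : PGL(2, L)) (y z : YSpace 𝔫) :
    kerSum k (γ • y) z = kerSum k y z := by
  simp only [kerSum]
  rw [← (Equiv.mulLeft γ).tsum_eq fun δ => k (γ • y) (δ • z)]
  exact tsum_congr fun δ => by rw [Equiv.coe_mulLeft, mul_smul, hk.invariant]

theorem IsYKernel.measurable_kerSum (hk : IsYKernel k) :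
    Measurable (Function.uncurry (kerSum k)) := by
  obtain ⟨e, he⟩ := exists_surjective_nat PGL(2, L)
  classical
  let F : ℕ → YSpace 𝔫 × YSpace 𝔫 → ℂ := fun n p =>
    ∑ γ ∈ (Finset.range n).image e, k p.1 (γ • p.2)
  refine measurable_of_tendsto_metrizable (f := F) (fun n => Finset.measurable_sum _ fun γ _ =>
    hk.measurable.comp (measurable_fst.prodMk ((measurable_ySmul h𝔫.out γ).comp measurable_snd))) ?_
  rw [tendsto_pi_nhds]
  intro p
  refine tendsto_atTop_of_eventually_const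
    (i₀ := ((hk.finite_kerSum p.1 p.2).toFinset.sup fun γ => (he γ).choose) + 1) fun n hn => ?_
  refine (tsum_eq_sum fun γ hγ => ?_).symm
  by_contra h0
  refine hγ (Finset.mem_image.mpr ⟨(he γ).choose, Finset.mem_range.mpr ?_, (he γ).choose_spec⟩)
  have := Finset.le_sup (f := fun γ => (he γ).choose)
    ((hk.finite_kerSum p.1 p.2).mem_toFinset.mpr h0)
  omega

omit h𝔫 in
/-- Composition and sums over the group. -/
theorem kerSum_yConv (hk : IsYKernel k) (hk' : IsYKernel k') (y z : YSpace 𝔫) :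
    kerSum (yConv k k') y z = yOp k (fun u => kerSum k' u z) y := by
  obtain ⟨R, hR⟩ := hk.supp
  obtain ⟨R', hR'⟩ := hk'.supp
  obtain ⟨s, hs, hs'⟩ := hk.fin y.2
  choose s' hs'f hs'' using hk'.fin
  set G := {γ : PGL(2, L) | (γ • z).2 ∈ (⋃ b ∈ s, s' b) ∧
    ∀ w, H3.coshDist (y.1 w) ((γ • z).1 w) ≤ 1 + 32 * R * R' * (R ^ 2 + R' ^ 2)}
  have hG : G.Finite := finite_near (hs.biUnion fun b _ => hs'f b) _ y.1 z
  have hzero : ∀ (γ : PGL(2, L)) u, γ ∉ hG.toFinset → k y u * k' u (γ • z) = 0 := by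
    intro γ u hγ
    by_contra hne
    have hu1 := left_ne_zero_of_mul hne
    have hu2 := right_ne_zero_of_mul hne
    refine hγ (hG.mem_toFinset.mpr ⟨mem_iUnion₂.mpr ⟨u.2, (hs' _ _ hu1).1 rfl,
      (hs'' u.2 _ _ hu2).1 rfl⟩, fun w => ?_⟩)
    have h1 := hR _ _ hu1 w
    have h2 := hR' _ _ hu2 w
    have a1 := H3.coshDist_ge_one (y.1 w) (u.1 w)
    have a2 := H3.coshDist_ge_one (u.1 w) ((γ • z).1 w)
    refine (H3.coshDist_le_mul _ (u.1 w) _).trans ?_
    have : (0 : ℝ) ≤ R := by linarith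
    have : (0 : ℝ) ≤ R' := by linarith
    gcongr
  obtain ⟨C, hC⟩ := hk'.bounded
  rw [yOp, kerSum, tsum_eq_sum (s := hG.toFinset) fun γ hγ => by
    simp [yConv, fun u => hzero γ u hγ]]
  simp only [kerSum, ← tsum_mul_left]
  rw [integral_congr_ae (g := fun u => ∑ γ ∈ hG.toFinset, k y u * k' u (γ • z))
    (Eventually.of_forall fun u => tsum_eq_sum fun γ hγ => hzero γ u hγ)]
  rw [integral_finsetSum _ fun γ _ => (hk.integrable_row y).mul_bdd
    (hk'.measurable_col _).aestronglyMeasurable (Eventually.of_forall fun u => hC u _)]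
  rfl

end FermatAgent.LT
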