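import Mathlib

set_option autoImplicit false

/-!
# Operators with bounded kernels on a finite measure space

Sums of matrix coefficients of two such operators are integrals of the kernels; such sums commute
with strong limits of bounded sequences.
-/

noncomputable section

open MeasureTheory Filter Set
open scoped ENNReal Topology InnerProductSpace

namespace FermatAgent.LT.TraceKernel

section Limit

variable {E ι : Type*} [NormedAddCommGroup E] [InnerProductSpace ℂ E]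

/-- Sums of coefficients pass to strong limits of bounded sequences. -/
theorem tendsto_tsum_inner {a c : ι → E} (ha : Summable fun i => ‖a i‖ ^ 2)
    (hc : Summable fun i => ‖c i‖ ^ 2) {Z : ℕ → E →L[ℂ] E} {Z₀ : E →L[ℂ] E} {M : ℝ}
    (hM : ∀ k v, ‖Z k v‖ ≤ M * ‖v‖) (hZ : ∀ v, Tendsto (fun k => Z k v) atTop (𝓝 (Z₀ v))) :
    Tendsto (fun k => ∑' i, ⟪Z k (a i), c i⟫_ℂ) atTop (𝓝 (∑' i, ⟪Z₀ (a i), c i⟫_ℂ)) := by
  refine tendsto_tsum_of_dominated_convergence
    (bound := fun i => |M| * (‖a i‖ ^ 2 + ‖c i‖ ^ 2)) ((ha.add hc).mul_left _)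
    (fun i => (hZ (a i)).inner tendsto_const_nhds) (Eventually.of_forall fun k i => ?_)
  refine (norm_inner_le_norm _ _).trans ?_
  calc ‖Z k (a i)‖ * ‖c i‖ ≤ |M| * ‖a i‖ * ‖c i‖ :=
        mul_le_mul_of_nonneg_right ((hM k (a i)).trans
          (mul_le_mul_of_nonneg_right (le_abs_self M) (norm_nonneg _))) (norm_nonneg _)
    _ ≤ _ := by
        rw [mul_assoc]
        refine mul_le_mul_of_nonneg_left ?_ (abs_nonneg M)
        nlinarith [sq_nonneg (‖a i‖ - ‖c i‖), norm_nonneg (a i), norm_nonneg (c i)]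

/-- An orthonormal basis of a separable space is countable. -/
theorem countable_index [SecondCountableTopology E] (b : HilbertBasis ι ℂ E) : Countable ι := by
  have hsep : ∀ i j, i ≠ j → 1 ≤ dist (b i) (b j) := fun i j hij => by
    rw [dist_eq_norm]
    have h := @norm_sub_sq ℂ E _ _ _ (b i) (b j)
    rw [b.orthonormal.2 hij, b.orthonormal.1 i, b.orthonormal.1 j] at h
    simp only [map_zero, mul_zero, sub_zero, one_pow] at h
    nlinarith [norm_nonneg (b i - b j)]
  obtain ⟨s, hs, hd⟩ := TopologicalSpace.exists_countable_dense E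
  have : ∀ i, ∃ x ∈ s, dist (b i) x < 1 / 2 := fun i =>
    Metric.mem_closure_iff.mp (hd (b i)) _ (by norm_num)
  choose f hf hfd using this
  have : Countable s := hs.to_subtype
  refine Function.Injective.countable (f := fun i => (⟨f i, hf i⟩ : s)) fun i j hij => ?_
  by_contra hne
  have h1 := hsep i j hne
  have h2 : f i = f j := congrArg Subtype.val hij
  have := dist_triangle_right (b i) (b j) (f i)
  have h3 : dist (b j) (f i) < 1 / 2 := by rw [h2]; exact hfd j
  linarith [hfd i]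

end Limit

section Kernel

variable {α : Type*} [MeasurableSpace α] {μ : Measure α} [IsFiniteMeasure μ]

/-- `A` is given by the bounded kernel `K`. -/
structure HasKernel (A : Lp ℂ 2 μ →L[ℂ] Lp ℂ 2 μ) (K : α → α → ℂ) : Prop where
  measurable : Measurable (Function.uncurry K)
  bounded : ∃ C : ℝ, ∀ y z, ‖K y z‖ ≤ C
  ae_eq : ∀ φ : Lp ℂ 2 μ, (A φ : α → ℂ) =ᵐ[μ] fun y => ∫ z, K y z * φ z ∂μ

variable {A C : Lp ℂ 2 μ →L[ℂ] Lp ℂ 2 μ} {K L : α → α → ℂ}

theorem HasKernel.memLp_row (h : HasKernel A K) (y : α) :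
    MemLp (fun z => (starRingEnd ℂ) (K y z)) 2 μ := by
  obtain ⟨B, hB⟩ := h.bounded
  exact MemLp.of_bound (Complex.continuous_conj.measurable.comp
    (h.measurable.comp measurable_prodMk_left)).aestronglyMeasurable B
    (Eventually.of_forall fun z => by rw [RCLike.norm_conj]; exact hB y z)

/-- The conjugate row as a vector. -/
def HasKernel.row (h : HasKernel A K) (y : α) : Lp ℂ 2 μ := (h.memLp_row y).toLp

theorem HasKernel.inner_row (h : HasKernel A K) (y : α) (φ : Lp ℂ 2 μ) :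
    ⟪h.row y, φ⟫_ℂ = ∫ z, K y z * φ z ∂μ := by
  rw [L2.inner_def]
  refine integral_congr_ae ?_
  filter_upwards [(h.memLp_row y).coeFn_toLp] with z hz
  rw [show (h.row y : α → ℂ) z = (starRingEnd ℂ) (K y z) from hz, RCLike.inner_apply,
    Complex.conj_conj, mul_comm]

theorem HasKernel.norm_row_le (h : HasKernel A K) : ∃ B : ℝ, ∀ y, ‖h.row y‖ ≤ B := by
  obtain ⟨B, hB⟩ := h.bounded
  refine ⟨((μ univ) ^ ((2 : ℝ≥0∞).toReal)⁻¹ * ENNReal.ofReal B).toReal, fun y => ?_⟩
  rw [HasKernel.row, Lp.norm_toLp]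
  exact ENNReal.toReal_mono
    (ENNReal.mul_ne_top (ENNReal.rpow_ne_top_of_nonneg (by positivity) (measure_ne_top _ _))
      ENNReal.ofReal_ne_top)
    (eLpNorm_le_of_ae_bound (f := fun z => (starRingEnd ℂ) (K y z))
      (Eventually.of_forall fun z => by rw [RCLike.norm_conj]; exact hB y z))

theorem HasKernel.ae_eq_inner (h : HasKernel A K) (φ : Lp ℂ 2 μ) :
    (A φ : α → ℂ) =ᵐ[μ] fun y => ⟪h.row y, φ⟫_ℂ := by
  filter_upwards [h.ae_eq φ] with y hy
  rw [hy, h.inner_row]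

omit [IsFiniteMeasure μ] in
theorem norm_sq_eq_integral (φ : Lp ℂ 2 μ) : ‖φ‖ ^ 2 = ∫ y, ‖φ y‖ ^ 2 ∂μ := by
  have h := L2.inner_def (𝕜 := ℂ) φ φ
  rw [inner_self_eq_norm_sq_to_K] at h
  have h2 : ∫ y, ⟪φ y, φ y⟫_ℂ ∂μ = ((∫ y, ‖φ y‖ ^ 2 ∂μ : ℝ) : ℂ) := by
    rw [← integral_complex_ofReal]
    refine integral_congr_ae (Eventually.of_forall fun y => ?_)
    simp [inner_self_eq_norm_sq_to_K]
  rw [h2] at h
  have h' := congrArg Complex.re h
  simpa [sq] using h'

theorem HasKernel.summable_norm_sq {ι : Type*} (h : HasKernel A K)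
    (e : HilbertBasis ι ℂ (Lp ℂ 2 μ)) : Summable fun i => ‖A (e i)‖ ^ 2 := by
  obtain ⟨B, hB⟩ := h.norm_row_le
  refine summable_of_sum_le (fun i => sq_nonneg _) (c := ∫ _y, B ^ 2 ∂μ) fun s => ?_
  have hint : ∀ i ∈ s, Integrable (fun y => ‖(A (e i) : α → ℂ) y‖ ^ 2) μ := fun i _ =>
    (Lp.memLp (A (e i))).integrable_norm_pow two_ne_zero
  simp only [norm_sq_eq_integral]
  rw [← integral_finsetSum _ hint]
  refine integral_mono_ae (integrable_finsetSum _ hint) (integrable_const _) ?_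
  have hall : ∀ᵐ y ∂μ, ∀ i ∈ s, (A (e i) : α → ℂ) y = ⟪h.row y, e i⟫_ℂ :=
    (Finset.eventually_all s).mpr fun i _ => h.ae_eq_inner (e i)
  filter_upwards [hall] with y hy
  calc ∑ i ∈ s, ‖(A (e i) : α → ℂ) y‖ ^ 2 = ∑ i ∈ s, ‖⟪e i, h.row y⟫_ℂ‖ ^ 2 :=
        Finset.sum_congr rfl fun i hi => by rw [hy i hi, ← inner_conj_symm, RCLike.norm_conj]
    _ ≤ ‖h.row y‖ ^ 2 := e.orthonormal.sum_inner_products_le _
    _ ≤ B ^ 2 := pow_le_pow_left₀ (norm_nonneg _) (hB y) 2

/-- **The trace of a product is the integral of the kernels.** -/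
theorem HasKernel.hasSum_inner {ι : Type*} [Countable ι] (hA : HasKernel A K) (hC : HasKernel C L)
    (e : HilbertBasis ι ℂ (Lp ℂ 2 μ)) :
    HasSum (fun i => ⟪A (e i), C (e i)⟫_ℂ)
      (∫ y, ∫ z, (starRingEnd ℂ) (K y z) * L y z ∂μ ∂μ) := by
  obtain ⟨BA, hBA⟩ := hA.norm_row_le
  obtain ⟨BC, hBC⟩ := hC.norm_row_le
  set F : ι → α → ℂ := fun i y => (starRingEnd ℂ) ((A (e i) : α → ℂ) y) * (C (e i) : α → ℂ) y
  have hFm : ∀ i, AEStronglyMeasurable (F i) μ := fun i =>
    (Complex.continuous_conj.comp_aestronglyMeasurable (Lp.aestronglyMeasurable _)).mul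
      (Lp.aestronglyMeasurable _)
  have hall : ∀ᵐ y ∂μ, ∀ i, (A (e i) : α → ℂ) y = ⟪hA.row y, e i⟫_ℂ ∧
      (C (e i) : α → ℂ) y = ⟪hC.row y, e i⟫_ℂ :=
    ae_all_iff.mpr fun i => (hA.ae_eq_inner (e i)).and (hC.ae_eq_inner (e i))
  have hsum : ∀ᵐ y ∂μ, HasSum (fun i => F i y) ⟪hC.row y, hA.row y⟫_ℂ := by
    filter_upwards [hall] with y hy
    refine (e.hasSum_inner_mul_inner (hC.row y) (hA.row y)).congr_fun fun i => ?_
    simp only [F]
    rw [(hy i).1, (hy i).2, inner_conj_symm, mul_comm]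
  set bound : ι → α → ℝ := fun i y =>
    ‖(A (e i) : α → ℂ) y‖ ^ 2 + ‖(C (e i) : α → ℂ) y‖ ^ 2
  have hbound : ∀ᵐ y ∂μ, Summable (fun i => bound i y) ∧ ∑' i, bound i y ≤ BA ^ 2 + BC ^ 2 := by
    filter_upwards [hall] with y hy
    have ha : ∀ i, ‖(A (e i) : α → ℂ) y‖ ^ 2 = ‖⟪e i, hA.row y⟫_ℂ‖ ^ 2 := fun i => by
      rw [(hy i).1, ← inner_conj_symm, RCLike.norm_conj]
    have hc : ∀ i, ‖(C (e i) : α → ℂ) y‖ ^ 2 = ‖⟪e i, hC.row y⟫_ℂ‖ ^ 2 := fun i => by
      rw [(hy i).2, ← inner_conj_symm, RCLike.norm_conj]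
    simp only [bound, ha, hc]
    have h1 := e.orthonormal.inner_products_summable (x := hA.row y)
    have h2 := e.orthonormal.inner_products_summable (x := hC.row y)
    refine ⟨h1.add h2, ?_⟩
    rw [h1.tsum_add h2]
    exact add_le_add
      ((e.orthonormal.tsum_inner_products_le _).trans (pow_le_pow_left₀ (norm_nonneg _) (hBA y) 2))
      ((e.orthonormal.tsum_inner_products_le _).trans (pow_le_pow_left₀ (norm_nonneg _) (hBC y) 2))
  have h3 := hasSum_integral_of_dominated_convergence (μ := μ) bound hFm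
    (fun i => Eventually.of_forall fun y => by
      simp only [F, bound, norm_mul, RCLike.norm_conj]
      nlinarith [sq_nonneg (‖(A (e i) : α → ℂ) y‖ - ‖(C (e i) : α → ℂ) y‖),
        norm_nonneg ((A (e i) : α → ℂ) y), norm_nonneg ((C (e i) : α → ℂ) y)])
    (hbound.mono fun y hy => hy.1)
    (by
      refine Integrable.of_bound ?_ (BA ^ 2 + BC ^ 2) (hbound.mono fun y hy => ?_)
      · refine (AEMeasurable.tsum fun i => ?_).aestronglyMeasurable
        exact ((Lp.aestronglyMeasurable _).norm.pow 2).aemeasurable.add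
          ((Lp.aestronglyMeasurable _).norm.pow 2).aemeasurable
      · rw [Real.norm_of_nonneg (tsum_nonneg fun i => add_nonneg (sq_nonneg _) (sq_nonneg _))]
        exact hy.2)
    hsum
  have hval : ∫ y, ⟪hC.row y, hA.row y⟫_ℂ ∂μ = ∫ y, ∫ z, (starRingEnd ℂ) (K y z) * L y z ∂μ ∂μ := by
    refine integral_congr_ae (Eventually.of_forall fun y => ?_)
    change ⟪hC.row y, hA.row y⟫_ℂ = _
    rw [hC.inner_row]
    refine integral_congr_ae ?_
    filter_upwards [(hA.memLp_row y).coeFn_toLp] with z hz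
    rw [show (hA.row y : α → ℂ) z = (starRingEnd ℂ) (K y z) from hz, mul_comm]
  rw [hval] at h3
  refine h3.congr_fun fun i => ?_
  rw [L2.inner_def]
  refine integral_congr_ae (Eventually.of_forall fun y => ?_)
  simp only [F]
  rw [RCLike.inner_apply, mul_comm]

end Kernel

end FermatAgent.LT.TraceKernel
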