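import Mathlib
import Fermat.Agent.LT.Descent.Spectral.Auto
import Fermat.Agent.LT.Descent.Spectral.Trace
import Fermat.Agent.LT.Descent.Spectral.Kernel

set_option autoImplicit false

/-!
# The bounded operators of invariant kernels
-/

noncomputable section

open MeasureTheory Set Filter NumberField IsDedekindDomain
open scoped ComplexConjugate ENNReal MatrixGroups

namespace FermatAgent.LT

variable {L : Type*} [Field L] [NumberField L] {𝔫 : Ideal (𝓞 L)} [h𝔫 : Fact (𝔫 ≠ ⊥)]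

variable (L 𝔫) in
/-- The exchange of the two variables. -/
def yTransport : Transport PGL(2, L) (yVol 𝔫) (yVol 𝔫) where
  τ := Prod.swap
  involutive := Prod.swap_swap
  preserving := ⟨measurable_swap, Measure.prod_swap⟩
  equivariant _ _ := rfl

variable {k k' : YSpace 𝔫 → YSpace 𝔫 → ℂ}

theorem IsYKernel.exists_isWeight (hk : IsYKernel k) :
    ∃ V : ℝ, (yTransport L 𝔫).IsWeight (Function.uncurry k) (ENNReal.ofReal V) := by
  obtain ⟨V, hV⟩ := hk.row
  obtain ⟨V', hV'⟩ := hk.col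
  exact ⟨max V V', hk.measurable, fun γ z => hk.invariant γ z.1 z.2,
    fun y => (hV y).trans (ENNReal.ofReal_le_ofReal (le_max_left _ _)),
    fun y => (hV' y).trans (ENNReal.ofReal_le_ofReal (le_max_right _ _))⟩

variable (𝔇 : AutDomain PGL(2, L) (yVol 𝔫))

/-- The operator of a kernel. -/
def IsYKernel.clm (hk : IsYKernel k) : 𝔇.Space →L[ℂ] 𝔇.Space :=
  𝔇.clm hk.exists_isWeight.choose_spec ENNReal.ofReal_ne_top

theorem IsYKernel.clm_ae (hk : IsYKernel k) (φ : 𝔇.Space) :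
    ⇑(hk.clm 𝔇 φ) =ᵐ[(yVol 𝔫).restrict 𝔇.carrier] yOp k (𝔇.lift φ) :=
  𝔇.clm_ae hk.exists_isWeight.choose_spec ENNReal.ofReal_ne_top φ

theorem IsYKernel.lift_clm_ae (hk : IsYKernel k) (φ : 𝔇.Space) :
    𝔇.lift (hk.clm 𝔇 φ) =ᵐ[yVol 𝔫] yOp k (𝔇.lift φ) :=
  𝔇.lift_clm_ae hk.exists_isWeight.choose_spec ENNReal.ofReal_ne_top φ

theorem IsYKernel.ae_integrable (hk : IsYKernel k) (φ : 𝔇.Space) :
    ∀ᵐ y ∂((yVol 𝔫).restrict 𝔇.carrier), Integrable (fun p => k y p * 𝔇.lift φ p) (yVol 𝔫) :=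
  𝔇.ae_integrable hk.exists_isWeight.choose_spec ENNReal.ofReal_ne_top φ

omit h𝔫 in
theorem IsYKernel.enorm_yConv_abs (hk : IsYKernel k) (hk' : IsYKernel k') (y p : YSpace 𝔫) :
    ‖LT.yConv (fun y u => (‖k y u‖ : ℂ)) (fun u p => (‖k' u p‖ : ℂ)) y p‖ₑ =
      ∫⁻ u, ‖k y u‖ₑ * ‖k' u p‖ₑ ∂(yVol 𝔫) := by
  obtain ⟨C, hC⟩ := hk'.bounded
  have hi : Integrable (fun u => ‖k y u‖ * ‖k' u p‖) (yVol 𝔫) :=
    (hk.integrable_row y).norm.mul_bdd (hk'.measurable_col p).norm.aestronglyMeasurable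
      (Eventually.of_forall fun u => by rw [norm_norm]; exact hC _ _)
  simp only [LT.yConv, ← Complex.ofReal_mul]
  rw [integral_complex_ofReal, ← ofReal_norm, Complex.norm_real,
    Real.norm_of_nonneg (integral_nonneg fun u => by positivity),
    ofReal_integral_eq_lintegral_ofReal hi (Eventually.of_forall fun u => by positivity)]
  exact lintegral_congr fun u => by
    rw [ENNReal.ofReal_mul (norm_nonneg _), ofReal_norm, ofReal_norm]

/-- Composition of the operators is composition of the kernels. -/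
theorem IsYKernel.clm_mul (hk : IsYKernel k) (hk' : IsYKernel k') :
    hk.clm 𝔇 * hk'.clm 𝔇 = (hk.yConv hk').clm 𝔇 := by
  refine ContinuousLinearMap.ext fun φ => Lp.ext ?_
  change ⇑(hk.clm 𝔇 (hk'.clm 𝔇 φ)) =ᵐ[_] _
  have h1 : yOp k (𝔇.lift (hk'.clm 𝔇 φ)) =ᵐ[yVol 𝔫] yOp k (yOp k' (𝔇.lift φ)) :=
    AutDomain.op_congr_ae (T := yTransport L 𝔫) (W := Function.uncurry k)
      (hk'.lift_clm_ae 𝔇 φ)
  filter_upwards [hk.clm_ae 𝔇 (hk'.clm 𝔇 φ), ae_restrict_of_ae h1,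
    (hk.yConv hk').clm_ae 𝔇 φ, (hk.abs.yConv hk'.abs).ae_integrable 𝔇 φ] with y e1 e2 e3 e4
  rw [e1, e2, e3]
  set Φ := 𝔇.lift φ
  simp only [yOp, LT.yConv, ← integral_mul_const, ← integral_const_mul, mul_assoc]
  refine integral_integral_swap ?_
  have hm : Measurable fun z : YSpace 𝔫 × YSpace 𝔫 => k y z.1 * (k' z.1 z.2 * Φ z.2) :=
    ((hk.measurable_row y).comp measurable_fst).mul
      (hk'.measurable.mul ((𝔇.measurable_lift φ).comp measurable_snd))
  refine ⟨hm.aestronglyMeasurable, ?_⟩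
  rw [hasFiniteIntegral_iff_enorm]
  simp only [Function.uncurry]
  rw [lintegral_prod _ hm.enorm.aemeasurable, lintegral_lintegral_swap (f := fun u p => ‖k y u * (k' u p * Φ p)‖ₑ) hm.enorm.aemeasurable]
  refine lt_of_eq_of_lt (lintegral_congr fun p => ?_) (hasFiniteIntegral_iff_enorm.mp e4.2)
  rw [enorm_mul, hk.enorm_yConv_abs hk' y p]
  simp only [enorm_mul, ← mul_assoc]
  exact lintegral_mul_const _ ((hk.measurable_row y).enorm.mul (hk'.measurable_col p).enorm)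

/-- Hermitian kernels give symmetric operators. -/
theorem IsYKernel.inner_clm (hk : IsYKernel k) (hh : ∀ y y', conj (k y y') = k y' y)
    (φ ψ : 𝔇.Space) : inner ℂ (hk.clm 𝔇 φ) ψ = inner ℂ φ (hk.clm 𝔇 ψ) := by
  have hW := hk.exists_isWeight.choose_spec
  have e : (yTransport L 𝔫).adj (Function.uncurry k) = Function.uncurry k := by
    funext z
    exact hh z.2 z.1
  rw [IsYKernel.clm, 𝔇.inner_clm hW ENNReal.ofReal_ne_top]
  congr 2
  refine ContinuousLinearMap.ext fun χ => Lp.ext ?_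
  filter_upwards [𝔇.clm_ae hW.adj ENNReal.ofReal_ne_top χ, 𝔇.clm_ae hW ENNReal.ofReal_ne_top χ]
    with y h1 h2
  rw [h1, h2, e]

omit h𝔫 in
theorem kerSum_mul_eq (y z : YSpace 𝔫) (c : ℂ) :
    ∑' γ : PGL(2, L), k y (γ⁻¹ • z) * c = kerSum k y z * c := by
  rw [tsum_mul_right, kerSum, ← (Equiv.inv PGL(2, L)).tsum_eq]
  simp

/-- Integrals against a kernel unfold to integrals over a fundamental domain. -/
theorem IsYKernel.integral_eq_kerSum (hk : IsYKernel k) {𝔉 : Set (YSpace 𝔫)}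
    (h : IsFundamentalDomain PGL(2, L) 𝔉 (yVol 𝔫)) {Φ : YSpace 𝔫 → ℂ} (hm : Measurable Φ)
    (hΦ : ∀ (γ : PGL(2, L)) z, Φ (γ • z) = Φ z) {y : YSpace 𝔫}
    (hi : Integrable (fun p => k y p * Φ p) (yVol 𝔫)) :
    ∫ p, k y p * Φ p ∂(yVol 𝔫) = ∫ z in 𝔉, kerSum k y z * Φ z ∂(yVol 𝔫) := by
  rw [h.integral_eq_tsum' _ hi, ← integral_tsum ?_ ?_]
  · refine integral_congr_ae (Eventually.of_forall fun z => ?_)
    simp only [hΦ]
    exact kerSum_mul_eq y z (Φ z)
  · exact fun γ => (((hk.measurable_row y).mul hm).comp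
      (measurable_ySmul h𝔫.out γ⁻¹)).aestronglyMeasurable
  · rw [← h.lintegral_eq_tsum' fun p => ‖k y p * Φ p‖ₑ]
    exact (hasFiniteIntegral_iff_enorm.mp hi.2).ne

/-- A kernel with bounded sum over the group gives an operator with that kernel. -/
theorem IsYKernel.hasKernel (hk : IsYKernel k) (hb : ∃ C : ℝ, ∀ y z, ‖kerSum k y z‖ ≤ C) :
    TraceKernel.HasKernel (hk.clm 𝔇) (kerSum k) where
  measurable := hk.measurable_kerSum
  bounded := hb
  ae_eq φ := by
    filter_upwards [hk.clm_ae 𝔇 φ, hk.ae_integrable 𝔇 φ] with y h1 h2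
    rw [h1, yOp, hk.integral_eq_kerSum 𝔇.isFund (𝔇.measurable_lift φ) (𝔇.lift_invariant φ) h2]
    refine integral_congr_ae ?_
    filter_upwards [𝔇.lift_ae_restrict φ] with z hz
    rw [hz]

end FermatAgent.LT
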