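import Mathlib
import Fermat.Agent.LT.Descent.Spectral.Op
import Fermat.Agent.LT.Descent.Kernel.CosetOp

set_option autoImplicit false

/-!
# The operator of an automorphism
-/

noncomputable section

open MeasureTheory Set Filter NumberField IsDedekindDomain
open scoped ComplexConjugate ENNReal MatrixGroups

namespace FermatAgent.LT

theorem H3.conjPt_smul (g : GL (Fin 2) ℂ) (P : H3) :
    H3.conjPt (g • P) = Matrix.GeneralLinearGroup.map (starRingEnd ℂ) g • H3.conjPt P := by
  have hden : H3.den (Matrix.GeneralLinearGroup.map (starRingEnd ℂ) g) (H3.conjPt P) = H3.den g P := by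
    simp only [H3.den, H3.conjPt, Matrix.GeneralLinearGroup.map_apply, ← map_mul, ← map_add,
      Complex.normSq_conj]
  have hdet : ((Matrix.GeneralLinearGroup.map (starRingEnd ℂ) g : GL (Fin 2) ℂ) :
      Matrix (Fin 2) (Fin 2) ℂ).det = conj (g : Matrix (Fin 2) (Fin 2) ℂ).det :=
    (RingHom.map_det (starRingEnd ℂ) _).symm
  refine H3.ext ?_ ?_
  · simp only [H3.smul_def, H3.act, hden]
    simp [H3.conjPt, Matrix.GeneralLinearGroup.map_apply]
  · simp only [H3.smul_def, H3.act, hden, hdet, RCLike.norm_conj]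
    simp [H3.conjPt]

variable {L : Type*} [Field L] [NumberField L]

omit [NumberField L] in
theorem ptEmb_infAct (γ : GL (Fin 2) L) (x : XInf L) (φ : L →+* ℂ) :
    ptEmb (infAct γ x) φ = Matrix.GeneralLinearGroup.map φ γ • ptEmb x φ := by
  unfold ptEmb
  split_ifs with h
  · simp only [infAct]
    rw [← h]
  · simp only [infAct, H3.conjPt_smul]
    congr 1
    have h2 : φ = ComplexEmbedding.conjugate (InfinitePlace.mk φ).embedding := by
      rcases InfinitePlace.mk_eq_iff.mp (InfinitePlace.mk_embedding (InfinitePlace.mk φ)) with h' | h'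
      · exact absurd h'.symm h
      · exact h'.symm
    refine Units.ext (Matrix.ext fun i j => ?_)
    exact (RingHom.congr_fun h2 (γ i j)).symm

omit [NumberField L] in
theorem galX_infAct (σ : L ≃+* L) (γ : GL (Fin 2) L) (x : XInf L) :
    galX σ (infAct γ x) = infAct (Matrix.GeneralLinearGroup.map σ.toRingHom γ) (galX σ x) := by
  funext w
  simp only [galX, ptEmb_infAct]
  rfl

open Classical in
/-- The conjugation at a place of `L` prescribed by an automorphism. -/
def galFlip (σ : L ≃+* L) (w : InfinitePlace L) : H3 ≃ᵐ H3 :=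
  if w.embedding.comp σ.toRingHom = (InfinitePlace.mk (w.embedding.comp σ.toRingHom)).embedding
  then MeasurableEquiv.refl H3 else H3.conjEquiv

omit [NumberField L] in
theorem galFlip_apply (σ : L ≃+* L) (w : InfinitePlace L) (x : XInf L) :
    galFlip σ w (x (w.comap σ.toRingHom)) = galX σ x w := by
  have e : w.comap σ.toRingHom = InfinitePlace.mk (w.embedding.comp σ.toRingHom) := by
    conv_lhs => rw [← InfinitePlace.mk_embedding w]
    exact InfinitePlace.comap_mk _ _
  rw [e, galX, galFlip, ptEmb]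
  split_ifs <;> rfl

/-- The permutation of the places. -/
def galPerm (σ : L ≃+* L) : InfinitePlace L ≃ InfinitePlace L where
  toFun w := w.comap σ.toRingHom
  invFun w := w.comap σ.symm.toRingHom
  left_inv w := by
    dsimp only
    rw [← InfinitePlace.mk_embedding w, InfinitePlace.comap_mk, InfinitePlace.comap_mk]
    congr 1
    ext a
    simp
  right_inv w := by
    dsimp only
    rw [← InfinitePlace.mk_embedding w, InfinitePlace.comap_mk, InfinitePlace.comap_mk]
    congr 1
    ext a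
    simp

/-- The action of an automorphism on the archimedean space as an equivalence. -/
def galXEquiv (σ : L ≃+* L) : XInf L ≃ᵐ XInf L :=
  (MeasurableEquiv.piCongrLeft (fun _ : InfinitePlace L => H3) (galPerm σ)).symm.trans
    (MeasurableEquiv.piCongrRight fun w => galFlip σ w)

omit [NumberField L] in
theorem galXEquiv_apply (σ : L ≃+* L) (x : XInf L) : galXEquiv σ x = galX σ x :=
  funext fun w => galFlip_apply σ w x

theorem measurePreserving_galXEquiv (σ : L ≃+* L) :
    MeasurePreserving (galXEquiv σ) (Measure.pi fun _ : InfinitePlace L => H3.vol)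
      (Measure.pi fun _ : InfinitePlace L => H3.vol) := by
  rw [galXEquiv, MeasurableEquiv.coe_trans]
  refine MeasurePreserving.comp (?_ : MeasurePreserving (MeasurableEquiv.piCongrRight
    fun w => galFlip σ w) _ _) ((measurePreserving_piCongrLeft (fun _ : InfinitePlace L => H3.vol)
      (galPerm σ)).symm _)
  refine measurePreserving_pi (f := fun w => ⇑(galFlip σ w)) _ _ fun w => ?_
  unfold galFlip
  split_ifs
  · exact MeasurePreserving.id _
  · exact H3.measurePreserving_conjPt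

variable {𝔫 : Ideal (𝓞 L)} [h𝔫 : Fact (𝔫 ≠ ⊥)]

/-- The automorphism of `PGL₂`. -/
def galPGL (σ : L ≃+* L) : PGL(2, L) → PGL(2, L) := Matrix.ProjGenLinGroup.map σ.toRingHom

omit [NumberField L] in
theorem galPGL_bijective (σ : L ≃+* L) : Function.Bijective (galPGL σ) := by
  refine Function.bijective_iff_has_inverse.mpr ⟨galPGL σ.symm, fun γ => ?_, fun γ => ?_⟩ <;>
  · induction γ using Matrix.ProjGenLinGroup.induction_on with | mk γ =>
    refine congrArg Matrix.ProjGenLinGroup.mk (Units.ext (Matrix.ext fun i j => ?_))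
    simp [Matrix.GeneralLinearGroup.map]

variable {σ : L ≃+* L} (hσ : 𝔫.map (galInt σ) = 𝔫)

/-- The action of an automorphism on the space as an equivalence. -/
def galYEquiv : YSpace 𝔫 ≃ᵐ YSpace 𝔫 :=
  MeasurableEquiv.prodCongr (galXEquiv σ)
    { toEquiv := Equiv.ofBijective (galCoset σ) (galCoset_bijective h𝔫.out hσ)
      measurable_toFun := measurable_of_countable _
      measurable_invFun := measurable_of_countable _ }

theorem galYEquiv_apply (y : YSpace 𝔫) : galYEquiv hσ y = galY σ y :=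
  Prod.ext (galXEquiv_apply σ y.1) rfl

theorem measurePreserving_galYEquiv :
    MeasurePreserving (galYEquiv hσ) (yVol 𝔫) (yVol 𝔫) := by
  refine (measurePreserving_galXEquiv σ).prod
    (g := ⇑(Equiv.ofBijective (galCoset σ : Cosets 𝔫 → Cosets 𝔫) (galCoset_bijective h𝔫.out hσ))) ?_
  refine ⟨measurable_of_countable _, Measure.ext fun s hs => ?_⟩
  rw [Measure.map_apply (measurable_of_countable _) hs,
    Measure.count_apply (MeasurableSpace.measurableSet_top), Measure.count_apply hs]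
  congr 1
  exact Set.encard_preimage_of_bijective (Equiv.bijective _) s

include hσ in
theorem galY_smul (γ : PGL(2, L)) (y : YSpace 𝔫) : galY σ (γ • y) = galPGL σ γ • galY σ y := by
  induction γ using Matrix.ProjGenLinGroup.induction_on with | mk γ =>
  obtain ⟨x, q⟩ := y
  induction q using QuotientGroup.induction_on with | H g =>
  have h1 := galCoset_mk h𝔫.out hσ (rationalMat γ * g)
  rw [mk_smul]
  refine Prod.ext (galX_infAct σ γ x) ?_
  change galCoset σ ((rationalMat γ * g : GAf L) : Cosets 𝔫) =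
    rationalMat (Matrix.GeneralLinearGroup.map σ.toRingHom γ) • galCoset σ (g : Cosets 𝔫)
  rw [h1, galCoset_mk h𝔫.out hσ g, map_mul, galGAf_rationalMat]
  rfl

/-- The moved fundamental domain. -/
theorem isFundamentalDomain_gal {𝔉 : Set (YSpace 𝔫)}
    (h : IsFundamentalDomain PGL(2, L) 𝔉 (yVol 𝔫)) :
    IsFundamentalDomain PGL(2, L) (galYEquiv hσ ⁻¹' 𝔉) (yVol 𝔫) := by
  obtain ⟨einv, h1, h2⟩ := Function.bijective_iff_has_inverse.mp (galPGL_bijective σ)
  refine h.preimage_of_equiv (measurePreserving_galYEquiv hσ).quasiMeasurePreserving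
    (e := einv) (Function.bijective_iff_has_inverse.mpr ⟨galPGL σ, h2, h1⟩) fun γ y => ?_
  simp only [galYEquiv_apply, galY_smul hσ, h2 γ]

theorem galYEquiv_symm_smul (γ : PGL(2, L)) (y : YSpace 𝔫) :
    (galYEquiv hσ).symm (galPGL σ γ • y) = γ • (galYEquiv hσ).symm y := by
  apply (galYEquiv hσ).injective
  rw [MeasurableEquiv.apply_symm_apply, galYEquiv_apply, galY_smul hσ, ← galYEquiv_apply hσ,
    MeasurableEquiv.apply_symm_apply]

theorem lintegral_gal {𝔉 : Set (YSpace 𝔫)} (h : IsFundamentalDomain PGL(2, L) 𝔉 (yVol 𝔫))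
    {F : YSpace 𝔫 → ℝ≥0∞} (hF : ∀ (γ : PGL(2, L)) y, F (γ • y) = F y) :
    ∫⁻ z in 𝔉, F ((galYEquiv hσ).symm z) ∂(yVol 𝔫) = ∫⁻ z in 𝔉, F z ∂(yVol 𝔫) := by
  rw [← (measurePreserving_galYEquiv hσ).setLIntegral_comp_preimage_emb
    (galYEquiv hσ).measurableEmbedding (fun z => F ((galYEquiv hσ).symm z)) 𝔉]
  simp only [MeasurableEquiv.symm_apply_apply]
  exact (isFundamentalDomain_gal hσ h).setLIntegral_eq h F hF

theorem integral_gal {𝔉 : Set (YSpace 𝔫)} (h : IsFundamentalDomain PGL(2, L) 𝔉 (yVol 𝔫))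
    {F : YSpace 𝔫 → ℂ} (hF : ∀ (γ : PGL(2, L)) y, F (γ • y) = F y) :
    ∫ z in 𝔉, F ((galYEquiv hσ).symm z) ∂(yVol 𝔫) = ∫ z in 𝔉, F z ∂(yVol 𝔫) := by
  rw [← (measurePreserving_galYEquiv hσ).setIntegral_preimage_emb
    (galYEquiv hσ).measurableEmbedding (fun z => F ((galYEquiv hσ).symm z)) 𝔉]
  simp only [MeasurableEquiv.symm_apply_apply]
  exact (isFundamentalDomain_gal hσ h).setIntegral_eq h hF

variable (𝔇 : AutDomain PGL(2, L) (yVol 𝔫))

theorem lift_gal_invariant (φ : 𝔇.Space) (γ : PGL(2, L)) (y : YSpace 𝔫) :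
    𝔇.lift φ ((galYEquiv hσ).symm (γ • y)) = 𝔇.lift φ ((galYEquiv hσ).symm y) := by
  obtain ⟨δ, rfl⟩ := (galPGL_bijective σ).2 γ
  rw [galYEquiv_symm_smul, 𝔇.lift_invariant]

theorem memLp_gal (φ : 𝔇.Space) :
    MemLp (fun y => 𝔇.lift φ ((galYEquiv hσ).symm y)) 2 ((yVol 𝔫).restrict 𝔇.carrier) := by
  refine ⟨((𝔇.measurable_lift φ).comp (galYEquiv hσ).symm.measurable).aestronglyMeasurable, ?_⟩
  rw [eLpNorm_lt_top_iff_lintegral_rpow_enorm_lt_top two_ne_zero ENNReal.ofNat_ne_top]
  simp only [ENNReal.toReal_ofNat, ENNReal.rpow_two]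
  rw [lintegral_gal hσ 𝔇.isFund (F := fun y => ‖𝔇.lift φ y‖ₑ ^ 2)
    (fun γ y => by rw [𝔇.lift_invariant]), 𝔇.lintegral_lift]
  exact ENNReal.pow_lt_top enorm_lt_top

/-- The operator `θ φ = φ ∘ σ⁻¹`. -/
def galOp : 𝔇.Space →L[ℂ] 𝔇.Space :=
  LinearMap.mkContinuous
    { toFun := fun φ => (memLp_gal hσ 𝔇 φ).toLp
      map_add' := fun φ ψ => by
        rw [← MemLp.toLp_add]
        refine MemLp.toLp_congr _ _ (ae_restrict_of_ae ?_)
        have hlift : 𝔇.lift (φ + ψ) =ᵐ[yVol 𝔫] 𝔇.lift φ + 𝔇.lift ψ :=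
          𝔇.lift_ae_of_eq (fun γ y => by simp [𝔇.lift_invariant])
            ((Lp.coeFn_add φ ψ).trans ((𝔇.lift_ae_restrict φ).symm.add (𝔇.lift_ae_restrict ψ).symm))
        exact ((measurePreserving_galYEquiv hσ).symm _).quasiMeasurePreserving.ae hlift
      map_smul' := fun c φ => by
        rw [RingHom.id_apply, ← MemLp.toLp_const_smul]
        refine MemLp.toLp_congr _ _ (ae_restrict_of_ae ?_)
        have hlift : 𝔇.lift (c • φ) =ᵐ[yVol 𝔫] c • 𝔇.lift φ :=
          𝔇.lift_ae_of_eq (fun γ y => by simp [𝔇.lift_invariant])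
            ((Lp.coeFn_smul c φ).trans ((𝔇.lift_ae_restrict φ).symm.fun_comp (c • ·)))
        exact ((measurePreserving_galYEquiv hσ).symm _).quasiMeasurePreserving.ae hlift }
    1 fun φ => le_of_eq (by
      rw [one_mul]
      refine (Lp.norm_toLp _ (memLp_gal hσ 𝔇 φ)).trans ?_
      rw [eLpNorm_eq_lintegral_rpow_enorm_toReal two_ne_zero ENNReal.ofNat_ne_top]
      simp only [ENNReal.toReal_ofNat, one_div, ENNReal.rpow_two]
      rw [lintegral_gal hσ 𝔇.isFund (F := fun y => ‖𝔇.lift φ y‖ₑ ^ 2)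
        (fun γ y => by rw [𝔇.lift_invariant]), 𝔇.lintegral_lift, ← ENNReal.rpow_natCast,
        ← ENNReal.rpow_mul]
      norm_num)

theorem lift_galOp_ae (φ : 𝔇.Space) :
    𝔇.lift (galOp hσ 𝔇 φ) =ᵐ[yVol 𝔫] fun y => 𝔇.lift φ ((galYEquiv hσ).symm y) :=
  𝔇.lift_ae_of_eq (lift_gal_invariant hσ 𝔇 φ) (MemLp.coeFn_toLp (memLp_gal hσ 𝔇 φ))

/-- The kernel of a composition with `θ`. -/
theorem IsYKernel.hasKernel_galOp {k : YSpace 𝔫 → YSpace 𝔫 → ℂ} (hk : IsYKernel k)
    (hb : ∃ C : ℝ, ∀ y z, ‖kerSum k y z‖ ≤ C) :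
    TraceKernel.HasKernel (hk.clm 𝔇 * galOp hσ 𝔇) (fun y z => kerSum k y (galY σ z)) where
  measurable := by
    have e : (Function.uncurry fun y z => kerSum k y (galY σ z)) =
        Function.uncurry (kerSum k) ∘ fun p : YSpace 𝔫 × YSpace 𝔫 => (p.1, galYEquiv hσ p.2) :=
      funext fun p => by simp [galYEquiv_apply, Function.uncurry]
    rw [e]
    exact hk.measurable_kerSum.comp (measurable_fst.prodMk ((galYEquiv hσ).measurable.comp measurable_snd))
  bounded := ⟨hb.choose, fun y z => hb.choose_spec y _⟩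
  ae_eq φ := by
    filter_upwards [(hk.hasKernel 𝔇 hb).ae_eq (galOp hσ 𝔇 φ)] with y hy
    refine hy.trans ?_
    have e1 : ∫ z in 𝔇.carrier, kerSum k y z * (galOp hσ 𝔇 φ : YSpace 𝔫 → ℂ) z ∂(yVol 𝔫) =
        ∫ z in 𝔇.carrier, kerSum k y (galY σ ((galYEquiv hσ).symm z)) *
          𝔇.lift φ ((galYEquiv hσ).symm z) ∂(yVol 𝔫) := by
      refine integral_congr_ae ?_
      filter_upwards [MemLp.coeFn_toLp (memLp_gal hσ 𝔇 φ)] with z hz
      rw [← galYEquiv_apply hσ, MeasurableEquiv.apply_symm_apply, ← hz]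
      rfl
    rw [e1, integral_gal hσ 𝔇.isFund (F := fun u => kerSum k y (galY σ u) * 𝔇.lift φ u)
      fun γ u => by rw [galY_smul hσ, kerSum_smul_right, 𝔇.lift_invariant]]
    refine integral_congr_ae ?_
    filter_upwards [𝔇.lift_ae_restrict φ] with z hz
    rw [hz]

end FermatAgent.LT
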