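import Mathlib
import Fermat.Agent.LT.Descent.Spectral.Kernel
import Fermat.Agent.LT.Descent.Kernel.CosetOp

set_option autoImplicit false

/-!
# The kernels of products of invariant kernels with coset operators
-/

noncomputable section

open MeasureTheory Set Filter NumberField IsDedekindDomain
open scoped ComplexConjugate ENNReal MatrixGroups

namespace FermatAgent.LT

variable {L : Type*} [Field L] [NumberField L] {𝔫 : Ideal (𝓞 L)}
  {h h' : InfinitePlace L → H3 → H3 → ℂ} {T T' : Module.End ℂ (Cosets 𝔫 → ℂ)}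

open Classical in
theorem IsCosetOp.finKer_smul (hT : IsCosetOp T) (g : GAf L) (a b : Cosets 𝔫) :
    finKer T (g • a) (g • b) = finKer T a b := by
  rw [finKer, finKer, ← hT.equivariant g (Pi.single (g • b) 1) a]
  refine congrArg (fun f => T f a) (funext fun p => ?_)
  by_cases hp : p = b
  · subst hp; simp
  · rw [Pi.single_eq_of_ne hp, Pi.single_eq_of_ne fun h => hp (smul_left_cancel g h)]

theorem measurable_prodKer (hh : ∀ w, H3.IsInvKer (h w)) :
    Measurable (Function.uncurry (prodKer h)) := by
  simp only [Function.uncurry_def, prodKer]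
  refine Finset.measurable_prod _ fun w _ => (hh w).measurable.comp
    (f := fun p : XInf L × XInf L => (p.1 w, p.2 w)) ?_
  exact ((measurable_pi_apply w).comp measurable_fst).prodMk
    ((measurable_pi_apply w).comp measurable_snd)

theorem integrable_prodKer (hh : ∀ w, H3.IsInvKer (h w)) (x : XInf L) :
    Integrable (prodKer h x) (Measure.pi fun _ : InfinitePlace L => H3.vol) :=
  Integrable.fintype_prod_dep fun w => (hh w).integrable_row (x w)

theorem exists_lintegral_prodKer_le (hh : ∀ w, H3.IsInvKer (h w)) :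
    ∃ V : ℝ, 0 ≤ V ∧ ∀ x, ∫⁻ u, ‖prodKer h x u‖ₑ ∂(Measure.pi fun _ : InfinitePlace L => H3.vol) ≤
      ENNReal.ofReal V := by
  choose V hV using fun w => (hh w).exists_lintegral_le
  refine ⟨∏ w, max (V w) 0, Finset.prod_nonneg fun w _ => le_max_right _ _, fun x => ?_⟩
  have hi := (integrable_prodKer hh x).norm
  simp only [← ofReal_norm]
  rw [← ofReal_integral_eq_lintegral_ofReal hi (Eventually.of_forall fun u => norm_nonneg _)]
  refine ENNReal.ofReal_le_ofReal ?_
  simp only [prodKer, norm_prod]
  rw [integral_fintype_prod_eq_prod fun w U => ‖h w (x w) U‖]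
  refine Finset.prod_le_prod (fun w _ => integral_nonneg fun U => norm_nonneg _) fun w _ => ?_
  rw [integral_norm_eq_lintegral_enorm ((hh w).measurable_row _).aestronglyMeasurable]
  exact ENNReal.toReal_le_of_le_ofReal (le_max_right _ _)
    ((hV w _).trans (ENNReal.ofReal_le_ofReal (le_max_left _ _)))

theorem prodKer_smul (hh : ∀ w, H3.IsInvKer (h w)) (γ : GL (Fin 2) L) (x x' : XInf L) :
    prodKer h (infAct γ x) (infAct γ x') = prodKer h x x' :=
  Finset.prod_congr rfl fun w _ => (hh w).inv _ _ _

theorem lintegral_yKer (a : ℂ → ℂ) (ha : Measurable a) (hh : ∀ w, H3.IsInvKer (h w))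
    [Countable (Cosets 𝔫)] (x : XInf L) (f : Cosets 𝔫 → ℂ) :
    ∫⁻ u : YSpace 𝔫, ‖a (prodKer h x u.1) * f u.2‖ₑ ∂(yVol 𝔫) =
      (∫⁻ u, ‖a (prodKer h x u)‖ₑ ∂(Measure.pi fun _ : InfinitePlace L => H3.vol)) *
        ∑' b, ‖f b‖ₑ := by
  simp only [enorm_mul]
  rw [yVol, lintegral_prod_mul
    (f := fun u => ‖a (prodKer h x u)‖ₑ) (g := fun b : Cosets 𝔫 => ‖f b‖ₑ)
    ((ha.comp ((measurable_prodKer hh).comp measurable_prodMk_left)).enorm.aemeasurable)
    (measurable_of_countable _).aemeasurable, lintegral_count]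

theorem tsum_enorm_le {f : Cosets 𝔫 → ℂ} (hf : (Function.support f).Finite) {C : ℝ}
    (hC : ∑ᶠ b, ‖f b‖ ≤ C) : ∑' b, ‖f b‖ₑ ≤ ENNReal.ofReal C := by
  have hs : Function.support f ⊆ hf.toFinset := hf.coe_toFinset.symm.subset
  rw [tsum_eq_sum (s := hf.toFinset) fun b hb => by
    simp only [Finite.mem_toFinset, Function.mem_support, not_not] at hb; simp [hb]]
  simp only [← ofReal_norm]
  rw [← ENNReal.ofReal_sum_of_nonneg fun b _ => norm_nonneg _]
  refine ENNReal.ofReal_le_ofReal (le_trans (le_of_eq ?_) hC)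
  refine (finsum_eq_sum_of_support_subset _ fun b hb => hs ?_).symm
  simpa using hb

variable [h𝔫 : Fact (𝔫 ≠ ⊥)]

theorem isYKernel_yKer (hh : ∀ w, H3.IsInvKer (h w)) (hT : IsCosetOp T) :
    IsYKernel (yKer h T) where
  measurable := ((measurable_prodKer hh).comp
      ((measurable_fst.comp measurable_fst).prodMk (measurable_fst.comp measurable_snd))).mul
    ((measurable_of_countable (fun p : Cosets 𝔫 × Cosets 𝔫 => finKer T p.1 p.2)).comp
      ((measurable_snd.comp measurable_fst).prodMk (measurable_snd.comp measurable_snd)))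
  invariant γ y y' := by
    induction γ using Matrix.ProjGenLinGroup.induction_on with | mk γ =>
    simp only [yKer, mk_smul, prodKer_smul hh, hT.finKer_smul]
  bounded := by
    choose C hC using fun w => (hh w).bounded
    obtain ⟨D, hD⟩ := hT.exists_bound
    refine ⟨(∏ w, C w) * D, fun y y' => ?_⟩
    simp only [yKer, norm_mul, prodKer, norm_prod]
    refine mul_le_mul (Finset.prod_le_prod (fun _ _ => norm_nonneg _) fun w _ => hC w _ _)
      (le_trans ?_ (hD y.2).1) (norm_nonneg _)
      (Finset.prod_nonneg fun w _ => (norm_nonneg _).trans (hC w (y.1 w) (y.1 w)))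
    exact single_le_finsum y'.2 ((hT.row y.2).subset fun b => by simp) fun b => norm_nonneg _
  row := by
    obtain ⟨V, hV0, hV⟩ := exists_lintegral_prodKer_le hh
    obtain ⟨D, hD⟩ := hT.exists_bound
    refine ⟨V * D, fun y => le_of_eq_of_le (lintegral_yKer id measurable_id hh y.1
      fun b => finKer T y.2 b) ?_⟩
    rw [ENNReal.ofReal_mul hV0]
    exact mul_le_mul' (hV y.1) (tsum_enorm_le (hT.row y.2) (hD y.2).1)
  col := by
    obtain ⟨V, hV0, hV⟩ := exists_lintegral_prodKer_le hh
    obtain ⟨D, hD⟩ := hT.exists_bound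
    refine ⟨V * D, fun y => le_of_eq_of_le (lintegral_congr fun u => ?_)
      (le_of_eq_of_le (lintegral_yKer id measurable_id hh y.1 fun b => finKer T b y.2) ?_)⟩
    · simp only [yKer, prodKer, id]
      rw [Finset.prod_congr rfl fun w _ => (hh w).symm (u.1 w) (y.1 w)]
    · rw [ENNReal.ofReal_mul hV0]
      exact mul_le_mul' (hV y.1) (tsum_enorm_le (hT.col y.2) (hD y.2).2)
  supp := by
    choose R hR using fun w => (hh w).supp
    refine ⟨∑ w, max (R w) 0, fun y y' hne w => ?_⟩
    have h0 := Finset.prod_ne_zero_iff.mp (left_ne_zero_of_mul hne) w (Finset.mem_univ w)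
    exact ((hR w _ _ h0).trans (le_max_left _ 0)).trans
      (Finset.single_le_sum (f := fun w => max (R w) 0) (fun _ _ => le_max_right _ _)
        (Finset.mem_univ w))
  fin q := by
    refine ⟨(Function.support fun b => finKer T q b) ∪ Function.support fun a => finKer T a q,
      (hT.row q).union (hT.col q), fun y y' hne => ?_⟩
    have h0 := right_ne_zero_of_mul hne
    exact ⟨fun hq => Or.inl (by rwa [hq] at h0), fun hq => Or.inr (by rwa [hq] at h0)⟩

theorem yConv_yKer (hT : IsCosetOp T) (_hT' : IsCosetOp T') :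
    yConv (yKer h T) (yKer h' T') = yKer (fun w => H3.kConv (h w) (h' w)) (T * T') := by
  funext y y'
  simp only [yConv, yKer, hT.finKer_mul]
  rw [integral_congr_ae (g := fun u : YSpace 𝔫 => (prodKer h y.1 u.1 * prodKer h' u.1 y'.1) *
    (finKer T y.2 u.2 * finKer T' u.2 y'.2)) (Eventually.of_forall fun u => by ring),
    yVol, integral_prod_mul (fun u => prodKer h y.1 u * prodKer h' u y'.1)
      (fun b : Cosets 𝔫 => finKer T y.2 b * finKer T' b y'.2)]
  congr 1
  · simp only [prodKer, ← Finset.prod_mul_distrib]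
    exact integral_fintype_prod_eq_prod fun w U => h w (y.1 w) U * h' w U (y'.1 w)
  · have hfin : (Function.support fun b => finKer T y.2 b * finKer T' b y'.2).Finite :=
      (hT.row y.2).subset fun b hb => left_ne_zero_of_mul hb
    rw [integral_countable ?_, finsum_eq_sum _ hfin, tsum_eq_sum (s := hfin.toFinset) fun b hb => ?_]
    · exact Finset.sum_congr rfl fun b _ => by simp [measureReal_def]
    · simp only [Finite.mem_toFinset, Function.mem_support, not_not] at hb
      simp [hb]
    · refine integrable_count_iff.mpr (summable_of_hasFiniteSupport ?_)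
      exact hfin.subset fun b => by simp

omit h𝔫 in
theorem conj_yKer (hh : ∀ w, H3.IsInvKer (h w)) (hT : IsHermOp T)
    (hr : ∀ w P Q, conj (h w P Q) = h w P Q) (y y' : YSpace 𝔫) :
    conj (yKer h T y y') = yKer h T y' y := by
  simp only [yKer, map_mul, prodKer, map_prod, hT y.2 y'.2]
  congr 1
  exact Finset.prod_congr rfl fun w _ => by rw [hr, (hh w).symm]

end FermatAgent.LT
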