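import Mathlib
import Fermat.Agent.LT.Descent.Spectral.YKer

set_option autoImplicit false

/-!
# Continuity of ball means and positivity of open sets
-/

noncomputable section

open MeasureTheory Set Filter NumberField IsDedekindDomain
open scoped ComplexConjugate ENNReal MatrixGroups Topology

namespace FermatAgent.LT

namespace H3

theorem continuous_coshDist_left (Q : H3) : Continuous fun P : H3 => coshDist P Q := by
  simp only [coshDist]
  refine continuous_const.add (Continuous.div ?_ ?_ fun P => ?_)
  · exact (Complex.continuous_normSq.comp (continuous_coord_z.sub continuous_const)).add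
      ((continuous_coord_t.sub continuous_const).pow 2)
  · exact (continuous_const.mul continuous_coord_t).mul continuous_const
  · have := P.t_pos; have := Q.t_pos; positivity

theorem vol_sphere (P : H3) (r : ℝ) : vol {Q | coshDist P Q = r} = 0 := by
  have hm : MeasurableSet {Q | coshDist P Q = r} :=
    measurableSet_eq_fun (measurable_coshDist_pair.comp measurable_prodMk_left) measurable_const
  have hP := P.t_pos
  set S : Set (ℂ × ℝ) :=
    {p | p.2 ^ 2 + (-2 * r * P.t) * p.2 + (Complex.normSq (P.z - p.1) + P.t ^ 2) = 0}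
  have hsub : coords '' {Q | coshDist P Q = r} ⊆ S := by
    rintro _ ⟨Q, hQ, rfl⟩
    have hQt := Q.t_pos
    have e : coshDist P Q * (2 * P.t * Q.t) =
        Complex.normSq (P.z - Q.z) + P.t ^ 2 + Q.t ^ 2 := by
      rw [coshDist]; field_simp; ring
    rw [show coshDist P Q = r from hQ] at e
    simp only [S, mem_ofPred_eq, coords]
    linarith
  have hS : volume S = 0 := by
    rw [Measure.volume_eq_prod, Measure.prod_apply (by
      refine measurableSet_eq_fun ?_ measurable_const
      fun_prop)]
    refine lintegral_eq_zero_of_ae_eq_zero (Eventually.of_forall fun z => ?_)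
    refine Set.Finite.measure_zero ?_ _
    refine ((Polynomial.X ^ 2 + Polynomial.C (-2 * r * P.t) * Polynomial.X +
      Polynomial.C (Complex.normSq (P.z - z) + P.t ^ 2)).finite_setOfPred_isRoot ?_).subset fun t ht => ?_
    · intro h
      generalize -2 * r * P.t = a at h
      generalize Complex.normSq (P.z - z) + P.t ^ 2 = b at h
      have := congrArg (Polynomial.coeff · 2) h
      simp [Polynomial.coeff_X_pow] at this
    · simpa [S] using ht
  rw [vol_eq hm]
  exact setLIntegral_measure_zero _ _ (measure_mono_null hsub hS)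

theorem isOpenPosMeasure_vol : Measure.IsOpenPosMeasure (vol : Measure H3) := by
  refine ⟨fun U hU hne => ?_⟩
  rw [vol_eq hU.measurableSet]
  intro h0
  have ho : IsOpen (coords '' U) := isOpenEmbedding_coords.isOpenMap _ hU
  have hm : MeasurableSet (coords '' U) := ho.measurableSet
  have hd : Measurable fun x : ℂ × ℝ => ENNReal.ofReal (x.2 ^ 3)⁻¹ := by fun_prop
  have h1 := (setLIntegral_eq_zero_iff hm hd).mp h0
  refine (ho.measure_pos (μ := volume) (hne.image _)).ne' ?_
  refine measure_mono_null (fun x hx => ?_) (ae_iff.mp h1)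
  obtain ⟨Q, -, rfl⟩ := id hx
  simp only [mem_ofPred_eq, Classical.not_imp]
  refine ⟨hx, ?_⟩
  rw [ENNReal.ofReal_eq_zero, not_le]
  exact inv_pos.mpr (pow_pos Q.t_pos 3)

instance : Measure.IsOpenPosMeasure (vol : Measure H3) := isOpenPosMeasure_vol

/-- Nearby centres have their balls in a common larger one. -/
theorem eventually_ball_bound (P : H3) (C : ℝ) : ∃ R : ℝ, ∀ᶠ P' in 𝓝 P, ∀ Q,
    coshDist P' Q ≤ C → coshDist P Q ≤ R := by
  refine ⟨1 + 32 * 2 * |C| * (2 ^ 2 + C ^ 2), ?_⟩
  have hev : ∀ᶠ P' in 𝓝 P, coshDist P' P < 2 :=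
    (continuous_coshDist_left P).tendsto P |>.eventually_lt_const (by simp [coshDist])
  filter_upwards [hev] with P' hP' Q hQ
  have a1 := coshDist_ge_one P P'
  have a2 := coshDist_ge_one P' Q
  refine (coshDist_le_mul P P' Q).trans ?_
  rw [coshDist_symm P' P] at hP'
  have hC : coshDist P' Q ≤ |C| := hQ.trans (le_abs_self C)
  have hP2 : coshDist P P' ≤ 2 := hP'.le
  have h2 : coshDist P' Q ^ 2 ≤ C ^ 2 := pow_le_pow_left₀ (by linarith) hQ 2
  gcongr

theorem continuousAt_ballKer {ε : ℝ} {P Q : H3} (h : coshDist P Q ≠ Real.cosh ε) :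
    ContinuousAt (fun P' => ballKer ε P' Q) P := by
  rcases lt_or_gt_of_ne h with h | h
  · refine (continuousAt_const (y := (1 : ℂ))).congr ?_
    filter_upwards [(continuous_coshDist_left Q).tendsto P |>.eventually_lt_const h] with P' hP'
    rw [ballKer, indicator_of_mem (show Q ∈ ball P' ε from hP'.le)]
  · refine (continuousAt_const (y := (0 : ℂ))).congr ?_
    filter_upwards [(continuous_coshDist_left Q).tendsto P |>.eventually_const_lt h] with P' hP'
    rw [ballKer, indicator_of_notMem (show Q ∉ ball P' ε from not_le.mpr hP')]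

end H3

variable {L : Type*} [Field L] [NumberField L]

/-- Means over products of unit balls of bounded functions are continuous. -/
theorem continuous_ballMean {G : XInf L → ℂ} (hG : Measurable G) {C : ℝ} (hC : ∀ u, ‖G u‖ ≤ C) :
    Continuous fun x => ∫ u, prodKer (fun _ => H3.ballKer 1) x u * G u
      ∂(Measure.pi fun _ : InfinitePlace L => H3.vol) := by
  refine continuous_iff_continuousAt.mpr fun x => ?_
  choose R hR using fun w : InfinitePlace L => H3.eventually_ball_bound (x w) (Real.cosh 1)
  set B : Set (XInf L) := {u | ∀ w, H3.coshDist (x w) (u w) ≤ R w}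
  have hB : B = Set.univ.pi fun w => {Q | H3.coshDist (x w) Q ≤ R w} := by
    ext u; simp [B]
  have hBm : MeasurableSet B := by
    rw [hB]
    exact MeasurableSet.univ_pi fun w => measurableSet_le
      (H3.measurable_coshDist_pair.comp measurable_prodMk_left) measurable_const
  refine continuousAt_of_dominated (bound := B.indicator fun _ => |C|) ?_ ?_ ?_ ?_
  · refine Eventually.of_forall fun x' => ?_
    have hP : Measurable fun u : XInf L => prodKer (fun _ => H3.ballKer 1) x' u :=
      Measurable.comp (g := Function.uncurry (prodKer fun _ => H3.ballKer 1))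
        (f := fun u : XInf L => (x', u))
        (measurable_prodKer fun _ => H3.isInvKer_ballKer 1) measurable_prodMk_left
    exact (hP.mul hG).aestronglyMeasurable
  · have hev : ∀ᶠ x' in 𝓝 x, ∀ w, ∀ Q, H3.coshDist (x' w) Q ≤ Real.cosh 1 →
        H3.coshDist (x w) Q ≤ R w :=
      eventually_all.mpr fun w => ((continuous_apply w).tendsto x).eventually (hR w)
    filter_upwards [hev] with x' hx'
    refine Eventually.of_forall fun u => ?_
    by_cases h0 : prodKer (fun _ => H3.ballKer 1) x' u = 0
    · rw [h0, zero_mul, norm_zero]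
      exact indicator_nonneg (fun _ _ => abs_nonneg C) u
    · have hu : u ∈ B := fun w => hx' w _ (by
        by_contra hc
        exact Finset.prod_ne_zero_iff.mp h0 w (Finset.mem_univ w)
          (indicator_of_notMem (show u w ∉ H3.ball (x' w) 1 from hc) _))
      rw [indicator_of_mem hu, norm_mul, prodKer, norm_prod]
      refine le_trans (mul_le_of_le_one_left (norm_nonneg _) (Finset.prod_le_one
        (fun _ _ => norm_nonneg _) fun w _ => ?_)) ((hC u).trans (le_abs_self C))
      simp only [H3.ballKer, indicator]
      split_ifs <;> simp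
  · refine (integrable_indicator_iff hBm).mpr (integrableOn_const ?_)
    rw [hB, Measure.pi_pi]
    exact ENNReal.prod_ne_top fun w _ => (H3.vol_le_dist_lt_top _ _).ne
  · have hnull : ∀ᵐ u ∂(Measure.pi fun _ : InfinitePlace L => H3.vol),
        ∀ w, H3.coshDist (x w) (u w) ≠ Real.cosh 1 := by
      refine ae_all_iff.mpr fun w => ?_
      have hQ : ∀ᵐ Q ∂H3.vol, H3.coshDist (x w) Q ≠ Real.cosh 1 := by
        simp only [ae_iff, ne_eq, not_not]
        exact H3.vol_sphere _ _
      exact (Measure.quasiMeasurePreserving_eval (μ := fun _ : InfinitePlace L => H3.vol) w).ae hQ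
    filter_upwards [hnull] with u hu
    refine ContinuousAt.mul ?_ continuousAt_const
    exact tendsto_finsetProd _ fun w _ =>
      (H3.continuousAt_ballKer (hu w)).tendsto.comp ((continuous_apply w).tendsto x)

variable {𝔫 : Ideal (𝓞 L)} [h𝔫 : Fact (𝔫 ≠ ⊥)]

/-- Continuous functions equal almost everywhere are equal. -/
theorem eq_of_ae_eq_continuous {F F' : YSpace 𝔫 → ℂ} (hF : ∀ q, Continuous fun x => F (x, q))
    (hF' : ∀ q, Continuous fun x => F' (x, q)) (h : F =ᵐ[yVol 𝔫] F') : F = F' := by
  funext ⟨x, q⟩
  have h1 : ∀ᵐ x ∂(Measure.pi fun _ : InfinitePlace L => H3.vol), F (x, q) = F' (x, q) := by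
    have h2 := Measure.ae_ae_of_ae_prod (μ := Measure.pi fun _ : InfinitePlace L => H3.vol)
      (ν := (Measure.count : Measure (Cosets 𝔫))) h
    filter_upwards [h2] with x hx
    rw [Measure.ae_count_iff] at hx
    exact hx q
  exact congrFun ((Measure.eq_of_ae_eq h1 (hF q) (hF' q))) x

/-- The operator of a product kernel, as an integral at infinity. -/
theorem yOp_yKer {h : InfinitePlace L → H3 → H3 → ℂ} {T : Module.End ℂ (Cosets 𝔫 → ℂ)}
    (hh : ∀ w, H3.IsInvKer (h w)) (hT : IsCosetOp T) {Φ : YSpace 𝔫 → ℂ} (hm : Measurable Φ)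
    {C : ℝ} (hC : ∀ y, ‖Φ y‖ ≤ C) (x : XInf L) (q : Cosets 𝔫) :
    yOp (yKer h T) Φ (x, q) = ∫ u, prodKer h x u * T (fun p => Φ (u, p)) q
      ∂(Measure.pi fun _ : InfinitePlace L => H3.vol) := by
  have hi : Integrable (fun u => yKer h T (x, q) u * Φ u) (yVol 𝔫) :=
    ((isYKernel_yKer hh hT).integrable_row _).mul_bdd hm.aestronglyMeasurable
      (Eventually.of_forall hC)
  rw [yOp, yVol, integral_prod _ (by rwa [yVol] at hi)]
  refine integral_congr_ae (Eventually.of_forall fun u => ?_)
  have hfin : (Function.support fun b => finKer T q b * Φ (u, b)).Finite :=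
    (hT.row q).subset fun b hb => left_ne_zero_of_mul hb
  simp only [yKer, mul_assoc]
  rw [integral_const_mul, hT.expand, integral_countable ?_, finsum_eq_sum _ hfin,
    tsum_eq_sum (s := hfin.toFinset) fun b hb => ?_]
  · congr 1
    exact Finset.sum_congr rfl fun b _ => by simp [measureReal_def]
  · simp only [Finite.mem_toFinset, Function.mem_support, not_not] at hb
    simp [hb]
  · refine integrable_count_iff.mpr (summable_of_hasFiniteSupport ?_)
    exact hfin.subset fun b => by simp

end FermatAgent.LT
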