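import Mathlib
import Fermat.Agent.LT.Descent.Spectral.Continuity
import Fermat.Agent.LT.Descent.Spectral.Op

set_option autoImplicit false

/-!
# Mean values over products, and commuting kernel operators
-/

noncomputable section

open MeasureTheory Set Filter NumberField IsDedekindDomain
open scoped ComplexConjugate ENNReal MatrixGroups Topology

namespace FermatAgent.LT

namespace H3

/-- A composite kernel has the product of the mean values. -/
theorem mean_kConv {h h' : H3 → H3 → ℂ} (hh : IsInvKer h) (hh' : IsInvKer h') {f : H3 → ℂ}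
    (hf : Measurable f) {C : ℝ} (hC : ∀ P, ‖f P‖ ≤ C) {a a' : ℂ}
    (ha : ∀ P, ∫ Q, h P Q * f Q ∂vol = a * f P) (ha' : ∀ P, ∫ Q, h' P Q * f Q ∂vol = a' * f P)
    (P : H3) : ∫ Q, kConv h h' P Q * f Q ∂vol = a * a' * f P := by
  simp only [kConv, ← integral_mul_const]
  rw [integral_integral_swap ?_]
  · simp only [mul_assoc, integral_const_mul, ha']
    simp only [mul_left_comm _ a', integral_const_mul, ha]
  refine Integrable.swap (f := fun p : H3 × H3 => h P p.1 * h' p.1 p.2 * f p.2) ?_
  have hm : Measurable fun p : H3 × H3 => h P p.1 * h' p.1 p.2 * f p.2 :=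
    (((hh.measurable_row P).comp measurable_fst).mul hh'.measurable).mul (hf.comp measurable_snd)
  refine ⟨hm.aestronglyMeasurable, ?_⟩
  rw [hasFiniteIntegral_iff_enorm, lintegral_prod _ hm.enorm.aemeasurable]
  obtain ⟨V, hV⟩ := hh.exists_lintegral_le
  obtain ⟨W, hW⟩ := hh'.exists_lintegral_le
  refine lt_of_le_of_lt (lintegral_mono (g := fun U => ‖h P U‖ₑ *
    (ENNReal.ofReal W * ENNReal.ofReal C)) fun U => ?_) ?_
  · simp only [enorm_mul, mul_assoc]
    rw [lintegral_const_mul _ (show Measurable fun Q => ‖h' U Q‖ₑ * ‖f Q‖ₑ from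
      (hh'.measurable_row U).enorm.mul hf.enorm)]
    refine mul_le_mul_right ?_ _
    refine le_trans (lintegral_mono fun Q => mul_le_mul_right
      ((ofReal_norm (f Q)).symm.le.trans (ENNReal.ofReal_le_ofReal (hC Q))) _) ?_
    rw [lintegral_mul_const _ (hh'.measurable_row U).enorm]
    exact mul_le_mul_left (hW U) _
  · rw [lintegral_mul_const _ (hh.measurable_row P).enorm]
    exact ENNReal.mul_lt_top ((hV P).trans_lt ENNReal.ofReal_lt_top)
      (ENNReal.mul_lt_top ENNReal.ofReal_lt_top ENNReal.ofReal_lt_top)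

end H3

/-- Mean values at every variable give the mean value for the product. -/
theorem mean_fin : ∀ {n : ℕ} {k : Fin n → H3 → H3 → ℂ}, (∀ i, H3.IsInvKer (k i)) →
    ∀ {f : (Fin n → H3) → ℂ}, Measurable f → ∀ {C : ℝ}, (∀ u, ‖f u‖ ≤ C) → ∀ {a : Fin n → ℂ},
    (∀ (i : Fin n) (x : Fin n → H3) (P : H3),
      ∫ Q, k i P Q * f (Function.update x i Q) ∂H3.vol = a i * f (Function.update x i P)) →
    ∀ x : Fin n → H3, ∫ u, (∏ i, k i (x i) (u i)) * f u ∂(Measure.pi fun _ => H3.vol) =
      (∏ i, a i) * f x := by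
  intro n
  induction n with
  | zero =>
    intro k _ f _ C _ a _ x
    simp only [Finset.univ_eq_empty, Finset.prod_empty, one_mul]
    rw [integral_unique, Measure.real, Measure.pi_univ]
    simp only [Finset.univ_eq_empty, Finset.prod_empty, ENNReal.toReal_one, one_smul]
    exact congrArg f (Subsingleton.elim _ _)
  | succ n ih =>
    intro k hk f hf C hC a ha x
    let e := MeasurableEquiv.piFinSuccAbove (fun _ : Fin (n + 1) => H3) 0
    have hmp := (measurePreserving_piFinSuccAbove (fun _ : Fin (n + 1) => H3.vol) 0).symm e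
    rw [← hmp.integral_comp' (g := fun u => (∏ i, k i (x i) (u i)) * f u)]
    have hsym : ∀ z : H3 × (Fin n → H3), e.symm z = Fin.cons z.1 z.2 := fun z => by
      simp [e, MeasurableEquiv.piFinSuccAbove_symm_apply]
      rfl
    have hpre : ∀ z : H3 × (Fin n → H3), (∏ i, k i (x i) (e.symm z i)) * f (e.symm z) =
        k 0 (x 0) z.1 * ((∏ i : Fin n, k i.succ (x i.succ) (z.2 i)) * f (Fin.cons z.1 z.2)) :=
      fun z => by
        rw [hsym, Fin.prod_univ_succ]
        simp [mul_assoc]
    simp only [hpre]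
    have hfc : ∀ U : H3, Measurable fun v : Fin n → H3 => f (Fin.cons U v) := fun U => by
      refine hf.comp (measurable_pi_iff.mpr fun i => ?_)
      refine Fin.cases ?_ (fun j => ?_) i <;> simp
      exact measurable_pi_apply j
    have hcons : Measurable fun z : H3 × (Fin n → H3) => (Fin.cons z.1 z.2 : Fin (n + 1) → H3) := by
      refine measurable_pi_iff.mpr fun i => ?_
      refine Fin.cases ?_ (fun j => ?_) i <;> simp
      · exact measurable_fst
      · exact (measurable_pi_apply j).comp measurable_snd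
    have hprodm : Measurable fun v : Fin n → H3 => ∏ i : Fin n, k i.succ (x i.succ) (v i) :=
      Finset.measurable_prod _ fun i _ =>
        ((hk i.succ).measurable_row _).comp (measurable_pi_apply i)
    have hint : Integrable (fun z : H3 × (Fin n → H3) => k 0 (x 0) z.1 *
        ((∏ i : Fin n, k i.succ (x i.succ) (z.2 i)) * f (Fin.cons z.1 z.2)))
        (H3.vol.prod (Measure.pi fun _ : Fin n => H3.vol)) := by
      have h2 : Integrable (fun v : Fin n → H3 => ∏ i : Fin n, k i.succ (x i.succ) (v i))
          (Measure.pi fun _ : Fin n => H3.vol) :=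
        Integrable.fintype_prod_dep fun i => (hk i.succ).integrable_row _
      refine (((hk 0).integrable_row (x 0)).mul_prod h2).bdd_mul
        (hf.comp hcons).aestronglyMeasurable (Eventually.of_forall fun z => hC _) |>.congr ?_
      refine Eventually.of_forall fun z => ?_
      simp only [Function.comp_apply]
      ring
    rw [integral_prod _ hint]
    have hin : ∀ U, ∫ v, (∏ i : Fin n, k i.succ (x i.succ) (v i)) * f (Fin.cons U v)
        ∂(Measure.pi fun _ : Fin n => H3.vol) =
        (∏ i : Fin n, a i.succ) * f (Function.update x 0 U) := fun U => by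
      rw [ih (fun i => hk i.succ) (hfc U) (fun u => hC _) (a := fun i => a i.succ)
        (fun i y P => ?_) (fun i => x i.succ)]
      · congr 2
        conv_rhs => rw [← Fin.cons_self_tail x, Fin.update_cons_zero]
        rfl
      · have h1 := ha i.succ (Fin.cons U y) P
        simpa only [← Fin.cons_update] using h1
    have hout : ∀ U, ∫ v, k 0 (x 0) U * ((∏ i : Fin n, k i.succ (x i.succ) (v i)) *
        f (Fin.cons U v)) ∂(Measure.pi fun _ : Fin n => H3.vol) =
        (∏ i : Fin n, a i.succ) * (k 0 (x 0) U * f (Function.update x 0 U)) := fun U => by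
      rw [integral_const_mul, hin]
      ring
    simp only [hout]
    rw [integral_const_mul, ha 0 x (x 0), Function.update_eq_self, Fin.prod_univ_succ]
    ring

/-- Mean values at every place give the mean value for the product. -/
theorem mean_pi {ι : Type*} [Fintype ι] [DecidableEq ι] {k : ι → H3 → H3 → ℂ}
    (hk : ∀ i, H3.IsInvKer (k i)) {f : (ι → H3) → ℂ} (hf : Measurable f) {C : ℝ}
    (hC : ∀ u, ‖f u‖ ≤ C) {a : ι → ℂ}
    (ha : ∀ (i : ι) (x : ι → H3) (P : H3),
      ∫ Q, k i P Q * f (Function.update x i Q) ∂H3.vol = a i * f (Function.update x i P))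
    (x : ι → H3) :
    ∫ u, (∏ i, k i (x i) (u i)) * f u ∂(Measure.pi fun _ => H3.vol) = (∏ i, a i) * f x := by
  classical
  let e := (Fintype.equivFin ι).symm
  rw [← (measurePreserving_piCongrLeft (fun _ : ι => H3.vol) e).integral_comp'
    (g := fun u => (∏ i, k i (x i) (u i)) * f u)]
  have hE : ∀ v : Fin (Fintype.card ι) → H3,
      MeasurableEquiv.piCongrLeft (fun _ : ι => H3) e v = fun i => v (e.symm i) := fun v => by
    funext i
    conv_lhs => rw [← e.apply_symm_apply i]
    rw [MeasurableEquiv.coe_piCongrLeft, Equiv.piCongrLeft_apply_apply]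
  simp only [hE]
  have h1 := mean_fin (n := Fintype.card ι) (fun i => hk (e i))
    (f := fun v => f fun i => v (e.symm i))
    (hf.comp (measurable_pi_iff.mpr fun i => measurable_pi_apply _)) (C := C) (fun u => hC _)
    (a := fun i => a (e i)) (fun i y P => ?_) (fun i => x (e i))
  · simp only [Equiv.apply_symm_apply, e.prod_comp] at h1
    rw [← h1]
    refine integral_congr_ae (Eventually.of_forall fun v => ?_)
    dsimp only
    congr 1
    exact (Fintype.prod_equiv e _ _ fun i => by simp).symm
  · have hu : ∀ Q, (fun j => Function.update y i Q (e.symm j)) =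
        Function.update (fun j => y (e.symm j)) (e i) Q := fun Q => by
      funext j
      by_cases hj : j = e i
      · subst hj; simp
      · rw [Function.update_of_ne hj, Function.update_of_ne fun h => hj (by simp [← h])]
    simp only [hu]
    exact ha (e i) _ P

variable {L : Type*} [Field L] [NumberField L] {𝔫 : Ideal (𝓞 L)} [h𝔫 : Fact (𝔫 ≠ ⊥)]
  {h h' : InfinitePlace L → H3 → H3 → ℂ} {T T' : Module.End ℂ (Cosets 𝔫 → ℂ)}

theorem commute_clm_yKer (hh : ∀ w, H3.IsInvKer (h w)) (hh' : ∀ w, H3.IsInvKer (h' w))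
    (hT : IsCosetOp T) (hT' : IsCosetOp T') (hc : Commute T T')
    (𝔇 : AutDomain PGL(2, L) (yVol 𝔫)) :
    Commute ((isYKernel_yKer hh hT).clm 𝔇) ((isYKernel_yKer hh' hT').clm 𝔇) := by
  have e : yConv (yKer h T) (yKer h' T') = yConv (yKer h' T') (yKer h T) := by
    rw [yConv_yKer hT hT', yConv_yKer hT' hT, hc.eq]
    congr 1
    funext w
    exact H3.kConv_comm (hh w) (hh' w)
  rw [Commute, SemiconjBy, IsYKernel.clm_mul, IsYKernel.clm_mul]
  have key : ∀ {k k' : YSpace 𝔫 → YSpace 𝔫 → ℂ} (hk : IsYKernel k) (hk' : IsYKernel k'),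
      k = k' → hk.clm 𝔇 = hk'.clm 𝔇 := fun hk hk' h => by subst h; rfl
  exact key _ _ e

/-- Pointwise action on a function with mean values. -/
theorem yOp_yKer_mean (hh : ∀ w, H3.IsInvKer (h w)) (hT : IsCosetOp T) {Φ : YSpace 𝔫 → ℂ}
    (hm : Measurable Φ) {C : ℝ} (hC : ∀ y, ‖Φ y‖ ≤ C) {a : InfinitePlace L → ℂ} {r : ℂ}
    (hTΦ : ∀ x, T (fun p => Φ (x, p)) = fun p => r * Φ (x, p))
    (ha : ∀ (w : InfinitePlace L) x P q, letI := Classical.decEq (InfinitePlace L)
      ∫ Q, h w P Q * Φ (Function.update x w Q, q) ∂H3.vol = a w * Φ (Function.update x w P, q))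
    (x : XInf L) (q : Cosets 𝔫) : yOp (yKer h T) Φ (x, q) = (∏ w, a w) * r * Φ (x, q) := by
  classical
  rw [yOp_yKer hh hT hm hC]
  simp only [hTΦ, mul_left_comm _ r, integral_const_mul, prodKer]
  rw [mean_pi hh (f := fun u => Φ (u, q)) (hm.comp measurable_prodMk_right) (fun u => hC _)
    fun w y P => ha w y P q]
  ring

end FermatAgent.LT
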