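import Mathlib
import Fermat.Agent.LT.Descent.StrongLimit
import Fermat.Agent.LT.Descent.Spectral.Trace

set_option autoImplicit false

/-!
# Joint kernels of two matched families and joint eigenvectors
-/

noncomputable section

open Filter Topology
open scoped InnerProductSpace

namespace FermatAgent.LT.Joint

variable {E E' ι ι' : Type*} [NormedAddCommGroup E] [InnerProductSpace ℂ E] [CompleteSpace E]
  [NormedAddCommGroup E'] [InnerProductSpace ℂ E'] [CompleteSpace E']

/-- The common kernel of the first `n` operators. -/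
def kerBelow (X : ℕ → E →L[ℂ] E) (n : ℕ) : Submodule ℂ E :=
  ⨅ i ∈ Finset.range n, LinearMap.ker (X i).toLinearMap

/-- The common kernel of all operators. -/
def kerAll (X : ℕ → E →L[ℂ] E) : Submodule ℂ E := ⨅ i, LinearMap.ker (X i).toLinearMap

omit [CompleteSpace E] in
theorem mem_kerBelow {X : ℕ → E →L[ℂ] E} {n : ℕ} {v : E} :
    v ∈ kerBelow X n ↔ ∀ i ∈ Finset.range n, X i v = 0 := by
  simp [kerBelow]

omit [CompleteSpace E] in
theorem mem_kerAll {X : ℕ → E →L[ℂ] E} {v : E} : v ∈ kerAll X ↔ ∀ i, X i v = 0 := by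
  simp [kerAll]

omit [CompleteSpace E] in
theorem isClosed_kerBelow (X : ℕ → E →L[ℂ] E) (n : ℕ) : IsClosed (kerBelow X n : Set E) := by
  simp only [kerBelow, Submodule.coe_iInf]
  exact isClosed_iInter fun i => isClosed_iInter fun _ => (X i).isClosed_ker

omit [CompleteSpace E] in
theorem isClosed_kerAll (X : ℕ → E →L[ℂ] E) : IsClosed (kerAll X : Set E) := by
  simp only [kerAll, Submodule.coe_iInf]
  exact isClosed_iInter fun i => (X i).isClosed_ker

instance (X : ℕ → E →L[ℂ] E) (n : ℕ) : (kerBelow X n).HasOrthogonalProjection :=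
  haveI := (isClosed_kerBelow X n).completeSpace_coe
  inferInstance

instance (X : ℕ → E →L[ℂ] E) : (kerAll X).HasOrthogonalProjection :=
  haveI := (isClosed_kerAll X).completeSpace_coe
  inferInstance

/-- The pairing of an operator with two families. -/
def pairing (a c : ι → E) (Z : E →L[ℂ] E) : ℂ := ∑' i, ⟪Z (a i), c i⟫_ℂ

theorem tendsto_projection (X : ℕ → E →L[ℂ] E) (v : E) :
    Tendsto (fun n => (kerBelow X n).starProjection v) atTop
      (𝓝 ((kerAll X).starProjection v)) := by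
  refine StrongLimit.tendsto_projection_iInf (kerBelow X) (fun m n hmn => ?_) (kerAll X) ?_
    (isClosed_kerBelow X) v
  · intro v hv
    rw [mem_kerBelow] at hv ⊢
    exact fun i hi => hv i (Finset.mem_range.mpr ((Finset.mem_range.mp hi).trans_le hmn))
  · ext v
    simp only [Submodule.mem_iInf, mem_kerBelow, mem_kerAll]
    exact ⟨fun h i => h (i + 1) i (Finset.self_mem_range_succ i), fun h n i _ => h i⟩

omit [CompleteSpace E] in
theorem norm_pow_le {D : E →L[ℂ] E} (hn : ∀ x, ‖D x‖ ≤ ‖x‖) (k : ℕ) (x : E) :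
    ‖(D ^ k) x‖ ≤ ‖x‖ := by
  induction k with
  | zero => simp
  | succ k ih =>
    rw [pow_succ', StrongLimit.mulv]
    exact (hn _).trans ih

/-- **The identity of the pairings passes to the projections on the common kernels.** -/
theorem pairing_projection {XF : ℕ → E →L[ℂ] E} {XK : ℕ → E' →L[ℂ] E'}
    (hF : ∀ n x y, ⟪XF n x, y⟫_ℂ = ⟪x, XF n y⟫_ℂ) (hK : ∀ n x y, ⟪XK n x, y⟫_ℂ = ⟪x, XK n y⟫_ℂ)
    (nF : ∀ n x, ‖XF n x‖ ≤ ‖x‖) (nK : ∀ n x, ‖XK n x‖ ≤ ‖x‖) {a c : ι → E} {a' c' : ι' → E'}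
    (ha : Summable fun i => ‖a i‖ ^ 2) (hc : Summable fun i => ‖c i‖ ^ 2)
    (ha' : Summable fun i => ‖a' i‖ ^ 2) (hc' : Summable fun i => ‖c' i‖ ^ 2) (κ : ℂ)
    (h : ∀ Z ∈ Algebra.adjoin ℂ (Set.range fun n => (XF n, XK n)),
      pairing a c Z.1 = κ * pairing a' c' Z.2) :
    pairing a c (kerAll XF).starProjection = κ * pairing a' c' (kerAll XK).starProjection := by
  have hstep : ∀ n, pairing a c (kerBelow XF n).starProjection =
      κ * pairing a' c' (kerBelow XK n).starProjection := by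
    intro n
    set DF := 1 - StrongLimit.avgSq (Finset.range n) XF with hDF
    set DK := 1 - StrongLimit.avgSq (Finset.range n) XK with hDK
    have hmem : ∀ k, ((DF ^ k, DK ^ k) : (E →L[ℂ] E) × (E' →L[ℂ] E')) ∈
        Algebra.adjoin ℂ (Set.range fun n => (XF n, XK n)) := by
      intro k
      rw [show ((DF ^ k, DK ^ k) : (E →L[ℂ] E) × (E' →L[ℂ] E')) = (DF, DK) ^ k from
        (Prod.ext (Prod.pow_fst (DF, DK) k) (Prod.pow_snd (DF, DK) k)).symm]
      refine pow_mem ?_ k
      rw [show ((DF, DK) : (E →L[ℂ] E) × (E' →L[ℂ] E')) =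
        1 - (StrongLimit.avgSq (Finset.range n) XF, StrongLimit.avgSq (Finset.range n) XK) from rfl]
      refine sub_mem (one_mem _) ?_
      have e : ((StrongLimit.avgSq (Finset.range n) XF, StrongLimit.avgSq (Finset.range n) XK) :
          (E →L[ℂ] E) × (E' →L[ℂ] E')) =
          (((Finset.range n).card : ℂ)⁻¹) • ∑ i ∈ Finset.range n, (XF i, XK i) * (XF i, XK i) := by
        simp [StrongLimit.avgSq, Prod.ext_iff, Prod.fst_sum, Prod.snd_sum]
      rw [e]
      refine Subalgebra.smul_mem _ (sum_mem fun i _ => ?_) _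
      have hi : (XF i, XK i) ∈ Algebra.adjoin ℂ (Set.range fun n => (XF n, XK n)) :=
        Algebra.subset_adjoin ⟨i, rfl⟩
      exact mul_mem hi hi
    have hDFn : ∀ x, ‖DF x‖ ≤ ‖x‖ := fun x => by
      refine (pow_le_pow_iff_left₀ (norm_nonneg _) (norm_nonneg _) two_ne_zero).mp ?_
      have h1 := StrongLimit.norm_avgSq_sq_le (s := Finset.range n) (fun i _ => hF i)
        (fun i _ => nF i) x
      rw [hDF, sub_apply, StrongLimit.onev, @norm_sub_sq ℂ E _ _ _, ← inner_conj_symm,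
        RCLike.conj_re]
      linarith [sq_nonneg ‖StrongLimit.avgSq (Finset.range n) XF x‖]
    have hDKn : ∀ x, ‖DK x‖ ≤ ‖x‖ := fun x => by
      refine (pow_le_pow_iff_left₀ (norm_nonneg _) (norm_nonneg _) two_ne_zero).mp ?_
      have h1 := StrongLimit.norm_avgSq_sq_le (s := Finset.range n) (fun i _ => hK i)
        (fun i _ => nK i) x
      rw [hDK, sub_apply, StrongLimit.onev, @norm_sub_sq ℂ E' _ _ _, ← inner_conj_symm,
        RCLike.conj_re]
      linarith [sq_nonneg ‖StrongLimit.avgSq (Finset.range n) XK x‖]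
    have t1 := TraceKernel.tendsto_tsum_inner ha hc (Z := fun k => DF ^ (2 * k))
      (Z₀ := (kerBelow XF n).starProjection) (M := 1)
      (fun k x => by rw [one_mul]; exact norm_pow_le hDFn _ x)
      (fun v => StrongLimit.tendsto_pow_projection (fun i _ => hF i) (fun i _ => nF i) _
        (fun v => mem_kerBelow) v)
    have t2 := (TraceKernel.tendsto_tsum_inner ha' hc' (Z := fun k => DK ^ (2 * k))
      (Z₀ := (kerBelow XK n).starProjection) (M := 1)
      (fun k x => by rw [one_mul]; exact norm_pow_le hDKn _ x)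
      (fun v => StrongLimit.tendsto_pow_projection (fun i _ => hK i) (fun i _ => nK i) _
        (fun v => mem_kerBelow) v)).const_mul κ
    exact tendsto_nhds_unique (t1.congr fun k => h _ (hmem (2 * k))) t2
  have t1 := TraceKernel.tendsto_tsum_inner ha hc
    (Z := fun n => (kerBelow XF n).starProjection) (Z₀ := (kerAll XF).starProjection) (M := 1)
    (fun k x => by rw [one_mul]; exact Submodule.norm_starProjection_apply_le _ x)
    (tendsto_projection XF)
  have t2 := (TraceKernel.tendsto_tsum_inner ha' hc'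
    (Z := fun n => (kerBelow XK n).starProjection) (Z₀ := (kerAll XK).starProjection) (M := 1)
    (fun k x => by rw [one_mul]; exact Submodule.norm_starProjection_apply_le _ x)
    (tendsto_projection XK)).const_mul κ
  exact tendsto_nhds_unique (t1.congr hstep) t2

/-- An operator commuting with a symmetric family commutes with the projection on its kernel. -/
theorem projection_commute {X : ℕ → E →L[ℂ] E} {B : E →L[ℂ] E}
    (hB : ∀ x y, ⟪B x, y⟫_ℂ = ⟪x, B y⟫_ℂ) (hc : ∀ n, Commute B (X n)) (v : E) :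
    (kerAll X).starProjection (B v) = B ((kerAll X).starProjection v) := by
  have hmap : ∀ u ∈ kerAll X, B u ∈ kerAll X := fun u hu => mem_kerAll.mpr fun n => by
    rw [← StrongLimit.mulv, ← (hc n).eq, StrongLimit.mulv, mem_kerAll.mp hu n, map_zero]
  refine Submodule.eq_starProjection_of_mem_of_inner_eq_zero
    (hmap _ (Submodule.starProjection_apply_mem _ v)) fun u hu => ?_
  rw [← map_sub, hB]
  exact Submodule.starProjection_inner_eq_zero v _ (hmap u hu)

omit [CompleteSpace E] in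
/-- A subspace on which a square summable operator is a nonzero scalar is small. -/
theorem card_le_of_orthonormal {A : E →L[ℂ] E} {e : HilbertBasis ι ℂ E}
    (hA : Summable fun i => ‖A (e i)‖ ^ 2) (hs : ∀ x y, ⟪A x, y⟫_ℂ = ⟪x, A y⟫_ℂ) {c : ℂ}
    {n : ℕ} {u : Fin n → E} (hu : Orthonormal ℂ u) (hAu : ∀ j, A (u j) = c • u j) :
    n * ‖c‖ ^ 2 ≤ ∑' i, ‖A (e i)‖ ^ 2 := by
  have h1 : ∀ j, HasSum (fun i => ‖⟪e i, A (u j)⟫_ℂ‖ ^ 2) (‖A (u j)‖ ^ 2) := fun j => by
    have h := (e.hasSum_inner_mul_inner (A (u j)) (A (u j))).mapL Complex.reCLM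
    simp only [Complex.reCLM_apply] at h
    rw [← inner_self_eq_norm_sq (𝕜 := ℂ)]
    refine h.congr_fun fun i => ?_
    rw [← Complex.normSq_eq_norm_sq, Complex.normSq_apply,
      show ⟪A (u j), e i⟫_ℂ = (starRingEnd ℂ) ⟪e i, A (u j)⟫_ℂ from (inner_conj_symm _ _).symm]
    simp only [Complex.mul_re, Complex.conj_re, Complex.conj_im]
    ring
  have h2 : HasSum (fun i => ∑ j, ‖⟪e i, A (u j)⟫_ℂ‖ ^ 2) ((n : ℝ) * ‖c‖ ^ 2) := by
    have h := hasSum_sum (s := Finset.univ) fun j _ => h1 j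
    simpa [hAu, norm_smul, hu.1] using h
  refine hasSum_le (fun i => ?_) h2 hA.hasSum
  refine le_trans (le_of_eq (Finset.sum_congr rfl fun j _ => ?_))
    (hu.sum_inner_products_le (A (e i)) (s := Finset.univ))
  rw [← hs, ← inner_conj_symm, RCLike.norm_conj]

omit [CompleteSpace E] in
theorem finiteDimensional_scalar {A : E →L[ℂ] E} {e : HilbertBasis ι ℂ E}
    (hA : Summable fun i => ‖A (e i)‖ ^ 2) (hs : ∀ x y, ⟪A x, y⟫_ℂ = ⟪x, A y⟫_ℂ) {c : ℂ}
    (hc : c ≠ 0) {U : Submodule ℂ E} (hU : ∀ u ∈ U, A u = c • u) : FiniteDimensional ℂ U := by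
  by_contra hinf
  obtain ⟨n, hn⟩ := exists_nat_gt ((∑' i, ‖A (e i)‖ ^ 2) / ‖c‖ ^ 2)
  obtain ⟨f, hf⟩ : ∃ f : Fin n → U, LinearIndependent ℂ f := by
    refine Module.le_rank_iff.mp ?_
    rw [FiniteDimensional, ← Module.rank_lt_aleph0_iff, not_lt] at hinf
    exact (Cardinal.natCast_le_aleph0).trans hinf
  have hli : LinearIndependent ℂ fun j => (f j : E) := hf.map' U.subtype U.ker_subtype
  set W := Submodule.span ℂ (Set.range fun j => (f j : E))
  have : FiniteDimensional ℂ W := FiniteDimensional.span_of_finite ℂ (Set.finite_range _)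
  have hr : Module.finrank ℂ W = n := by rw [finrank_span_eq_card hli, Fintype.card_fin]
  have hWU : W ≤ U := Submodule.span_le.mpr (by rintro _ ⟨j, rfl⟩; exact (f j).2)
  let b := stdOrthonormalBasis ℂ W
  have := card_le_of_orthonormal hA hs (u := fun j => (b j : E))
    (b.orthonormal.comp_linearIsometry W.subtypeₗᵢ) fun j => hU _ (hWU (b j).2)
  rw [hr] at this
  rw [div_lt_iff₀ (by positivity)] at hn
  linarith

omit [CompleteSpace E] in
/-- Commuting symmetric operators have a joint eigenvector in an invariant finite dimensional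
subspace. -/
theorem exists_joint_eigen {J : Type*} {T : J → E →L[ℂ] E}
    (hs : ∀ j x y, ⟪T j x, y⟫_ℂ = ⟪x, T j y⟫_ℂ) {U : Submodule ℂ E} [FiniteDimensional ℂ U]
    (hU : U ≠ ⊥) (hT : ∀ j, ∀ u ∈ U, T j u ∈ U)
    (hcomm : ∀ i j, ∀ u ∈ U, T i (T j u) = T j (T i u)) :
    ∃ u ∈ U, u ≠ 0 ∧ ∀ j, ∃ r : ℝ, T j u = (r : ℂ) • u := by
  classical
  have hex : ∃ d, ∃ W ≤ U, W ≠ ⊥ ∧ (∀ j, ∀ u ∈ W, T j u ∈ W) ∧ Module.finrank ℂ W = d :=
    ⟨_, U, le_rfl, hU, hT, rfl⟩
  obtain ⟨W, hWU, hW0, hWT, hWd⟩ := Nat.find_spec hex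
  have : FiniteDimensional ℂ W := Submodule.finiteDimensional_of_le hWU
  obtain ⟨u, huW, hu0⟩ := W.exists_mem_ne_zero_of_ne_bot hW0
  refine ⟨u, hWU huW, hu0, fun j => ?_⟩
  set g : W →ₗ[ℂ] W := (T j).toLinearMap.restrict (hWT j)
  have hg : g.IsSymmetric := fun x y => hs j x y
  have : Nontrivial W := ⟨⟨u, huW⟩, 0, fun h => hu0 (congrArg Subtype.val h)⟩
  obtain ⟨μ, hμ⟩ := Module.End.exists_eigenvalue g
  have hμr : (μ.re : ℂ) = μ := Complex.conj_eq_iff_re.mp (hg.conj_eigenvalue_eq_self hμ)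
  refine ⟨μ.re, ?_⟩
  rw [hμr]
  -- the eigenspace is stable, hence everything by minimality
  set W' : Submodule ℂ E := (Module.End.eigenspace g μ).map W.subtype
  have hW'W : W' ≤ W := Submodule.map_subtype_le W _
  have hW'0 : W' ≠ ⊥ := fun h0 => hμ (by
    refine Submodule.map_injective_of_injective W.subtype_injective ?_
    rw [Submodule.map_bot]; exact h0)
  have hmemW' : ∀ x, x ∈ W' ↔ x ∈ W ∧ T j x = μ • x := by
    intro x
    constructor
    · rintro ⟨y, hy, rfl⟩
      exact ⟨y.2, congrArg Subtype.val (Module.End.mem_eigenspace_iff.mp hy)⟩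
    · rintro ⟨hx, hx'⟩
      exact ⟨⟨x, hx⟩, Module.End.mem_eigenspace_iff.mpr (Subtype.ext hx'), rfl⟩
  have hW'T : ∀ i, ∀ x ∈ W', T i x ∈ W' := fun i x hx => by
    rw [hmemW'] at hx ⊢
    exact ⟨hWT i x hx.1, by rw [hcomm j i x (hWU hx.1), hx.2, map_smul]⟩
  have hle := Nat.find_min' hex ⟨W', hW'W.trans hWU, hW'0, hW'T, rfl⟩
  rw [← hWd] at hle
  have heq : W' = W := Submodule.eq_of_le_of_finrank_le hW'W hle
  exact ((hmemW' u).mp (heq ▸ huW)).2

end FermatAgent.LT.Joint
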