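import Mathlib
import Fermat.Agent.LT.Base.Siegel
import Fermat.Agent.LT.Descent.Kernel.Defs
import Fermat.Agent.LT.Descent.Spectral.Bound.ZeroSum
import Fermat.Agent.LT.Descent.Spectral.Bound.Count

set_option autoImplicit false

/-!
# Bounded kernels: counting in Siegel sets and the gain from cuspidality
-/

noncomputable section

open MeasureTheory NumberField IsDedekindDomain
open scoped MatrixGroups

namespace FermatAgent.LT

variable {L : Type*} [Field L] [NumberField L] [IsTotallyComplex L] {𝔫 : Ideal (𝓞 L)}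

/-- Each ball with a cuspidal operator lowers the growth of the sum over the group by one. -/
theorem hasStripGrowth_kerSum_yPow (h𝔫 : 𝔫 ≠ ⊥) {T : Module.End ℂ (Cosets 𝔫 → ℂ)}
    (hT : IsCosetOp T) {v : HeightOneSpectrum (𝓞 L)} (hv : IsCuspOpAt v T) :
    ∀ j : ℕ, HasStripGrowth (fun z y => kerSum (yPow (yKer (fun _ => H3.ballKer 1) T) j) y z)
      (2 * Fintype.card (InfinitePlace L) - j) := by
  have := Fact.mk h𝔫
  have hk : IsYKernel (yKer (𝔫 := 𝔫) (fun _ => H3.ballKer 1) T) :=
    isYKernel_yKer (fun _ => H3.isInvKer_ballKer 1) hT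
  intro j
  induction j with
  | zero => exact hk.hasStripGrowth_kerSum h𝔫
  | succ j ih =>
    set b := 2 * Fintype.card (InfinitePlace L) - (j + 1)
    have hj : IsYKernel (yPow (yKer (𝔫 := 𝔫) (fun _ => H3.ballKer 1) T) j) := hk.yPow j
    have hb : HasStripGrowth
        (fun z y => kerSum (yPow (yKer (𝔫 := 𝔫) (fun _ => H3.ballKer 1) T) j) y z) (b + 1) := by
      rcases Nat.lt_or_ge j (2 * Fintype.card (InfinitePlace L)) with h | h
      · rwa [show b + 1 = 2 * Fintype.card (InfinitePlace L) - j by omega]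
      · rw [show 2 * Fintype.card (InfinitePlace L) - j = 0 by omega] at ih
        rw [show b = 0 by omega]
        exact ih.succ
    have := hb.yOp_ball h𝔫 hT hv (fun z => hj.measurable_kerSum.comp measurable_prodMk_right)
      fun z γ y => kerSum_smul_left hj γ y z
    convert this using 2 with z
    funext y
    exact kerSum_yConv hk hj y z

/-- **Bounded kernels.**  A sufficiently high power of the unit balls times a cuspidal operator has
a bounded sum over the group. -/
theorem exists_kerSum_bound (h𝔫 : 𝔫 ≠ ⊥) {T : Module.End ℂ (Cosets 𝔫 → ℂ)} (hT : IsCosetOp T)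
    {v : HeightOneSpectrum (𝓞 L)} (hv : IsCuspOpAt v T) {m : ℕ}
    (hm : 2 * Fintype.card (InfinitePlace L) + 1 ≤ m) :
    ∃ C : ℝ, ∀ y z : YSpace 𝔫,
      ‖kerSum (yPow (yKer (fun _ => H3.ballKer 1) T) m) y z‖ ≤ C := by
  have := Fact.mk h𝔫
  have h0 := hasStripGrowth_kerSum_yPow h𝔫 hT hv m
  rw [show 2 * Fintype.card (InfinitePlace L) - m = 0 by omega] at h0
  obtain ⟨D, c, R, hD, hc, -, hmeet⟩ := exists_siegel (𝔫 := 𝔫) h𝔫
  obtain ⟨C, -, hC⟩ := h0 c R hc D hD
  refine ⟨C, fun y z => ?_⟩
  obtain ⟨γ, hγD, hγS⟩ := hmeet y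
  rw [← kerSum_smul_left ((isYKernel_yKer (fun _ => H3.isInvKer_ballKer 1) hT).yPow m) γ y z]
  have := hC z (γ • y).1 (fun w => (hγS w).2) (γ • y).2 hγD
  simpa using this

end FermatAgent.LT
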