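import Mathlib
import Fermat.Agent.LT.Base.Expansion
import Fermat.Agent.LT.Base.Radial
import Fermat.Agent.LT.Descent.Spectral.Op
import Fermat.Agent.LT.Descent.StrongLimit
import Fermat.Agent.LT.Descent.Spectral.Continuity
import Fermat.Agent.LT.Descent.Spectral.Bound

set_option autoImplicit false

/-!
# Eigenvectors of the ball operators are cusp forms
-/

noncomputable section

open MeasureTheory Set Filter NumberField IsDedekindDomain
open scoped ComplexConjugate ENNReal MatrixGroups Topology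

namespace FermatAgent.LT

variable {L : Type*} [Field L] [NumberField L] {𝔫 : Ideal (𝓞 L)} [h𝔫 : Fact (𝔫 ≠ ⊥)]
  {T : Module.End ℂ (Cosets 𝔫 → ℂ)}

/-- The unit balls at every place times `T`. -/
def unitKer (T : Module.End ℂ (Cosets 𝔫 → ℂ)) : YSpace 𝔫 → YSpace 𝔫 → ℂ :=
  yKer (fun _ => H3.ballKer 1) T

open Classical in
/-- An additional ball of radius `ε` at `w`. -/
def placeKer (T : Module.End ℂ (Cosets 𝔫 → ℂ)) (w : InfinitePlace L) (ε : ℝ) :
    YSpace 𝔫 → YSpace 𝔫 → ℂ :=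
  yKer (Function.update (fun _ => H3.ballKer 1) w (H3.kConv (H3.ballKer ε) (H3.ballKer 1))) T

theorem isYKernel_unitKer (hT : IsCosetOp T) : IsYKernel (unitKer T) :=
  isYKernel_yKer (fun _ => H3.isInvKer_ballKer 1) hT

omit h𝔫 [NumberField L] in
theorem isInvKer_update (w : InfinitePlace L) (ε : ℝ) (u : InfinitePlace L) [DecidableEq (InfinitePlace L)] :
    H3.IsInvKer (Function.update (fun _ => H3.ballKer 1) w
      (H3.kConv (H3.ballKer ε) (H3.ballKer 1)) u) := by
  by_cases h : u = w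
  · subst h
    rw [Function.update_self]
    exact (H3.isInvKer_ballKer ε).kConv (H3.isInvKer_ballKer 1)
  · rw [Function.update_of_ne h]
    exact H3.isInvKer_ballKer 1

theorem isYKernel_placeKer (hT : IsCosetOp T) (w : InfinitePlace L) (ε : ℝ) :
    IsYKernel (placeKer T w ε) := by
  classical exact isYKernel_yKer (fun u => isInvKer_update w ε u) hT

omit h𝔫 in
theorem IsCosetOp.exists_norm_le (hT : IsCosetOp T) :
    ∃ D : ℝ, 0 ≤ D ∧ ∀ (f : Cosets 𝔫 → ℂ) (C : ℝ), (∀ p, ‖f p‖ ≤ C) → ∀ q, ‖T f q‖ ≤ D * C := by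
  obtain ⟨D, hD⟩ := hT.exists_bound
  refine ⟨max D 0, le_max_right _ _, fun f C hC q => ?_⟩
  have hC0 : 0 ≤ C := (norm_nonneg _).trans (hC q)
  rw [hT.expand, finsum_eq_sum_of_support_subset (s := (hT.row q).toFinset) _ (fun b hb => by
    simp only [Finite.coe_toFinset, Function.mem_support]
    exact left_ne_zero_of_mul hb)]
  refine (norm_sum_le _ _).trans ?_
  calc ∑ b ∈ (hT.row q).toFinset, ‖finKer T q b * f b‖
      ≤ ∑ b ∈ (hT.row q).toFinset, ‖finKer T q b‖ * C := Finset.sum_le_sum fun b _ => by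
        rw [norm_mul]; exact mul_le_mul_of_nonneg_left (hC b) (norm_nonneg _)
    _ ≤ _ := by
        rw [← Finset.sum_mul]
        refine mul_le_mul_of_nonneg_right ?_ hC0
        refine le_trans (le_of_eq ?_) ((hD q).1.trans (le_max_left _ _))
        refine (finsum_eq_sum_of_support_subset _ fun b hb => ?_).symm
        simpa using hb

omit h𝔫 in
theorem measurable_applyT (hT : IsCosetOp T) {Φ : YSpace 𝔫 → ℂ} (hm : Measurable Φ)
    (q : Cosets 𝔫) : Measurable fun u => T (fun p => Φ (u, p)) q := by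
  have e : (fun u => T (fun p => Φ (u, p)) q) =
      fun u => ∑ b ∈ (hT.row q).toFinset, finKer T q b * Φ (u, b) := by
    funext u
    rw [hT.expand]
    refine finsum_eq_sum_of_support_subset _ fun b hb => ?_
    simp only [Finite.coe_toFinset, Function.mem_support]
    exact left_ne_zero_of_mul hb
  rw [e]
  exact Finset.measurable_sum _ fun b _ => (hm.comp measurable_prodMk_right).const_mul _

omit h𝔫 in
theorem yOp_bounded {k : YSpace 𝔫 → YSpace 𝔫 → ℂ} (hk : IsYKernel k) {Φ : YSpace 𝔫 → ℂ}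
    {C : ℝ} (hC : ∀ y, ‖Φ y‖ ≤ C) : ∃ C' : ℝ, ∀ y, ‖yOp k Φ y‖ ≤ C' := by
  obtain ⟨V, hV⟩ := hk.row
  refine ⟨max V 0 * max C 0, fun y => (norm_integral_le_lintegral_norm _).trans ?_⟩
  refine (ENNReal.toReal_mono ENNReal.ofReal_ne_top ?_).trans
    (ENNReal.toReal_ofReal (by positivity : (0 : ℝ) ≤ max V 0 * max C 0)).le
  calc ∫⁻ u, ENNReal.ofReal ‖k y u * Φ u‖ ∂(yVol 𝔫)
      ≤ ∫⁻ u, ‖k y u‖ₑ * ENNReal.ofReal (max C 0) ∂(yVol 𝔫) := lintegral_mono fun u => by
        rw [norm_mul, ENNReal.ofReal_mul (norm_nonneg _), ofReal_norm]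
        exact mul_le_mul_right (ENNReal.ofReal_le_ofReal ((hC _).trans (le_max_left _ _))) _
    _ = (∫⁻ u, ‖k y u‖ₑ ∂(yVol 𝔫)) * ENNReal.ofReal (max C 0) :=
        lintegral_mul_const _ (hk.measurable_row y).enorm
    _ ≤ _ := by
        rw [ENNReal.ofReal_mul (le_max_right _ _)]
        exact mul_le_mul_left ((hV y).trans (ENNReal.ofReal_le_ofReal (le_max_left _ _))) _

theorem measurable_yOp {k : YSpace 𝔫 → YSpace 𝔫 → ℂ} (hk : IsYKernel k) {Φ : YSpace 𝔫 → ℂ}
    (hΦ : Measurable Φ) : Measurable (yOp k Φ) :=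
  hk.exists_isWeight.choose_spec.measurable_op hΦ

theorem yOp_invariant {k : YSpace 𝔫 → YSpace 𝔫 → ℂ} (hk : IsYKernel k) {Φ : YSpace 𝔫 → ℂ}
    (hΦ : ∀ (γ : PGL(2, L)) y, Φ (γ • y) = Φ y) (γ : PGL(2, L)) (y : YSpace 𝔫) :
    yOp k Φ (γ • y) = yOp k Φ y :=
  hk.exists_isWeight.choose_spec.op_invariant hΦ (measurePreserving_ySmul h𝔫.out) γ y

variable (T) in
/-- A continuous invariant eigenfunction of the unit kernel, fixed by `T`. -/
structure IsSmoothEigen (Φ : YSpace 𝔫 → ℂ) (c : ℂ) : Prop where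
  measurable : Measurable Φ
  invariant : ∀ (γ : PGL(2, L)) y, Φ (γ • y) = Φ y
  bounded : ∃ C, ∀ y, ‖Φ y‖ ≤ C
  continuous : ∀ q, Continuous fun x => Φ (x, q)
  eigen : ∀ y, yOp (unitKer T) Φ y = c * Φ y

theorem continuous_yOp_unitKer (hT : IsCosetOp T) {Φ : YSpace 𝔫 → ℂ} (hm : Measurable Φ) {C : ℝ}
    (hC : ∀ y, ‖Φ y‖ ≤ C) (q : Cosets 𝔫) : Continuous fun x => yOp (unitKer T) Φ (x, q) := by
  obtain ⟨D, -, hD⟩ := hT.exists_norm_le
  simp only [unitKer, yOp_yKer (fun _ => H3.isInvKer_ballKer 1) hT hm hC]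
  exact continuous_ballMean (measurable_applyT hT hm q)
    fun u => hD _ C (fun p => hC (u, p)) q

variable (𝔇 : AutDomain PGL(2, L) (yVol 𝔫))

omit h𝔫 in
theorem clm_congr [Fact (𝔫 ≠ ⊥)] {k k' : YSpace 𝔫 → YSpace 𝔫 → ℂ} (hk : IsYKernel k)
    (hk' : IsYKernel k') (h : k = k') : hk.clm 𝔇 = hk'.clm 𝔇 := by
  subst h; rfl

theorem clm_yPow {k : YSpace 𝔫 → YSpace 𝔫 → ℂ} (hk : IsYKernel k) (m : ℕ) :
    (hk.yPow m).clm 𝔇 = hk.clm 𝔇 ^ (m + 1) := by
  induction m with
  | zero => rw [pow_one]; rfl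
  | succ m ih =>
    rw [pow_succ', ← ih, hk.clm_mul 𝔇 (hk.yPow m)]
    rfl

/-- **Smoothing.** -/
theorem exists_smooth (hfin : yVol 𝔫 𝔇.carrier < ⊤) (hT : IsCosetOp T) {m : ℕ}
    (hb : ∃ C : ℝ, ∀ y z, ‖kerSum (yPow (unitKer T) m) y z‖ ≤ C) {w : 𝔇.Space} {c : ℂ}
    (hc : c ≠ 0) (hw : (isYKernel_unitKer hT).clm 𝔇 w = c • w) :
    ∃ Φ, IsSmoothEigen T Φ c ∧ 𝔇.lift w =ᵐ[yVol 𝔫] Φ := by
  have hk := isYKernel_unitKer hT
  have : IsFiniteMeasure ((yVol 𝔫).restrict 𝔇.carrier) := ⟨by rwa [Measure.restrict_apply_univ]⟩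
  set K := hk.yPow m
  have hKw : K.clm 𝔇 w = c ^ (m + 1) • w := by
    have hp : ∀ j : ℕ, (hk.clm 𝔇 ^ j) w = c ^ j • w := fun j => by
      induction j with
      | zero => simp
      | succ j ih => rw [pow_succ', StrongLimit.mulv, ih, map_smul, hw, smul_smul, pow_succ]
    rw [clm_yPow 𝔇 hk m]
    exact hp _
  obtain ⟨B, hB⟩ := hb
  have hker : TraceKernel.HasKernel (K.clm 𝔇) (kerSum (yPow (unitKer T) m)) := K.hasKernel 𝔇 ⟨B, hB⟩
  set Φ₀ : YSpace 𝔫 → ℂ := fun y => (c ^ (m + 1))⁻¹ *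
    ∫ z in 𝔇.carrier, kerSum (yPow (unitKer T) m) y z * (w : YSpace 𝔫 → ℂ) z ∂(yVol 𝔫)
  have hΦ₀i : ∀ (γ : PGL(2, L)) y, Φ₀ (γ • y) = Φ₀ y := fun γ y => by
    simp only [Φ₀, kerSum_smul_left K]
  have hwm : Measurable ((Lp.aestronglyMeasurable w).mk w) :=
    (Lp.aestronglyMeasurable w).stronglyMeasurable_mk.measurable
  have hΦ₀m : Measurable Φ₀ := by
    refine Measurable.const_mul ?_ _
    have : (fun y => ∫ z in 𝔇.carrier, kerSum (yPow (unitKer T) m) y z * (w : YSpace 𝔫 → ℂ) z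
        ∂(yVol 𝔫)) = fun y => ∫ z in 𝔇.carrier, kerSum (yPow (unitKer T) m) y z *
          (Lp.aestronglyMeasurable w).mk w z ∂(yVol 𝔫) := funext fun y => integral_congr_ae (by
      filter_upwards [(Lp.aestronglyMeasurable w).ae_eq_mk] with z hz
      rw [← hz])
    rw [this]
    exact (StronglyMeasurable.integral_prod_right'
      (f := fun p : YSpace 𝔫 × YSpace 𝔫 => kerSum (yPow (unitKer T) m) p.1 p.2 *
        (Lp.aestronglyMeasurable w).mk w p.2)
      (K.measurable_kerSum.mul (hwm.comp measurable_snd)).stronglyMeasurable).measurable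
  have hΦ₀b : ∀ y, ‖Φ₀ y‖ ≤ ‖(c ^ (m + 1))⁻¹‖ * (|B| *
      ∫ z in 𝔇.carrier, ‖(w : YSpace 𝔫 → ℂ) z‖ ∂(yVol 𝔫)) := fun y => by
    rw [norm_mul]
    refine mul_le_mul_of_nonneg_left ?_ (norm_nonneg _)
    rw [← integral_const_mul]
    refine (norm_integral_le_integral_norm _).trans (integral_mono_of_nonneg
      (Eventually.of_forall fun _ => norm_nonneg _)
      ((((Lp.memLp w).integrable one_le_two).norm).const_mul _) (Eventually.of_forall fun z => ?_))
    simp only [norm_mul]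
    exact mul_le_mul_of_nonneg_right ((hB y z).trans (le_abs_self B)) (norm_nonneg _)
  have hΦ₀w : 𝔇.lift w =ᵐ[yVol 𝔫] Φ₀ := by
    refine 𝔇.lift_ae_of_eq hΦ₀i ?_
    filter_upwards [hker.ae_eq w, Lp.coeFn_smul (c ^ (m + 1)) w] with y h1 h2
    rw [hKw, h2, Pi.smul_apply, smul_eq_mul] at h1
    simp only [Φ₀]
    rw [← h1, inv_mul_cancel_left₀ (pow_ne_zero _ hc)]
  obtain ⟨C₁, hC₁⟩ := yOp_bounded hk hΦ₀b
  set Φ : YSpace 𝔫 → ℂ := fun y => c⁻¹ * yOp (unitKer T) Φ₀ y
  have hΦm : Measurable Φ := (measurable_yOp hk hΦ₀m).const_mul _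
  have hΦb : ∀ y, ‖Φ y‖ ≤ ‖c⁻¹‖ * C₁ := fun y => by
    rw [norm_mul]; exact mul_le_mul_of_nonneg_left (hC₁ y) (norm_nonneg _)
  have hΦw : 𝔇.lift w =ᵐ[yVol 𝔫] Φ := by
    have h1 := hk.lift_clm_ae 𝔇 w
    have h2 : 𝔇.lift (c • w) =ᵐ[yVol 𝔫] c • 𝔇.lift w :=
      𝔇.lift_ae_of_eq (fun γ y => by simp [𝔇.lift_invariant])
        ((Lp.coeFn_smul c w).trans ((𝔇.lift_ae_restrict w).symm.fun_comp (c • ·)))
    have h3 : yOp (unitKer T) (𝔇.lift w) =ᵐ[yVol 𝔫] yOp (unitKer T) Φ₀ :=
      AutDomain.op_congr_ae (T := yTransport L 𝔫) (W := Function.uncurry (unitKer T)) hΦ₀w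
    rw [hw] at h1
    filter_upwards [h1, h2, h3] with y e1 e2 e3
    rw [e2, Pi.smul_apply, smul_eq_mul, e3] at e1
    simp only [Φ]
    rw [← e1, inv_mul_cancel_left₀ hc]
  refine ⟨Φ, ⟨hΦm, fun γ y => by simp only [Φ, yOp_invariant hk hΦ₀i], ⟨_, hΦb⟩,
    fun q => continuous_const.mul (continuous_yOp_unitKer hT hΦ₀m hΦ₀b q), fun y => ?_⟩, hΦw⟩
  have h4 : yOp (unitKer T) Φ = yOp (unitKer T) Φ₀ := by
    refine eq_of_ae_eq_continuous (fun q => continuous_yOp_unitKer hT hΦm hΦb q)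
      (fun q => continuous_yOp_unitKer hT hΦ₀m hΦ₀b q) ?_
    exact AutDomain.op_congr_ae (T := yTransport L 𝔫) (W := Function.uncurry (unitKer T))
      (hΦw.symm.trans hΦ₀w)
  rw [h4]
  simp only [Φ]
  rw [mul_inv_cancel_left₀ hc]

theorem IsSmoothEigen.apply_op {Φ : YSpace 𝔫 → ℂ} {c : ℂ} (h : IsSmoothEigen T Φ c) (hc : c ≠ 0)
    (hT : IsCosetOp T) (hT2 : T * T = T) (x : XInf L) :
    T (fun p => Φ (x, p)) = fun p => Φ (x, p) := by
  obtain ⟨C, hC⟩ := h.bounded
  funext q
  have e : ∀ q, Φ (x, q) = c⁻¹ * ∫ u, prodKer (fun _ => H3.ballKer 1) x u * T (fun p => Φ (u, p)) q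
      ∂(Measure.pi fun _ : InfinitePlace L => H3.vol) := fun q => by
    rw [← yOp_yKer (fun _ => H3.isInvKer_ballKer 1) hT h.measurable hC]
    exact (eq_inv_mul_iff_mul_eq₀ hc).mpr (h.eigen (x, q)).symm
  obtain ⟨D, -, hD⟩ := hT.exists_norm_le
  have hint : ∀ q, Integrable (fun u => prodKer (fun _ => H3.ballKer 1) x u * T (fun p => Φ (u, p)) q)
      (Measure.pi fun _ : InfinitePlace L => H3.vol) := fun q =>
    (integrable_prodKer (fun _ => H3.isInvKer_ballKer 1) x).mul_bdd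
      (measurable_applyT hT h.measurable q).aestronglyMeasurable
      (Eventually.of_forall fun u => hD _ C (fun p => hC (u, p)) q)
  have hsupp : ∀ g : Cosets 𝔫 → ℂ, T g q = ∑ b ∈ (hT.row q).toFinset, finKer T q b * g b :=
    fun g => by
      rw [hT.expand]
      refine finsum_eq_sum_of_support_subset _ fun b hb => ?_
      simp only [Finite.coe_toFinset, Function.mem_support]
      exact left_ne_zero_of_mul hb
  have hterm : ∀ b, finKer T q b * Φ (x, b) = c⁻¹ * ∫ u, prodKer (fun _ => H3.ballKer 1) x u *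
      (finKer T q b * T (fun p => Φ (u, p)) b) ∂(Measure.pi fun _ : InfinitePlace L => H3.vol) :=
    fun b => by
      rw [e b, mul_left_comm, ← integral_const_mul]
      congr 1
      exact integral_congr_ae (Eventually.of_forall fun u => by ring)
  rw [hsupp, Finset.sum_congr rfl fun b _ => hterm b, ← Finset.mul_sum, e q,
    ← integral_finsetSum _ fun b _ => ((hint b).const_mul (finKer T q b)).congr
      (Eventually.of_forall fun u => by ring)]
  congr 1
  refine integral_congr_ae (Eventually.of_forall fun u => ?_)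
  dsimp only
  rw [← Finset.mul_sum, ← hsupp]
  congr 1
  exact congrFun (LinearMap.congr_fun hT2 fun p => Φ (u, p)) q

/-- The identity between the mean over a ball at one place and the operator of `placeKer`. -/
theorem IsSmoothEigen.yOp_placeKer {Φ : YSpace 𝔫 → ℂ} {c : ℂ} (h : IsSmoothEigen T Φ c)
    (hT : IsCosetOp T) (w : InfinitePlace L) (ε : ℝ) (x : XInf L) (q : Cosets 𝔫) :
    letI := Classical.decEq (InfinitePlace L)
    yOp (placeKer T w ε) Φ (x, q) =
      c * ∫ U, H3.ballKer ε (x w) U * Φ (Function.update x w U, q) ∂H3.vol := by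
  classical
  obtain ⟨C, hC⟩ := h.bounded
  obtain ⟨D, -, hD⟩ := hT.exists_norm_le
  set π₀ := Measure.pi fun _ : InfinitePlace L => H3.vol
  set G : XInf L → ℂ := fun u => T (fun p => Φ (u, p)) q
  set P := prodKer (L := L) (fun _ => H3.ballKer 1)
  have hGm : Measurable G := measurable_applyT hT h.measurable q
  have hGb : ∀ u, ‖G u‖ ≤ D * C := fun u => hD _ C (fun p => hC (u, p)) q
  have he : ∀ U, c * Φ (Function.update x w U, q) =
      ∫ u, P (Function.update x w U) u * G u ∂π₀ := fun U => by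
    rw [← h.eigen, unitKer, yOp_yKer (fun _ => H3.isInvKer_ballKer 1) hT h.measurable hC]
  have hupd : ∀ u, prodKer (Function.update (fun _ => H3.ballKer 1) w
      (H3.kConv (H3.ballKer ε) (H3.ballKer 1))) x u =
      ∫ U, H3.ballKer ε (x w) U * P (Function.update x w U) u ∂H3.vol := fun u => by
    simp only [P, prodKer]
    rw [← Finset.mul_prod_erase _ _ (Finset.mem_univ w), Function.update_self, H3.kConv,
      ← integral_mul_const]
    refine integral_congr_ae (Eventually.of_forall fun U => ?_)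
    dsimp only
    rw [← Finset.mul_prod_erase Finset.univ (fun v => H3.ballKer 1 (Function.update x w U v) (u v))
      (Finset.mem_univ w)]
    simp only [Function.update_self, mul_assoc]
    refine congrArg (fun z => H3.ballKer ε (x w) U * (H3.ballKer 1 U (u w) * z))
      (Finset.prod_congr rfl fun v hv => ?_)
    have hv' : v ≠ w := (Finset.mem_erase.mp hv).1
    rw [Function.update_of_ne hv', Function.update_of_ne hv']
  rw [placeKer, yOp_yKer (fun u => isInvKer_update w ε u) hT h.measurable hC,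
    integral_congr_ae (g := fun u => ∫ U, H3.ballKer ε (x w) U * P (Function.update x w U) u * G u
      ∂H3.vol) (Eventually.of_forall fun u => by simp only [hupd, G, ← integral_mul_const]),
    ← integral_const_mul]
  rw [integral_integral_swap ?_]
  · refine integral_congr_ae (Eventually.of_forall fun U => ?_)
    simp only [mul_assoc, integral_const_mul]
    rw [← he]
    ring
  · refine Integrable.swap (f := fun p : H3 × XInf L =>
      H3.ballKer ε (x w) p.1 * P (Function.update x w p.1) p.2 * G p.2) ?_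
    have hm : Measurable fun p : H3 × XInf L =>
        H3.ballKer ε (x w) p.1 * P (Function.update x w p.1) p.2 * G p.2 :=
      ((((H3.isInvKer_ballKer ε).measurable_row (x w)).comp measurable_fst).mul
        (Measurable.comp (g := Function.uncurry P)
          (f := fun p : H3 × XInf L => (Function.update x w p.1, p.2))
          (measurable_prodKer fun _ => H3.isInvKer_ballKer 1)
          (((measurable_update x).comp measurable_fst).prodMk measurable_snd))).mul
        (hGm.comp measurable_snd)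
    refine ⟨hm.aestronglyMeasurable, ?_⟩
    rw [hasFiniteIntegral_iff_enorm, lintegral_prod _ hm.enorm.aemeasurable]
    obtain ⟨V, -, hV⟩ := exists_lintegral_prodKer_le (L := L) fun _ => H3.isInvKer_ballKer 1
    obtain ⟨W, hW⟩ := (H3.isInvKer_ballKer ε).exists_lintegral_le
    refine lt_of_le_of_lt (lintegral_mono (g := fun U => ‖H3.ballKer ε (x w) U‖ₑ *
      (ENNReal.ofReal V * ENNReal.ofReal (D * C))) fun U => ?_) ?_
    · have hm' : Measurable fun u => ‖P (Function.update x w U) u‖ₑ :=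
        (Measurable.comp (g := Function.uncurry P) (f := fun u => (Function.update x w U, u))
          (measurable_prodKer fun _ => H3.isInvKer_ballKer 1) measurable_prodMk_left).enorm
      simp only [enorm_mul, mul_assoc]
      rw [lintegral_const_mul _ (show Measurable fun u =>
        ‖P (Function.update x w U) u‖ₑ * ‖G u‖ₑ from hm'.mul hGm.enorm)]
      refine mul_le_mul_right ?_ _
      refine le_trans (lintegral_mono fun u => mul_le_mul_right
        ((ofReal_norm (G u)).symm.le.trans (ENNReal.ofReal_le_ofReal (hGb u))) _) ?_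
      rw [lintegral_mul_const _ hm']
      exact mul_le_mul_left (hV _) _
    · rw [lintegral_mul_const _ ((H3.isInvKer_ballKer ε).measurable_row _).enorm]
      exact ENNReal.mul_lt_top ((hW _).trans_lt ENNReal.ofReal_lt_top)
        (ENNReal.mul_lt_top ENNReal.ofReal_lt_top ENNReal.ofReal_lt_top)

end FermatAgent.LT
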