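import Mathlib
import Fermat.Agent.LT.Descent.Spectral.YKer
import Fermat.Agent.LT.Descent.Spectral.Smooth
import Fermat.Agent.LT.Descent.Spectral.Joint

set_option autoImplicit false

/-!
# Powers of the unit kernel, Hermitian operators and traces of kernel operators
-/

noncomputable section

open MeasureTheory Set Filter NumberField IsDedekindDomain
open scoped ComplexConjugate ENNReal MatrixGroups InnerProductSpace

namespace FermatAgent.LT

theorem H3.kConv_four {a b c d : H3 → H3 → ℂ} (ha : H3.IsInvKer a) (hb : H3.IsInvKer b)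
    (hc : H3.IsInvKer c) (hd : H3.IsInvKer d) :
    H3.kConv (H3.kConv a b) (H3.kConv c d) = H3.kConv (H3.kConv a c) (H3.kConv b d) := by
  rw [H3.kConv_assoc ha hb (hc.kConv hd), ← H3.kConv_assoc hb hc hd, H3.kConv_comm hb hc,
    H3.kConv_assoc hc hb hd, ← H3.kConv_assoc ha hc (hb.kConv hd)]

theorem Joint.norm_inner_le_sq {E : Type*} [NormedAddCommGroup E] [InnerProductSpace ℂ E]
    (Z : E →L[ℂ] E) (a c : E) : ‖⟪Z a, c⟫_ℂ‖ ≤ ‖Z‖ * (‖a‖ ^ 2 + ‖c‖ ^ 2) := by
  refine (norm_inner_le_norm _ _).trans ?_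
  calc ‖Z a‖ * ‖c‖ ≤ ‖Z‖ * ‖a‖ * ‖c‖ :=
        mul_le_mul_of_nonneg_right (Z.le_opNorm a) (norm_nonneg _)
    _ ≤ _ := by
        rw [mul_assoc]
        refine mul_le_mul_of_nonneg_left ?_ (norm_nonneg _)
        nlinarith [sq_nonneg (‖a‖ - ‖c‖), norm_nonneg a, norm_nonneg c]

theorem Joint.summable_pairing {E ι : Type*} [NormedAddCommGroup E] [InnerProductSpace ℂ E]
    {a c : ι → E} (ha : Summable fun i => ‖a i‖ ^ 2) (hc : Summable fun i => ‖c i‖ ^ 2)
    (Z : E →L[ℂ] E) : Summable fun i => ⟪Z (a i), c i⟫_ℂ :=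
  ((ha.add hc).mul_left _).of_norm_bounded fun _ => Joint.norm_inner_le_sq Z _ _

theorem Joint.pairing_add {E ι : Type*} [NormedAddCommGroup E] [InnerProductSpace ℂ E]
    {a c : ι → E} (ha : Summable fun i => ‖a i‖ ^ 2) (hc : Summable fun i => ‖c i‖ ^ 2)
    (Z Z' : E →L[ℂ] E) : Joint.pairing a c (Z + Z') = Joint.pairing a c Z + Joint.pairing a c Z' := by
  simp only [Joint.pairing, add_apply, inner_add_left]
  exact (Joint.summable_pairing ha hc Z).tsum_add (Joint.summable_pairing ha hc Z')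

theorem Joint.pairing_smul {E ι : Type*} [NormedAddCommGroup E] [InnerProductSpace ℂ E]
    (a c : ι → E) (r : ℂ) (Z : E →L[ℂ] E) :
    Joint.pairing a c (r • Z) = conj r * Joint.pairing a c Z := by
  simp only [Joint.pairing, smul_apply, inner_smul_left, tsum_mul_left]

variable {L : Type*} [Field L] [NumberField L] {𝔫 : Ideal (𝓞 L)}
  {T T' : Module.End ℂ (Cosets 𝔫 → ℂ)}

theorem finKer_add (a b : Cosets 𝔫) : finKer (T + T') a b = finKer T a b + finKer T' a b := rfl

theorem finKer_smul' (c : ℂ) (a b : Cosets 𝔫) : finKer (c • T) a b = c * finKer T a b := rfl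

theorem IsHermOp.add (h : IsHermOp T) (h' : IsHermOp T') : IsHermOp (T + T') := fun a b => by
  simp only [finKer_add, map_add, h a b, h' a b]

theorem IsHermOp.smul (h : IsHermOp T) {c : ℂ} (hc : conj c = c) : IsHermOp (c • T) := fun a b => by
  simp only [finKer_smul', map_mul, hc, h a b]

theorem IsCosetOp.sub (h : IsCosetOp T) (h' : IsCosetOp T') : IsCosetOp (T - T') := by
  rw [show T - T' = T + (-1 : ℂ) • T' from LinearMap.ext fun f => by simp [sub_eq_add_neg]]
  exact h.add (h'.smul (-1))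

theorem IsHermOp.sub (h : IsHermOp T) (h' : IsHermOp T') : IsHermOp (T - T') := by
  rw [show T - T' = T + (-1 : ℂ) • T' from LinearMap.ext fun f => by simp [sub_eq_add_neg]]
  exact h.add (h'.smul (by simp))

variable [h𝔫 : Fact (𝔫 ≠ ⊥)]

theorem yPow_unitKer (hT : IsCosetOp T) (hT2 : T * T = T) :
    ∀ j, yPow (unitKer T) j = yKer (fun _ : InfinitePlace L => H3.ballWord (List.replicate j 1)) T
  | 0 => rfl
  | j + 1 => by
    change yConv (unitKer T) (yPow (unitKer T) j) = _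
    rw [yPow_unitKer hT hT2 j, unitKer, yConv_yKer hT hT, hT2]
    rfl

omit h𝔫 in
theorem conj_kerSum {k : YSpace 𝔫 → YSpace 𝔫 → ℂ} (hk : IsYKernel k)
    (hh : ∀ y y', conj (k y y') = k y' y) (y z : YSpace 𝔫) :
    conj (kerSum k y z) = kerSum k z y := by
  simp only [kerSum, Complex.conj_tsum, hh]
  rw [← (Equiv.inv PGL(2, L)).tsum_eq fun γ => k (γ • z) y]
  refine tsum_congr fun γ => ?_
  rw [Equiv.inv_apply, ← hk.invariant γ, smul_inv_smul]

omit h𝔫 in
/-- A bound for the composite from a bound for the second factor. -/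
theorem IsYKernel.kerSum_yConv_bounded {k k' : YSpace 𝔫 → YSpace 𝔫 → ℂ} (hk : IsYKernel k)
    (hk' : IsYKernel k') (hb : ∃ C : ℝ, ∀ y z, ‖kerSum k' y z‖ ≤ C) :
    ∃ C : ℝ, ∀ y z, ‖kerSum (LT.yConv k k') y z‖ ≤ C := by
  obtain ⟨B, hB⟩ := hb
  obtain ⟨V, hV⟩ := hk.row
  refine ⟨max V 0 * max B 0, fun y z => ?_⟩
  rw [kerSum_yConv hk hk']
  refine (norm_integral_le_lintegral_norm _).trans ((ENNReal.toReal_mono ENNReal.ofReal_ne_top
    ?_).trans (ENNReal.toReal_ofReal (by positivity : (0 : ℝ) ≤ max V 0 * max B 0)).le)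
  calc ∫⁻ u, ENNReal.ofReal ‖k y u * kerSum k' u z‖ ∂(yVol 𝔫)
      ≤ ∫⁻ u, ‖k y u‖ₑ * ENNReal.ofReal (max B 0) ∂(yVol 𝔫) := lintegral_mono fun u => by
        rw [norm_mul, ENNReal.ofReal_mul (norm_nonneg _), ofReal_norm]
        exact mul_le_mul_right (ENNReal.ofReal_le_ofReal ((hB _ _).trans (le_max_left _ _))) _
    _ = (∫⁻ u, ‖k y u‖ₑ ∂(yVol 𝔫)) * ENNReal.ofReal (max B 0) :=
        lintegral_mul_const _ (hk.measurable_row y).enorm
    _ ≤ _ := by
        rw [ENNReal.ofReal_mul (le_max_right _ _)]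
        exact mul_le_mul_left ((hV y).trans (ENNReal.ofReal_le_ofReal (le_max_left _ _))) _

variable (𝔇 : AutDomain PGL(2, L) (yVol 𝔫))

/-- The trace of a product with a Hermitian kernel operator as the integral of one kernel. -/
theorem hasSum_inner_kerSum [IsFiniteMeasure ((yVol 𝔫).restrict 𝔇.carrier)] {ι : Type*} [Countable ι]
    (e : HilbertBasis ι ℂ 𝔇.Space) {k k' : YSpace 𝔫 → YSpace 𝔫 → ℂ} (hk : IsYKernel k)
    (hk' : IsYKernel k') (hh : ∀ y y', conj (k y y') = k y' y)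
    (hb : ∃ C : ℝ, ∀ y z, ‖kerSum k y z‖ ≤ C) (hb' : ∃ C : ℝ, ∀ y z, ‖kerSum k' y z‖ ≤ C)
    {g : YSpace 𝔫 → YSpace 𝔫} (hg : Measurable g) {C : 𝔇.Space →L[ℂ] 𝔇.Space}
    (hC : TraceKernel.HasKernel C fun y z => kerSum k' y (g z)) :
    HasSum (fun i => ⟪hk.clm 𝔇 (e i), C (e i)⟫_ℂ)
      (∫ z in 𝔇.carrier, kerSum (yConv k k') z (g z) ∂(yVol 𝔫)) := by
  obtain ⟨B, hB⟩ := hb
  obtain ⟨B', hB'⟩ := hb'
  have hkey := (hk.hasKernel 𝔇 ⟨B, hB⟩).hasSum_inner hC e
  simp only [conj_kerSum hk hh] at hkey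
  convert hkey using 1
  rw [integral_integral_swap ?_]
  · refine integral_congr_ae (Eventually.of_forall fun z => ?_)
    dsimp only
    rw [kerSum_yConv hk hk', yOp, hk.integral_eq_kerSum 𝔇.isFund (Φ := fun u => kerSum k' u (g z))
      (hk'.measurable_kerSum.comp (measurable_id.prodMk measurable_const))
      (fun γ u => kerSum_smul_left hk' γ u _)
      ((hk.integrable_row z).mul_bdd
        (hk'.measurable_kerSum.comp (measurable_id.prodMk measurable_const)).aestronglyMeasurable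
        (Eventually.of_forall fun u => hB' u _))]
  · refine Integrable.of_bound ?_ (B * B') (Eventually.of_forall fun p => ?_)
    · exact ((hk.measurable_kerSum.comp (measurable_snd.prodMk measurable_fst)).mul
        (hk'.measurable_kerSum.comp (measurable_fst.prodMk (hg.comp measurable_snd)))).aestronglyMeasurable
    · simp only [Function.uncurry, norm_mul]
      exact mul_le_mul (hB _ _) (hB' _ _) (norm_nonneg _) ((norm_nonneg _).trans (hB p.2 p.1))

/-- Hermitian product kernels give symmetric operators. -/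
theorem inner_clm_yKer {h : InfinitePlace L → H3 → H3 → ℂ} (hh : ∀ w, H3.IsInvKer (h w))
    (hr : ∀ w P Q, conj (h w P Q) = h w P Q) (hT : IsCosetOp T) (hTh : IsHermOp T) (φ ψ : 𝔇.Space) :
    ⟪(isYKernel_yKer hh hT).clm 𝔇 φ, ψ⟫_ℂ = ⟪φ, (isYKernel_yKer hh hT).clm 𝔇 ψ⟫_ℂ :=
  (isYKernel_yKer hh hT).inner_clm 𝔇 (conj_yKer hh hTh hr) φ ψ

end FermatAgent.LT
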