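import Mathlib
import Fermat.Agent.LT.Descent.Facts
import Fermat.Agent.LT.Descent.Spectral.Pair
import Fermat.Agent.LT.Descent.Spectral.Mean

set_option autoImplicit false

/-!
# Matched words of operators on the sextic field and on the quadratic field
-/

noncomputable section

open MeasureTheory NumberField IsDedekindDomain
open scoped ComplexConjugate MatrixGroups

namespace FermatAgent.LT

namespace Setup

variable (S : Setup)

instance fact_levelIdeal (L : IntermediateField ℚ (AlgebraicClosure ℚ)) [NumberField L] :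
    Fact (S.levelIdeal L ≠ ⊥) := ⟨S.levelIdeal_ne_bot L⟩

variable (Ψ : S.PsiData)

theorem not_level_le {L : IntermediateField ℚ (AlgebraicClosure ℚ)} [NumberField L]
    {v : HeightOneSpectrum (𝓞 L)} (hv : ((3 * S.m : ℕ) : 𝓞 L) ∉ v.asIdeal) :
    ¬ S.levelIdeal L ≤ v.asIdeal := fun h => hv ((S.levelIdeal_le_iff L v).mp h)

theorem underK_good {w : HeightOneSpectrum (𝓞 S.F)} (hw : ((3 * S.m : ℕ) : 𝓞 S.F) ∉ w.asIdeal) :
    ((3 * S.m : ℕ) : 𝓞 S.K) ∉ (S.underK w).asIdeal := fun h => hw (by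
  have h' : S.inclInt ((3 * S.m : ℕ) : 𝓞 S.K) ∈ w.asIdeal := h
  rwa [S.inclKF_natCast] at h')

theorem isCosetOp_levelOpF : IsCosetOp (S.levelOpF Ψ) :=
  isCosetOp_levelOp (S.levelIdeal_ne_bot _) (S.badPlaces_level _) S.card_residue_three_F

theorem isCosetOp_levelOpK : IsCosetOp (S.levelOpK Ψ) :=
  isCosetOp_levelOp (S.levelIdeal_ne_bot _) (S.badPlaces_level _) S.card_residue_three_K

theorem isHermOp_levelOpF : IsHermOp (S.levelOpF Ψ) :=
  isHermOp_levelOp (S.levelIdeal_ne_bot _) (S.badPlaces_level _) S.card_residue_three_F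

theorem isHermOp_levelOpK : IsHermOp (S.levelOpK Ψ) :=
  isHermOp_levelOp (S.levelIdeal_ne_bot _) (S.badPlaces_level _) S.card_residue_three_K

theorem levelOpF_idem : S.levelOpF Ψ * S.levelOpF Ψ = S.levelOpF Ψ :=
  levelOp_idem (S.levelIdeal_ne_bot _) (S.badPlaces_level _) S.card_residue_three_F

theorem levelOpK_idem : S.levelOpK Ψ * S.levelOpK Ψ = S.levelOpK Ψ :=
  levelOp_idem (S.levelIdeal_ne_bot _) (S.badPlaces_level _) S.card_residue_three_K

theorem commute_levelOpF {w : HeightOneSpectrum (𝓞 S.F)}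
    (hw : ((3 * S.m : ℕ) : 𝓞 S.F) ∉ w.asIdeal) :
    Commute (S.levelOpF Ψ) (heckeOp (S.levelIdeal S.F) w) :=
  commute_levelOp_heckeOp (S.levelIdeal_ne_bot _) (S.badPlaces_level _) S.card_residue_three_F
    (S.not_level_le hw)

theorem commute_levelOpK {v : HeightOneSpectrum (𝓞 S.K)}
    (hv : ((3 * S.m : ℕ) : 𝓞 S.K) ∉ v.asIdeal) :
    Commute (S.levelOpK Ψ) (heckeOp (S.levelIdeal S.K) v) :=
  commute_levelOp_heckeOp (S.levelIdeal_ne_bot _) (S.badPlaces_level _) S.card_residue_three_K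
    (S.not_level_le hv)

theorem commute_levelOpK_bcOp {w : HeightOneSpectrum (𝓞 S.F)}
    (hw : ((3 * S.m : ℕ) : 𝓞 S.F) ∉ w.asIdeal) : Commute (S.levelOpK Ψ) (S.bcOp w) := by
  have h := S.commute_levelOpK Ψ (S.underK_good hw)
  unfold Setup.bcOp
  split_ifs
  · exact h
  · exact (h.pow_right 3).sub_right (h.smul_right _)

theorem isCosetOp_bcOp {w : HeightOneSpectrum (𝓞 S.F)}
    (hw : ((3 * S.m : ℕ) : 𝓞 S.F) ∉ w.asIdeal) : IsCosetOp (S.bcOp w) := by
  have h := isCosetOp_heckeOp (S.levelIdeal_ne_bot S.K) (S.not_level_le (S.underK_good hw))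
  unfold Setup.bcOp
  split_ifs
  · exact h
  · rw [pow_succ, pow_two]
    exact ((h.mul h).mul h).sub (h.smul _)

theorem isHermOp_bcOp {w : HeightOneSpectrum (𝓞 S.F)}
    (hw : ((3 * S.m : ℕ) : 𝓞 S.F) ∉ w.asIdeal) : IsHermOp (S.bcOp w) := by
  have hn := S.levelIdeal_ne_bot S.K
  have h := isCosetOp_heckeOp hn (S.not_level_le (S.underK_good hw))
  have hH := isHermOp_heckeOp hn (S.not_level_le (S.underK_good hw))
  unfold Setup.bcOp
  split_ifs
  · exact hH
  · rw [pow_succ, pow_two]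
    exact (IsHermOp.mul_of_commute (h.mul h) h (IsHermOp.mul_of_commute h h hH hH (Commute.refl _))
      hH ((Commute.refl _).mul_left (Commute.refl _))).sub (hH.smul (by simp [Complex.conj_ofNat]))

end Setup

/-- A matched word: lists of radii at the places of `F` and a list of good places. -/
structure MWord (S : Setup) where
  /-- the radii -/
  rad : InfinitePlace S.F → List ℝ
  /-- the places -/
  pl : List (HeightOneSpectrum (𝓞 S.F))
  good : ∀ w ∈ pl, ((3 * S.m : ℕ) : 𝓞 S.F) ∉ w.asIdeal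

namespace MWord

variable {S : Setup} (Ψ : S.PsiData) (σ : S.F ≃+* S.F)
  (w₁ : InfinitePlace S.K → InfinitePlace S.F) (x y : MWord S)

/-- The product of two words. -/
def mul : MWord S where
  rad w := x.rad w ++ 1 :: y.rad w
  pl := x.pl ++ y.pl
  good w hw := (List.mem_append.mp hw).elim (x.good w) (y.good w)

/-- The unit balls, `j + 1` times. -/
def unit (j : ℕ) : MWord S where
  rad _ := List.replicate j 1
  pl := []
  good _ h := absurd h List.not_mem_nil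

open Classical in
/-- An additional ball at one place. -/
def ball (w : InfinitePlace S.F) (ε : ℝ) : MWord S where
  rad := Function.update (fun _ => []) w [ε]
  pl := []
  good _ h := absurd h List.not_mem_nil

/-- A Hecke operator. -/
def hecke (w : HeightOneSpectrum (𝓞 S.F)) (hw : ((3 * S.m : ℕ) : 𝓞 S.F) ∉ w.asIdeal) : MWord S where
  rad _ := []
  pl := [w]
  good _ h := List.mem_singleton.mp h ▸ hw

/-- The operator of the places on `F`. -/
def opF : Module.End ℂ (Cosets (S.levelIdeal S.F) → ℂ) :=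
  S.levelOpF Ψ * heckeWord (S.levelIdeal S.F) x.pl

/-- The operator of the places on `K`. -/
def opK : Module.End ℂ (Cosets (S.levelIdeal S.K) → ℂ) := S.levelOpK Ψ * (x.pl.map S.bcOp).prod

/-- The radii on `K`. -/
def radK (u : InfinitePlace S.K) : List ℝ :=
  (x.rad (w₁ u) ++ 1 :: x.rad ((w₁ u).comap σ.toRingHom)) ++
    1 :: x.rad (((w₁ u).comap σ.toRingHom).comap σ.toRingHom)

/-- The kernel on `F`. -/
def kerF : YSpace (S.levelIdeal S.F) → YSpace (S.levelIdeal S.F) → ℂ :=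
  yKer (fun w => H3.ballWord (x.rad w)) (x.opF Ψ)

/-- The kernel on `K`. -/
def kerK : YSpace (S.levelIdeal S.K) → YSpace (S.levelIdeal S.K) → ℂ :=
  yKer (fun u => H3.ballWord (x.radK σ w₁ u)) (x.opK Ψ)

theorem kerK_eq_slot :
    yKer (S.slotKer σ w₁ fun w => H3.ballWord (x.rad w)) (x.opK Ψ) = x.kerK Ψ σ w₁ := by
  unfold kerK
  congr 1
  funext u
  rw [Setup.slotKer, H3.kConv_ballWord, H3.kConv_ballWord]
  rfl

theorem opF_cosetOp : IsCosetOp (x.opF Ψ) := by
  refine (S.isCosetOp_levelOpF Ψ).mul ?_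
  unfold heckeWord
  obtain ⟨r, l, hl⟩ := x
  induction l with
  | nil => simpa using isCosetOp_one
  | cons a l ih =>
    simp only [List.map_cons, List.prod_cons]
    exact (isCosetOp_heckeOp (S.levelIdeal_ne_bot _) (S.not_level_le (hl a List.mem_cons_self))).mul
      (ih fun w hw => hl w (List.mem_cons_of_mem _ hw))

theorem opK_cosetOp : IsCosetOp (x.opK Ψ) := by
  refine (S.isCosetOp_levelOpK Ψ).mul ?_
  obtain ⟨r, l, hl⟩ := x
  induction l with
  | nil => simpa using isCosetOp_one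
  | cons a l ih =>
    simp only [List.map_cons, List.prod_cons]
    exact (S.isCosetOp_bcOp (hl a List.mem_cons_self)).mul
      (ih fun w hw => hl w (List.mem_cons_of_mem _ hw))

theorem commute_levelF : Commute (S.levelOpF Ψ) (heckeWord (S.levelIdeal S.F) x.pl) :=
  Commute.list_prod_right _ _ fun T hT => by
    obtain ⟨w, hw, rfl⟩ := List.mem_map.mp hT
    exact S.commute_levelOpF Ψ (x.good w hw)

theorem commute_levelK : Commute (S.levelOpK Ψ) (x.pl.map S.bcOp).prod :=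
  Commute.list_prod_right _ _ fun T hT => by
    obtain ⟨w, hw, rfl⟩ := List.mem_map.mp hT
    exact S.commute_levelOpK_bcOp Ψ (x.good w hw)

theorem opF_mul : x.opF Ψ * y.opF Ψ = (x.mul y).opF Ψ := by
  simp only [opF, mul, heckeWord, List.map_append, List.prod_append]
  have h : Commute (S.levelOpF Ψ) (List.map (heckeOp (S.levelIdeal S.F)) x.pl).prod :=
    x.commute_levelF Ψ
  rw [mul_assoc, ← mul_assoc _ (S.levelOpF Ψ), ← h.eq, mul_assoc, ← mul_assoc (S.levelOpF Ψ) (S.levelOpF Ψ),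
    S.levelOpF_idem]

theorem opK_mul : x.opK Ψ * y.opK Ψ = (x.mul y).opK Ψ := by
  simp only [opK, mul, List.map_append, List.prod_append]
  have h := x.commute_levelK Ψ
  rw [mul_assoc, ← mul_assoc _ (S.levelOpK Ψ), ← h.eq, mul_assoc, ← mul_assoc (S.levelOpK Ψ) (S.levelOpK Ψ),
    S.levelOpK_idem]

theorem isYKernel_kerF : IsYKernel (x.kerF Ψ) :=
  isYKernel_yKer (fun _ => H3.isInvKer_ballWord _) (x.opF_cosetOp Ψ)

theorem isYKernel_kerK : IsYKernel (x.kerK Ψ σ w₁) :=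
  isYKernel_yKer (fun _ => H3.isInvKer_ballWord _) (x.opK_cosetOp Ψ)

theorem kerF_mul : yConv (x.kerF Ψ) (y.kerF Ψ) = (x.mul y).kerF Ψ := by
  rw [kerF, kerF, yConv_yKer (x.opF_cosetOp Ψ) (y.opF_cosetOp Ψ), opF_mul]
  simp only [H3.kConv_ballWord]
  rfl

theorem kerK_mul : yConv (x.kerK Ψ σ w₁) (y.kerK Ψ σ w₁) = (x.mul y).kerK Ψ σ w₁ := by
  rw [kerK, kerK, yConv_yKer (x.opK_cosetOp Ψ) (y.opK_cosetOp Ψ), opK_mul]
  unfold kerK
  congr 1
  funext u
  rw [H3.kConv_ballWord]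
  refine H3.ballWord_perm (List.perm_iff_count.mpr fun r => ?_)
  simp only [radK, mul, List.count_append, List.count_cons]
  omega

theorem kerF_unit (j : ℕ) : (unit j).kerF Ψ = yPow (unitKer (S.levelOpF Ψ)) j := by
  rw [yPow_unitKer (S.isCosetOp_levelOpF Ψ) (S.levelOpF_idem Ψ), kerF, opF, unit, heckeWord]
  simp

theorem kerK_unit (j : ℕ) : (unit j).kerK Ψ σ w₁ = yPow (unitKer (S.levelOpK Ψ)) (3 * j + 2) := by
  rw [yPow_unitKer (S.isCosetOp_levelOpK Ψ) (S.levelOpK_idem Ψ), kerK, opK]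
  simp only [unit, List.map_nil, List.prod_nil, mul_one]
  congr 1
  funext u
  congr 1
  simp only [radK, ← List.replicate_succ, ← List.replicate_add]
  congr 1
  omega

variable (𝔇F : AutDomain PGL(2, S.F) (yVol (S.levelIdeal S.F)))
  (𝔇K : AutDomain PGL(2, S.K) (yVol (S.levelIdeal S.K)))

/-- The operator on `F`. -/
def OF : 𝔇F.Space →L[ℂ] 𝔇F.Space := (x.isYKernel_kerF Ψ).clm 𝔇F

/-- The operator on `K`. -/
def OK : 𝔇K.Space →L[ℂ] 𝔇K.Space := (x.isYKernel_kerK Ψ σ w₁).clm 𝔇K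

theorem OF_mul : x.OF Ψ 𝔇F * y.OF Ψ 𝔇F = (x.mul y).OF Ψ 𝔇F := by
  rw [OF, OF, IsYKernel.clm_mul]
  exact clm_congr 𝔇F _ _ (x.kerF_mul Ψ y)

theorem OK_mul : x.OK Ψ σ w₁ 𝔇K * y.OK Ψ σ w₁ 𝔇K = (x.mul y).OK Ψ σ w₁ 𝔇K := by
  rw [OK, OK, IsYKernel.clm_mul]
  exact clm_congr 𝔇K _ _ (x.kerK_mul Ψ σ w₁ y)

theorem OF_unit (j : ℕ) :
    (unit j).OF Ψ 𝔇F = (isYKernel_unitKer (S.isCosetOp_levelOpF Ψ)).clm 𝔇F ^ (j + 1) := by
  rw [← clm_yPow, OF]
  exact clm_congr 𝔇F _ _ (kerF_unit Ψ j)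

theorem OK_unit (j : ℕ) : (unit j).OK Ψ σ w₁ 𝔇K =
    (isYKernel_unitKer (S.isCosetOp_levelOpK Ψ)).clm 𝔇K ^ (3 * j + 2 + 1) := by
  rw [← clm_yPow, OK]
  exact clm_congr 𝔇K _ _ (kerK_unit Ψ σ w₁ j)

theorem OF_symm (hT : IsHermOp (x.opF Ψ)) (φ ψ : 𝔇F.Space) :
    inner ℂ (x.OF Ψ 𝔇F φ) ψ = inner ℂ φ (x.OF Ψ 𝔇F ψ) :=
  inner_clm_yKer 𝔇F (fun _ => H3.isInvKer_ballWord _) (fun _ => H3.conj_ballWord _)
    (x.opF_cosetOp Ψ) hT φ ψ

theorem OK_symm (hT : IsHermOp (x.opK Ψ)) (φ ψ : 𝔇K.Space) :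
    inner ℂ (x.OK Ψ σ w₁ 𝔇K φ) ψ = inner ℂ φ (x.OK Ψ σ w₁ 𝔇K ψ) :=
  inner_clm_yKer 𝔇K (fun _ => H3.isInvKer_ballWord _) (fun _ => H3.conj_ballWord _)
    (x.opK_cosetOp Ψ) hT φ ψ

theorem hermF_nil (h : x.pl = []) : IsHermOp (x.opF Ψ) := by
  simpa [opF, h, heckeWord] using S.isHermOp_levelOpF Ψ

theorem hermK_nil (h : x.pl = []) : IsHermOp (x.opK Ψ) := by
  simpa [opK, h] using S.isHermOp_levelOpK Ψ

theorem hermF_single {w : HeightOneSpectrum (𝓞 S.F)} (h : x.pl = [w]) : IsHermOp (x.opF Ψ) := by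
  have hw := x.good w (by rw [h]; exact List.mem_cons_self)
  simp only [opF, h, heckeWord, List.map_singleton, List.prod_singleton]
  exact IsHermOp.mul_of_commute (S.isCosetOp_levelOpF Ψ)
    (isCosetOp_heckeOp (S.levelIdeal_ne_bot _) (S.not_level_le hw)) (S.isHermOp_levelOpF Ψ)
    (isHermOp_heckeOp (S.levelIdeal_ne_bot _) (S.not_level_le hw)) (S.commute_levelOpF Ψ hw)

theorem hermK_single {w : HeightOneSpectrum (𝓞 S.F)} (h : x.pl = [w]) : IsHermOp (x.opK Ψ) := by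
  have hw := x.good w (by rw [h]; exact List.mem_cons_self)
  simp only [opK, h, List.map_singleton, List.prod_singleton]
  exact IsHermOp.mul_of_commute (S.isCosetOp_levelOpK Ψ) (S.isCosetOp_bcOp hw)
    (S.isHermOp_levelOpK Ψ) (S.isHermOp_bcOp hw) (S.commute_levelOpK_bcOp Ψ hw)

theorem commute_heckeWord_F : Commute (heckeWord (S.levelIdeal S.F) x.pl)
    (heckeWord (S.levelIdeal S.F) y.pl) :=
  Commute.list_prod_right _ _ fun T hT => Commute.list_prod_left _ _ fun T' hT' => by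
    obtain ⟨w, hw, rfl⟩ := List.mem_map.mp hT
    obtain ⟨w', hw', rfl⟩ := List.mem_map.mp hT'
    exact commute_heckeOp (S.levelIdeal_ne_bot _) (S.not_level_le (x.good w' hw'))
      (S.not_level_le (y.good w hw))

theorem commute_OF : Commute (x.OF Ψ 𝔇F) (y.OF Ψ 𝔇F) :=
  commute_clm_yKer (fun _ => H3.isInvKer_ballWord _) (fun _ => H3.isInvKer_ballWord _)
    (x.opF_cosetOp Ψ) (y.opF_cosetOp Ψ)
    (((Commute.refl _).mul_right (y.commute_levelF Ψ)).mul_left
      ((x.commute_levelF Ψ).symm.mul_right (x.commute_heckeWord_F y))) 𝔇F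

theorem commute_bcOp {w w' : HeightOneSpectrum (𝓞 S.F)}
    (hw : ((3 * S.m : ℕ) : 𝓞 S.F) ∉ w.asIdeal) (hw' : ((3 * S.m : ℕ) : 𝓞 S.F) ∉ w'.asIdeal) :
    Commute (S.bcOp w) (S.bcOp w') := by
  have h : Commute (heckeOp (S.levelIdeal S.K) (S.underK w)) (heckeOp (S.levelIdeal S.K) (S.underK w')) :=
    commute_heckeOp (S.levelIdeal_ne_bot _) (S.not_level_le (S.underK_good hw))
      (S.not_level_le (S.underK_good hw'))
  unfold Setup.bcOp
  split_ifs
  · exact h
  · exact (h.pow_right 3).sub_right (h.smul_right _)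
  · exact (h.pow_left 3).sub_left (h.smul_left _)
  · exact (((h.pow_left 3).sub_left (h.smul_left _)).pow_right 3).sub_right
      (((h.pow_left 3).sub_left (h.smul_left _)).smul_right _)

theorem commute_OK : Commute (x.OK Ψ σ w₁ 𝔇K) (y.OK Ψ σ w₁ 𝔇K) := by
  have h : Commute (x.pl.map S.bcOp).prod (y.pl.map S.bcOp).prod :=
    Commute.list_prod_right _ _ fun T hT => Commute.list_prod_left _ _ fun T' hT' => by
      obtain ⟨w, hw, rfl⟩ := List.mem_map.mp hT
      obtain ⟨w', hw', rfl⟩ := List.mem_map.mp hT'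
      exact commute_bcOp (x.good w' hw') (y.good w hw)
  exact commute_clm_yKer (fun _ => H3.isInvKer_ballWord _) (fun _ => H3.isInvKer_ballWord _)
    (x.opK_cosetOp Ψ) (y.opK_cosetOp Ψ)
    (((Commute.refl _).mul_right (y.commute_levelK Ψ)).mul_left
      ((x.commute_levelK Ψ).symm.mul_right h)) 𝔇K

end MWord

end FermatAgent.LT
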