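import Mathlib
import Fermat.Agent.LT.Descent.Spectral.Smooth

set_option autoImplicit false

/-!
# Smooth eigenfunctions are cusp forms
-/

noncomputable section

open MeasureTheory Set Filter NumberField IsDedekindDomain
open scoped ComplexConjugate ENNReal MatrixGroups Topology

namespace FermatAgent.LT

open BoxFourier
open FermatAgent.LT.Dihedral (boxAt)

theorem H3.norm_ballKer_le (ε : ℝ) (P Q : H3) : ‖H3.ballKer ε P Q‖ ≤ 1 := by
  simp only [H3.ballKer, indicator]
  split_ifs <;> simp

theorem H3.continuous_sph0 : Continuous H3.sph0 := by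
  unfold H3.sph0
  exact continuous_const.mul
    (intervalIntegral.continuous_primitive (fun a b => Continuous.intervalIntegrable (by fun_prop) a b) 0)

theorem H3.sph0_pos {ε : ℝ} (hε : 0 < ε) : 0 < H3.sph0 ε := by
  refine mul_pos (by positivity) (intervalIntegral.intervalIntegral_pos_of_pos_on
    (Continuous.intervalIntegrable (by fun_prop) _ _) (fun r hr => ?_) hε)
  exact mul_pos hr.1 (Real.sinh_pos_iff.mpr hr.1)

/-- The mean value property extends from rational radii. -/
theorem H3.isSph0_of_rat {f : H3 → ℂ} (hf : Continuous f) {C : ℝ} (hC : ∀ P, ‖f P‖ ≤ C)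
    (h : ∀ (P : H3) (ε : ℚ), (0 : ℝ) < ε → ∫ Q in H3.ball P ε, f Q ∂H3.vol = (H3.sph0 ε : ℂ) * f P) :
    H3.IsSph0 f := by
  intro P ε hε
  choose q hq1 hq2 using fun n : ℕ =>
    exists_rat_btwn (show ε < ε + 1 / (n + 1) from lt_add_of_pos_right ε Nat.one_div_pos_of_nat)
  have hqt : Tendsto (fun n => (q n : ℝ)) atTop (𝓝 ε) := by
    refine tendsto_of_tendsto_of_tendsto_of_le_of_le tendsto_const_nhds ?_ (fun n => (hq1 n).le)
      fun n => (hq2 n).le
    simpa using tendsto_const_nhds.add (tendsto_one_div_add_atTop_nhds_zero_nat (𝕜 := ℝ))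
  have h1 : Tendsto (fun n => ∫ Q in H3.ball P (q n), f Q ∂H3.vol) atTop
      (𝓝 ((H3.sph0 ε : ℂ) * f P)) :=
    ((((Complex.continuous_ofReal.comp H3.continuous_sph0).tendsto ε).comp hqt).mul_const _).congr
      fun n => (h P (q n) (hε.trans (hq1 n))).symm
  refine tendsto_nhds_unique ?_ h1
  simp only [← integral_indicator (H3.measurableSet_ball_h3 _ _)]
  refine tendsto_integral_of_dominated_convergence
    ((H3.ball P (ε + 1)).indicator fun _ => C) (fun n => ((hf.measurable.indicator
      (H3.measurableSet_ball_h3 _ _))).aestronglyMeasurable)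
    ((integrable_indicator_iff (H3.measurableSet_ball_h3 _ _)).mpr
      (integrableOn_const (H3.vol_ball_lt_top _ _).ne)) (fun n => ?_) ?_
  · refine Eventually.of_forall fun Q => ?_
    by_cases hQ : Q ∈ H3.ball P (q n)
    · have hsub : Q ∈ H3.ball P (ε + 1) := le_trans hQ (Real.cosh_le_cosh.mpr (by
        have h1 := hq1 n
        have h2 := hq2 n
        have h3 : (1 : ℝ) / (n + 1) ≤ 1 := by
          rw [div_le_one (by positivity)]; exact le_add_of_nonneg_left n.cast_nonneg
        rw [abs_of_pos (hε.trans h1), abs_of_pos (by linarith)]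
        linarith))
      rw [indicator_of_mem hQ, indicator_of_mem hsub]
      exact hC Q
    · rw [indicator_of_notMem hQ, norm_zero]
      exact indicator_nonneg (fun _ _ => (norm_nonneg _).trans (hC P)) Q
  · refine Eventually.of_forall fun Q => ?_
    by_cases hQ : Q ∈ H3.ball P ε
    · refine tendsto_atTop_of_eventually_const (i₀ := 0) fun n _ => ?_
      rw [indicator_of_mem hQ, indicator_of_mem]
      refine le_trans hQ (Real.cosh_le_cosh.mpr ?_)
      rw [abs_of_pos hε, abs_of_pos (hε.trans (hq1 n))]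
      exact (hq1 n).le
    · rw [indicator_of_notMem hQ]
      refine tendsto_const_nhds.congr' ?_
      filter_upwards [((Real.continuous_cosh.tendsto ε).comp hqt).eventually_lt_const
        (not_le.mp hQ)] with n hn
      rw [indicator_of_notMem (show Q ∉ H3.ball P (q n) from not_le.mpr hn)]

variable {L : Type*} [Field L] [NumberField L] {𝔫 : Ideal (𝓞 L)} [h𝔫 : Fact (𝔫 ≠ ⊥)]
  {T : Module.End ℂ (Cosets 𝔫 → ℂ)} {Φ : YSpace 𝔫 → ℂ} {c : ℂ}

omit h𝔫 in
open Classical in
theorem IsSmoothEigen.continuous_mean (h : IsSmoothEigen T Φ c) (w : InfinitePlace L) (ε : ℝ)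
    (q : Cosets 𝔫) :
    Continuous fun x : XInf L =>
      ∫ U, H3.ballKer ε (x w) U * Φ (Function.update x w U, q) ∂H3.vol := by
  obtain ⟨C, hC⟩ := h.bounded
  refine continuous_iff_continuousAt.mpr fun x => ?_
  obtain ⟨R, hR⟩ := H3.eventually_ball_bound (x w) (Real.cosh ε)
  have hBm : MeasurableSet {U | H3.coshDist (x w) U ≤ R} :=
    measurableSet_le (H3.measurable_coshDist_pair.comp measurable_prodMk_left) measurable_const
  refine continuousAt_of_dominated (bound := {U | H3.coshDist (x w) U ≤ R}.indicator fun _ => C)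
    ?_ ?_ ?_ ?_
  · refine Eventually.of_forall fun x' => ?_
    have hU : Measurable fun U => Φ (Function.update x' w U, q) :=
      ((h.continuous q).comp (continuous_const.update w continuous_id)).measurable
    exact (((H3.isInvKer_ballKer ε).measurable_row (x' w)).mul hU).aestronglyMeasurable
  · filter_upwards [((continuous_apply w).tendsto x).eventually hR] with x' hx'
    refine Eventually.of_forall fun U => ?_
    by_cases hU : U ∈ H3.ball (x' w) ε
    · rw [indicator_of_mem (show U ∈ {U | H3.coshDist (x w) U ≤ R} from hx' U hU), norm_mul]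
      exact (mul_le_of_le_one_left (norm_nonneg _) (H3.norm_ballKer_le _ _ _)).trans (hC _)
    · rw [H3.ballKer, indicator_of_notMem hU, zero_mul, norm_zero]
      exact indicator_nonneg (fun _ _ => (norm_nonneg _).trans (hC (x, q))) U
  · exact (integrable_indicator_iff hBm).mpr
      (integrableOn_const (H3.vol_le_dist_lt_top _ _).ne)
  · have hnull : ∀ᵐ U ∂H3.vol, H3.coshDist (x w) U ≠ Real.cosh ε := by
      simp only [ae_iff, ne_eq, not_not]
      exact H3.vol_sphere _ _
    filter_upwards [hnull] with U hU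
    exact ((H3.continuousAt_ballKer hU).tendsto.comp ((continuous_apply w).tendsto x)).mul
      (((h.continuous q).comp (continuous_id.update w continuous_const)).tendsto x)

variable (𝔇 : AutDomain PGL(2, L) (yVol 𝔫))

/-- An equation between an operator and a scalar, transferred to the smooth function. -/
theorem yOp_ae_of_eigen {k : YSpace 𝔫 → YSpace 𝔫 → ℂ}
    (hk : IsYKernel k) {v : 𝔇.Space} (hv : 𝔇.lift v =ᵐ[yVol 𝔫] Φ) {r : ℂ}
    (he : hk.clm 𝔇 v = r • v) : yOp k Φ =ᵐ[yVol 𝔫] fun y => r * Φ y := by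
  have h1 := hk.lift_clm_ae 𝔇 v
  rw [he] at h1
  have h2 : 𝔇.lift (r • v) =ᵐ[yVol 𝔫] r • 𝔇.lift v :=
    𝔇.lift_ae_of_eq (fun γ y => by simp [𝔇.lift_invariant])
      ((Lp.coeFn_smul r v).trans ((𝔇.lift_ae_restrict v).symm.fun_comp (r • ·)))
  have h3 : yOp k (𝔇.lift v) =ᵐ[yVol 𝔫] yOp k Φ :=
    AutDomain.op_congr_ae (T := yTransport L 𝔫) (W := Function.uncurry k) hv
  filter_upwards [h1, h2, h3, hv] with y e1 e2 e3 e4
  rw [← e3, ← e1, e2, Pi.smul_apply, smul_eq_mul, e4]

theorem IsSmoothEigen.isSph0 (h : IsSmoothEigen T Φ c) (hc : c ≠ 0) (hT : IsCosetOp T)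
    {v : 𝔇.Space} (hv : 𝔇.lift v =ᵐ[yVol 𝔫] Φ)
    (hball : ∀ (w : InfinitePlace L) (ε : ℚ), (0 : ℝ) < ε →
      (isYKernel_placeKer hT w (ε : ℝ)).clm 𝔇 v = ((H3.sph0 ε : ℂ) * c) • v)
    (w : InfinitePlace L) (x : XInf L) (q : Cosets 𝔫) :
    letI := Classical.decEq (InfinitePlace L)
    H3.IsSph0 fun P => Φ (Function.update x w P, q) := by
  classical
  obtain ⟨C, hC⟩ := h.bounded
  refine H3.isSph0_of_rat ((h.continuous q).comp (continuous_const.update w continuous_id))
    (C := C) (fun P => hC _) fun P ε hε => ?_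
  have hmean : (fun y : YSpace 𝔫 => c * ∫ U, H3.ballKer ε (y.1 w) U *
      Φ (Function.update y.1 w U, y.2) ∂H3.vol) =
      fun y => ((H3.sph0 ε : ℂ) * c) * Φ y := by
    refine eq_of_ae_eq_continuous (fun q => continuous_const.mul (h.continuous_mean w ε q))
      (fun q => continuous_const.mul (h.continuous q)) ?_
    have h1 := yOp_ae_of_eigen 𝔇 (isYKernel_placeKer hT w (ε : ℝ)) hv (hball w ε hε)
    filter_upwards [h1] with y hy
    rw [← h.yOp_placeKer hT w ε y.1 y.2]
    exact hy
  have h2 := congrFun hmean (Function.update x w P, q)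
  simp only [Function.update_self, Function.update_idem] at h2
  rw [← H3.integral_ballKer_mul]
  refine mul_left_cancel₀ hc ?_
  rw [h2]
  ring

/-- **Eigenvectors give cusp forms.** -/
theorem IsSmoothEigen.isCuspFn [IsTotallyComplex L] (h : IsSmoothEigen T Φ c) (hc : c ≠ 0)
    (hT : IsCosetOp T) (hT2 : T * T = T) {v₃ : HeightOneSpectrum (𝓞 L)} (hcusp : IsCuspOpAt v₃ T)
    {v : 𝔇.Space} (hv : 𝔇.lift v =ᵐ[yVol 𝔫] Φ)
    (hball : ∀ (w : InfinitePlace L) (ε : ℚ), (0 : ℝ) < ε →
      (isYKernel_placeKer hT w (ε : ℝ)).clm 𝔇 v = ((H3.sph0 ε : ℂ) * c) • v) :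
    IsCuspFn 𝔫 fun x g => Φ (x, (g : Cosets 𝔫)) := by
  classical
  set φ : XInf L → GAf L → ℂ := fun x g => Φ (x, (g : Cosets 𝔫)) with hφ
  have hrat : ∀ γ x g, φ (infAct γ x) (rationalMat γ * g) = φ x g := fun γ x g => by
    have := h.invariant (Matrix.ProjGenLinGroup.mk γ) (x, (g : Cosets 𝔫))
    rw [mk_smul] at this
    exact this
  have hcen : ∀ (a : (Adf L)ˣ) x g, φ x (g * upperTri a 0 a) = φ x g := fun a x g => by
    refine congrArg (fun q => Φ (x, q)) (QuotientGroup.eq.mpr ?_)
    rw [mul_inv_rev, mul_assoc, inv_mul_cancel, mul_one]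
    refine Subgroup.mem_sup_right (inv_mem ?_)
    rw [Matrix.GeneralLinearGroup.center_eq_range_scalar]
    exact ⟨a, scalar_eq_upperTri a⟩
  have hlev : ∀ k ∈ congrSubgroup 𝔫, ∀ x g, φ x (g * k) = φ x g := fun k hk x g => by
    refine congrArg (fun q => Φ (x, q)) (QuotientGroup.eq.mpr ?_)
    rw [mul_inv_rev, mul_assoc, inv_mul_cancel, mul_one]
    exact Subgroup.mem_sup_left (inv_mem hk)
  have hcont : ∀ g, Continuous fun x => φ x g := fun g => h.continuous _
  have hbd : ∃ C, ∀ x g, ‖φ x g‖ ≤ C := ⟨h.bounded.choose, fun x g => h.bounded.choose_spec _⟩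
  have hsph : ∀ (w : InfinitePlace L) x g,
      letI := Classical.decEq (InfinitePlace L)
      H3.IsSph0 fun P => φ (Function.update x w P) g :=
    fun w x g => h.isSph0 𝔇 hc hT hv hball w x (g : Cosets 𝔫)
  have hcuspidal : IsCuspidalAt v₃ φ := fun x g k => by
    have := hcusp (fun p => Φ (x, p)) x g k
    simpa only [h.apply_op hc hT hT2 x] using this
  refine ⟨hrat, hcen, hlev, hcont, hbd, hsph, exists_hasExpansion hrat hcont hbd hsph fun g => ?_⟩
  obtain ⟨b, hb⟩ := exists_periodic_basis h𝔫.out hrat hlev g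
  refine ⟨b, hb, fun x => ?_⟩
  have hP := periodicEigen_of (φ := φ) hcont hbd hsph hb
  obtain ⟨ι, _, _, a, ha⟩ := exists_zero_sum h𝔫.out (v := v₃) g
  have hz : ∀ y, ∑ i, φ (hshift y (embVec (a i))) g = 0 := fun y => by
    simpa only [infAct_upperUni_hshift] using ha φ hrat hlev hcen hcuspidal y
  choose s hs using fun i => (iotaX_bijective b).2 (embVec (a i))
  have htrans : ∀ i, ∫ y in boxAt 0, φ (hshift (hshift x (iotaX b y)) (embVec (a i))) g =
      ∫ y in boxAt 0, φ (hshift x (iotaX b y)) g := fun i => by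
    refine Eq.trans ?_ (integral_box_add (continuous_torusFn hP x) (isPer_torusFn hP x) (s i))
    refine integral_congr_ae (Eventually.of_forall fun y => ?_)
    simp only [torusFn, map_add, hs, hshift_shiftX]
  have hsum := integral_finsetSum (μ := volume.restrict (boxAt (0 : Module.Free.ChooseBasisIndex ℤ (𝓞 L) → ℤ)))
    Finset.univ (f := fun i y => φ (hshift (hshift x (iotaX b y)) (embVec (a i))) g) fun i _ =>
      integrableOn_box ((hcont g).comp ((continuous_shiftX_left _).comp
        ((continuous_shiftX x).comp (iotaX b).continuous_of_finiteDimensional)))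
  simp only [hz, integral_zero, htrans, Finset.sum_const, nsmul_eq_mul] at hsum
  exact (mul_eq_zero.mp hsum.symm).resolve_left (Nat.cast_ne_zero.mpr (Finset.card_ne_zero.mpr Finset.univ_nonempty))

end FermatAgent.LT
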