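import Mathlib
import Fermat.Agent.LT.Descent.Geometric
import Fermat.Agent.LT.Descent.Spectral.Words
import Fermat.Agent.LT.Descent.Spectral.Twist

set_option autoImplicit false

/-!
# The geometric identity as an identity of pairings
-/

noncomputable section

open MeasureTheory NumberField IsDedekindDomain
open scoped ComplexConjugate MatrixGroups InnerProductSpace

namespace FermatAgent.LT

namespace Setup

variable (S : Setup)

instance instIsTotallyComplexK' : IsTotallyComplex S.K :=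
  ⟨fun u => by
    obtain ⟨w, rfl⟩ := S.exists_infinitePlace_over u
    rw [← InfinitePlace.not_isReal_iff_isComplex]
    intro h
    obtain ⟨ζ, hζ, h3, h1, -⟩ := S.exists_three_root
    rw [InfinitePlace.isReal_iff] at h
    set φ := (w.comap S.inclKF.toRingHom).embedding
    let z : S.K := ⟨ζ, hζ⟩
    have hz : φ z ^ 3 = 1 := by
      rw [← map_pow, show z ^ 3 = 1 from Subtype.ext (by simpa [z] using h3), map_one]
    have him : (φ z).im = 0 := by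
      rw [ComplexEmbedding.isReal_iff] at h
      exact Complex.conj_eq_iff_im.mp ((ComplexEmbedding.conjugate_coe_eq _ z).symm.trans
        (RingHom.congr_fun h z))
    have hre : φ z = ((φ z).re : ℂ) := Complex.ext rfl (by simpa using him)
    rw [hre, ← Complex.ofReal_pow] at hz
    have hx : (φ z).re = 1 := by
      have h' := Complex.ofReal_eq_one.mp hz
      nlinarith [sq_nonneg ((φ z).re + 1 / 2)]
    refine h1 ?_
    have : z = 1 := φ.injective (by rw [hre, hx, map_one, Complex.ofReal_one])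
    exact congrArg Subtype.val this⟩

/-- The number of factors of the smoothing operator. -/
def depth : ℕ :=
  2 * Fintype.card (InfinitePlace S.F) + 2 * Fintype.card (InfinitePlace S.K) + 2

end Setup

namespace MWord

variable {S : Setup} (Ψ : S.PsiData) (σ : S.F ≃+* S.F)
  (w₁ : InfinitePlace S.K → InfinitePlace S.F)

theorem kerF_smoothing_bounded (hΨ : Ψ.Nontriv) :
    ∃ C : ℝ, ∀ y z, ‖kerSum ((unit (S := S) S.depth).kerF Ψ) y z‖ ≤ C := by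
  obtain ⟨v, hv⟩ := Setup.exists_three_mem S.F
  have hb : v ∈ S.badPlaces S.F := (S.mem_badPlaces_iff _ v).mpr (by
    push_cast; exact Ideal.mul_mem_right _ _ hv)
  rw [kerF_unit]
  exact exists_kerSum_bound (S.levelIdeal_ne_bot _) (S.isCosetOp_levelOpF Ψ)
    (isCuspOpAt_levelOp (S.levelIdeal_ne_bot _) (S.badPlaces_level _) S.card_residue_three_F hb hv
      (S.psiF_ne_one hΨ hb)) (by unfold Setup.depth; omega)

theorem kerK_smoothing_bounded (hΨ : Ψ.Nontriv) :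
    ∃ C : ℝ, ∀ y z, ‖kerSum ((unit (S := S) S.depth).kerK Ψ σ w₁) y z‖ ≤ C := by
  obtain ⟨v, hv⟩ := Setup.exists_three_mem S.K
  have h3m : ((3 * S.m : ℕ) : 𝓞 S.K) ∈ v.asIdeal := by
    push_cast; exact Ideal.mul_mem_right _ _ hv
  rw [kerK_unit]
  exact exists_kerSum_bound (S.levelIdeal_ne_bot _) (S.isCosetOp_levelOpK Ψ)
    (isCuspOpAt_levelOp (S.levelIdeal_ne_bot _) (S.badPlaces_level _) S.card_residue_three_K
      ((S.mem_badPlaces_iff _ v).mpr h3m) hv (hΨ v h3m)) (by unfold Setup.depth; omega)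

theorem bounded_mulF (x y : MWord S) (h : ∃ C : ℝ, ∀ a b, ‖kerSum (y.kerF Ψ) a b‖ ≤ C) :
    ∃ C : ℝ, ∀ a b, ‖kerSum ((x.mul y).kerF Ψ) a b‖ ≤ C := by
  rw [← kerF_mul]
  exact (x.isYKernel_kerF Ψ).kerSum_yConv_bounded (y.isYKernel_kerF Ψ) h

theorem bounded_mulK (x y : MWord S) (h : ∃ C : ℝ, ∀ a b, ‖kerSum (y.kerK Ψ σ w₁) a b‖ ≤ C) :
    ∃ C : ℝ, ∀ a b, ‖kerSum ((x.mul y).kerK Ψ σ w₁) a b‖ ≤ C := by
  rw [← kerK_mul]
  exact (x.isYKernel_kerK Ψ σ w₁).kerSum_yConv_bounded (y.isYKernel_kerK Ψ σ w₁) h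

variable (𝔇F : AutDomain PGL(2, S.F) (yVol (S.levelIdeal S.F)))
  (𝔇K : AutDomain PGL(2, S.K) (yVol (S.levelIdeal S.K)))

/-- The first family on `F`. -/
def famF {ι : Type*} (e : ι → 𝔇F.Space) (i : ι) : 𝔇F.Space :=
  (unit (S := S) S.depth).OF Ψ 𝔇F (galOp (S.levelIdeal_map σ) 𝔇F (e i))

/-- The second family on `F`. -/
def famF' (s : MWord S) {ι : Type*} (e : ι → 𝔇F.Space) (i : ι) : 𝔇F.Space :=
  s.OF Ψ 𝔇F ((unit (S := S) S.depth).OF Ψ 𝔇F (e i))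

/-- The first family on `K`. -/
def famK {ι : Type*} (e : ι → 𝔇K.Space) (i : ι) : 𝔇K.Space :=
  (unit (S := S) S.depth).OK Ψ σ w₁ 𝔇K (e i)

/-- The second family on `K`. -/
def famK' (s : MWord S) {ι : Type*} (e : ι → 𝔇K.Space) (i : ι) : 𝔇K.Space :=
  s.OK Ψ σ w₁ 𝔇K ((unit (S := S) S.depth).OK Ψ σ w₁ 𝔇K (e i))

variable [IsFiniteMeasure ((yVol (S.levelIdeal S.F)).restrict 𝔇F.carrier)]
  [IsFiniteMeasure ((yVol (S.levelIdeal S.K)).restrict 𝔇K.carrier)]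
  {ι ι' : Type*} (e : HilbertBasis ι ℂ 𝔇F.Space) (e' : HilbertBasis ι' ℂ 𝔇K.Space)
  (hΨ : Ψ.Nontriv) (s : MWord S)

include hΨ

theorem summable_famF : Summable fun i => ‖famF Ψ σ 𝔇F e i‖ ^ 2 :=
  ((unit S.depth).isYKernel_kerF Ψ |>.hasKernel_galOp (S.levelIdeal_map σ) 𝔇F
    (kerF_smoothing_bounded Ψ hΨ)).summable_norm_sq e

theorem summable_famF' : Summable fun i => ‖famF' Ψ 𝔇F s e i‖ ^ 2 := by
  have h := ((s.mul (unit S.depth)).isYKernel_kerF Ψ |>.hasKernel 𝔇F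
    (bounded_mulF Ψ s _ (kerF_smoothing_bounded Ψ hΨ))).summable_norm_sq e
  refine h.congr fun i => ?_
  rw [famF', ← StrongLimit.mulv, s.OF_mul]
  rfl

theorem summable_famK : Summable fun i => ‖famK Ψ σ w₁ 𝔇K e' i‖ ^ 2 :=
  ((unit S.depth).isYKernel_kerK Ψ σ w₁ |>.hasKernel 𝔇K
    (kerK_smoothing_bounded Ψ σ w₁ hΨ)).summable_norm_sq e'

theorem summable_famK' : Summable fun i => ‖famK' Ψ σ w₁ 𝔇K s e' i‖ ^ 2 := by
  have h := ((s.mul (unit S.depth)).isYKernel_kerK Ψ σ w₁ |>.hasKernel 𝔇K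
    (bounded_mulK Ψ σ w₁ s _ (kerK_smoothing_bounded Ψ σ w₁ hΨ))).summable_norm_sq e'
  refine h.congr fun i => ?_
  rw [famK', ← StrongLimit.mulv, s.OK_mul]
  rfl

omit [IsFiniteMeasure ((yVol (S.levelIdeal S.K)).restrict 𝔇K.carrier)] in
/-- The pairing on `F` as a twisted integral. -/
theorem pairing_F [Countable ι] (hs : IsHermOp (s.opF Ψ)) (Z : 𝔇F.Space →L[ℂ] 𝔇F.Space) (x : MWord S)
    (hx : s.OF Ψ 𝔇F * (Z * (unit S.depth).OF Ψ 𝔇F) = x.OF Ψ 𝔇F)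
    (hxb : ∃ C : ℝ, ∀ a b, ‖kerSum (x.kerF Ψ) a b‖ ≤ C) :
    Joint.pairing (famF Ψ σ 𝔇F e) (famF' Ψ 𝔇F s e) Z =
      conj (∫ z in 𝔇F.carrier, kerSum (((unit S.depth).mul x).kerF Ψ) z (galY σ z)
        ∂(yVol (S.levelIdeal S.F))) := by
  have h := hasSum_inner_kerSum 𝔇F e ((unit S.depth).isYKernel_kerF Ψ) (x.isYKernel_kerF Ψ)
    (conj_yKer (fun _ => H3.isInvKer_ballWord _) ((unit S.depth).hermF_nil Ψ rfl)
      (fun _ => H3.conj_ballWord _))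
    (kerF_smoothing_bounded Ψ hΨ) hxb (g := galY σ)
    ((funext fun y => galYEquiv_apply (S.levelIdeal_map σ) y :
      ⇑(galYEquiv (S.levelIdeal_map σ)) = galY σ) ▸ (galYEquiv (S.levelIdeal_map σ)).measurable)
    ((x.isYKernel_kerF Ψ).hasKernel_galOp (S.levelIdeal_map σ) 𝔇F hxb)
  rw [kerF_mul] at h
  rw [← h.tsum_eq, Complex.conj_tsum]
  refine tsum_congr fun i => ?_
  rw [inner_conj_symm, show (x.isYKernel_kerF Ψ).clm 𝔇F = x.OF Ψ 𝔇F from rfl, ← hx]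
  simp only [famF, famF', StrongLimit.mulv]
  exact (s.OF_symm Ψ 𝔇F hs _ _).symm

omit [IsFiniteMeasure ((yVol (S.levelIdeal S.F)).restrict 𝔇F.carrier)] in
/-- The pairing on `K` as an integral over the diagonal. -/
theorem pairing_K [Countable ι'] (hs : IsHermOp (s.opK Ψ)) (Z : 𝔇K.Space →L[ℂ] 𝔇K.Space) (x : MWord S)
    (hx : s.OK Ψ σ w₁ 𝔇K * (Z * (unit S.depth).OK Ψ σ w₁ 𝔇K) = x.OK Ψ σ w₁ 𝔇K)
    (hxb : ∃ C : ℝ, ∀ a b, ‖kerSum (x.kerK Ψ σ w₁) a b‖ ≤ C) :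
    Joint.pairing (famK Ψ σ w₁ 𝔇K e') (famK' Ψ σ w₁ 𝔇K s e') Z =
      conj (∫ z in 𝔇K.carrier, kerSum (((unit S.depth).mul x).kerK Ψ σ w₁) z z
        ∂(yVol (S.levelIdeal S.K))) := by
  have h := hasSum_inner_kerSum 𝔇K e' ((unit S.depth).isYKernel_kerK Ψ σ w₁)
    (x.isYKernel_kerK Ψ σ w₁)
    (conj_yKer (fun _ => H3.isInvKer_ballWord _) ((unit S.depth).hermK_nil Ψ rfl)
      (fun _ => H3.conj_ballWord _))
    (kerK_smoothing_bounded Ψ σ w₁ hΨ) hxb (g := fun z => z) measurable_id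
    ((x.isYKernel_kerK Ψ σ w₁).hasKernel 𝔇K hxb)
  rw [kerK_mul] at h
  rw [← h.tsum_eq, Complex.conj_tsum]
  refine tsum_congr fun i => ?_
  rw [inner_conj_symm, show (x.isYKernel_kerK Ψ σ w₁).clm 𝔇K = x.OK Ψ σ w₁ 𝔇K from rfl, ← hx]
  simp only [famK, famK', StrongLimit.mulv]
  exact (s.OK_symm Ψ σ w₁ 𝔇K hs _ _).symm

/-- **The matched pairings.** -/
theorem exists_pairing_eq [Countable ι] [Countable ι'] (hσ : S.IsGalGen σ)
    (hw₁ : ∀ u, (w₁ u).comap S.inclKF.toRingHom = u)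
    {ws : HeightOneSpectrum (𝓞 S.F)} (hws : ((3 * S.m : ℕ) : 𝓞 S.F) ∉ ws.asIdeal)
    (hinert : Ideal.absNorm ws.asIdeal ≠ Ideal.absNorm (S.underK ws).asIdeal) :
    ∃ κ : ℂ,
      (∀ x : MWord S, (letI := Classical.decEq (HeightOneSpectrum (𝓞 S.F)); Even (x.pl.count ws)) →
        Joint.pairing (famF Ψ σ 𝔇F e) (famF' Ψ 𝔇F (hecke ws hws) e) (x.OF Ψ 𝔇F) =
          κ * Joint.pairing (famK Ψ σ w₁ 𝔇K e') (famK' Ψ σ w₁ 𝔇K (hecke ws hws) e')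
            (x.OK Ψ σ w₁ 𝔇K)) ∧
      Joint.pairing (famF Ψ σ 𝔇F e) (famF' Ψ 𝔇F (hecke ws hws) e) 1 =
        κ * Joint.pairing (famK Ψ σ w₁ 𝔇K e') (famK' Ψ σ w₁ 𝔇K (hecke ws hws) e') 1 := by
  classical
  have hFfin : yVol (S.levelIdeal S.F) 𝔇F.carrier < ⊤ := by
    simpa using measure_lt_top ((yVol (S.levelIdeal S.F)).restrict 𝔇F.carrier) Set.univ
  have hKfin : yVol (S.levelIdeal S.K) 𝔇K.carrier < ⊤ := by
    simpa using measure_lt_top ((yVol (S.levelIdeal S.K)).restrict 𝔇K.carrier) Set.univ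
  obtain ⟨c, hc⟩ := trace_identity S Ψ hΨ σ hσ w₁ hw₁ 𝔇F.isFund hFfin 𝔇K.isFund hKfin
  refine ⟨conj c, ?_⟩
  set A : MWord S := unit S.depth
  set T : MWord S := hecke ws hws
  have hsF : IsHermOp (T.opF Ψ) := T.hermF_single Ψ rfl
  have hsK : IsHermOp (T.opK Ψ) := T.hermK_single Ψ rfl
  -- the identity for a word containing the smoothing factors
  have key : ∀ x : MWord S, Odd (x.pl.count ws) →
      (∃ C : ℝ, ∀ a b, ‖kerSum (x.kerF Ψ) a b‖ ≤ C) →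
      (∃ C : ℝ, ∀ a b, ‖kerSum (x.kerK Ψ σ w₁) a b‖ ≤ C) →
      ∫ z in 𝔇F.carrier, kerSum ((A.mul x).kerF Ψ) z (galY σ z) ∂(yVol (S.levelIdeal S.F)) =
        c * ∫ z in 𝔇K.carrier, kerSum ((A.mul x).kerK Ψ σ w₁) z z ∂(yVol (S.levelIdeal S.K)) := by
    intro x hodd hF hK
    have hF' := bounded_mulF Ψ A x hF
    have hK' := bounded_mulK Ψ σ w₁ A x hK
    rw [← kerK_eq_slot] at hK' ⊢
    refine hc (fun w => H3.ballWord ((A.mul x).rad w)) (A.mul x).pl (fun w => H3.isInvKer_ballWord _)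
      (A.mul x).good ⟨ws, hinert, ?_⟩ hF' hK'
    simpa [A, mul, unit] using hodd
  refine ⟨fun x hev => ?_, ?_⟩
  · have hxF := bounded_mulF Ψ T (x.mul A) (bounded_mulF Ψ x A (kerF_smoothing_bounded Ψ hΨ))
    have hxK := bounded_mulK Ψ σ w₁ T (x.mul A)
      (bounded_mulK Ψ σ w₁ x A (kerK_smoothing_bounded Ψ σ w₁ hΨ))
    rw [pairing_F Ψ σ 𝔇F e hΨ T hsF (x.OF Ψ 𝔇F) (T.mul (x.mul A)) (by rw [OF_mul, OF_mul]) hxF,
      pairing_K Ψ σ w₁ 𝔇K e' hΨ T hsK (x.OK Ψ σ w₁ 𝔇K) (T.mul (x.mul A))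
        (by rw [OK_mul, OK_mul]) hxK,
      key _ ?_ hxF hxK, map_mul]
    simpa [A, T, mul, unit, hecke, List.count_cons, parity_simps] using hev
  · have hxF := bounded_mulF Ψ T A (kerF_smoothing_bounded Ψ hΨ)
    have hxK := bounded_mulK Ψ σ w₁ T A (kerK_smoothing_bounded Ψ σ w₁ hΨ)
    have e1 : T.OF Ψ 𝔇F * (1 * A.OF Ψ 𝔇F) = (T.mul A).OF Ψ 𝔇F :=
      (congrArg (fun Z => T.OF Ψ 𝔇F * Z) (one_mul (A.OF Ψ 𝔇F))).trans (T.OF_mul Ψ A 𝔇F)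
    have e2 : T.OK Ψ σ w₁ 𝔇K * (1 * A.OK Ψ σ w₁ 𝔇K) = (T.mul A).OK Ψ σ w₁ 𝔇K :=
      (congrArg (fun Z => T.OK Ψ σ w₁ 𝔇K * Z) (one_mul (A.OK Ψ σ w₁ 𝔇K))).trans
        (T.OK_mul Ψ σ w₁ A 𝔇K)
    rw [pairing_F Ψ σ 𝔇F e hΨ T hsF 1 (T.mul A) e1 hxF,
      pairing_K Ψ σ w₁ 𝔇K e' hΨ T hsK 1 (T.mul A) e2 hxK,
      key _ ?_ hxF hxK, map_mul]
    simp [A, T, mul, unit, hecke]

end MWord

end FermatAgent.LT
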