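import Mathlib
import Fermat.Agent.LT.Descent.Spectral.Compare

set_option autoImplicit false
set_option maxHeartbeats 8000000

/-!
# The matched generators and the pairing of the projections on their common kernels
-/

noncomputable section

open MeasureTheory NumberField IsDedekindDomain
open scoped ComplexConjugate MatrixGroups InnerProductSpace

namespace FermatAgent.LT

variable {S : Setup}

/-- The data fixed in the descent: characters, a generator, places over the places of `K`, the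
traces and one inert place. -/
structure DescentData (S : Setup) where
  /-- the characters -/
  Ψ : S.PsiData
  nontriv : Ψ.Nontriv
  /-- the generator -/
  σ : S.F ≃+* S.F
  isGen : S.IsGalGen σ
  /-- a place over each place of `K` -/
  w₁ : InfinitePlace S.K → InfinitePlace S.F
  w₁_over : ∀ u, (w₁ u).comap S.inclKF.toRingHom = u
  /-- the traces -/
  t : HeightOneSpectrum (𝓞 S.F) → ℤ
  /-- the inert place -/
  ws : HeightOneSpectrum (𝓞 S.F)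
  ws_good : ((3 * S.m : ℕ) : 𝓞 S.F) ∉ ws.asIdeal
  ws_inert : Ideal.absNorm ws.asIdeal ≠ Ideal.absNorm (S.underK ws).asIdeal

namespace DescentData

variable (D : DescentData S)

/-- The indices of the generators. -/
abbrev Index : Type :=
  InfinitePlace S.F × {q : ℚ // 0 < q} ⊕
    {w : HeightOneSpectrum (𝓞 S.F) // ((3 * S.m : ℕ) : 𝓞 S.F) ∉ w.asIdeal ∧ w ≠ D.ws} ⊕ Unit

instance : Nonempty D.Index := ⟨Sum.inr (Sum.inr ())⟩

instance : Countable D.Index := inferInstanceAs (Countable (_ ⊕ _ ⊕ _))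

/-- The normalised eigenvalue times the square root of the norm. -/
def lam (w : HeightOneSpectrum (𝓞 S.F)) : ℂ :=
  ((Real.sqrt (Ideal.absNorm w.asIdeal) * D.t w : ℝ) : ℂ)

theorem conj_lam (w : HeightOneSpectrum (𝓞 S.F)) : conj (D.lam w) = D.lam w := Complex.conj_ofReal _

/-- The main word of a generator. -/
def word : D.Index → MWord S
  | Sum.inl p => MWord.ball p.1 ((p.2 : ℚ) : ℝ)
  | Sum.inr (Sum.inl w) => MWord.hecke w.1 w.2.1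
  | Sum.inr (Sum.inr _) => (MWord.hecke D.ws D.ws_good).mul (MWord.hecke D.ws D.ws_good)

/-- The word of the scalar part of a generator. -/
def base : D.Index → MWord S
  | Sum.inl _ => MWord.unit 0
  | Sum.inr (Sum.inl _) => MWord.unit 0
  | Sum.inr (Sum.inr _) => (MWord.unit 0).mul (MWord.unit 0)

/-- The scalar of a generator. -/
def scal : D.Index → ℂ
  | Sum.inl p => (H3.sph0 ((p.2 : ℚ) : ℝ) : ℂ)
  | Sum.inr (Sum.inl w) => D.lam w.1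
  | Sum.inr (Sum.inr _) => D.lam D.ws * D.lam D.ws

theorem conj_scal (j : D.Index) : conj (D.scal j) = D.scal j := by
  rcases j with p | w | u <;> simp [scal, conj_lam]

open Classical in
theorem even_word (j : D.Index) : Even ((D.word j).pl.count D.ws) ∧ Even ((D.base j).pl.count D.ws) := by
  rcases j with p | w | u
  · simp [word, base, MWord.ball, MWord.unit]
  · simp [word, base, MWord.hecke, MWord.unit, w.2.2]
  · simp [word, base, MWord.hecke, MWord.unit, MWord.mul]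

variable (𝔇F : AutDomain PGL(2, S.F) (yVol (S.levelIdeal S.F)))
  (𝔇K : AutDomain PGL(2, S.K) (yVol (S.levelIdeal S.K)))

/-- The generator on `F`. -/
def genF (j : D.Index) : 𝔇F.Space →L[ℂ] 𝔇F.Space :=
  (D.word j).OF D.Ψ 𝔇F - D.scal j • (D.base j).OF D.Ψ 𝔇F

/-- The generator on `K`. -/
def genK (j : D.Index) : 𝔇K.Space →L[ℂ] 𝔇K.Space :=
  (D.word j).OK D.Ψ D.σ D.w₁ 𝔇K - D.scal j • (D.base j).OK D.Ψ D.σ D.w₁ 𝔇K

theorem symm_of_commute {E : Type*} [NormedAddCommGroup E] [InnerProductSpace ℂ E] {A B : E →L[ℂ] E}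
    (hA : ∀ x y, ⟪A x, y⟫_ℂ = ⟪x, A y⟫_ℂ) (hB : ∀ x y, ⟪B x, y⟫_ℂ = ⟪x, B y⟫_ℂ) (h : Commute A B)
    (x y : E) : ⟪(A * B) x, y⟫_ℂ = ⟪x, (A * B) y⟫_ℂ := by
  conv_rhs => rw [h.eq]
  rw [StrongLimit.mulv, StrongLimit.mulv, hA, hB]

theorem word_symmF (j : D.Index) (x y : 𝔇F.Space) :
    ⟪(D.word j).OF D.Ψ 𝔇F x, y⟫_ℂ = ⟪x, (D.word j).OF D.Ψ 𝔇F y⟫_ℂ ∧
      ⟪(D.base j).OF D.Ψ 𝔇F x, y⟫_ℂ = ⟪x, (D.base j).OF D.Ψ 𝔇F y⟫_ℂ := by
  have h0 : ∀ a b, ⟪(MWord.unit (S := S) 0).OF D.Ψ 𝔇F a, b⟫_ℂ = ⟪a, (MWord.unit (S := S) 0).OF D.Ψ 𝔇F b⟫_ℂ :=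
    MWord.OF_symm _ _ 𝔇F (MWord.hermF_nil _ _ rfl)
  rcases j with p | w | u
  · exact ⟨MWord.OF_symm _ _ 𝔇F (MWord.hermF_nil _ _ rfl) x y, h0 x y⟩
  · exact ⟨MWord.OF_symm _ _ 𝔇F (MWord.hermF_single _ _ rfl) x y, h0 x y⟩
  · have hs : ∀ a b, ⟪(MWord.hecke D.ws D.ws_good).OF D.Ψ 𝔇F a, b⟫_ℂ =
        ⟪a, (MWord.hecke D.ws D.ws_good).OF D.Ψ 𝔇F b⟫_ℂ :=
      MWord.OF_symm _ _ 𝔇F (MWord.hermF_single _ _ rfl)
    simp only [word, base, ← MWord.OF_mul]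
    exact ⟨symm_of_commute hs hs (Commute.refl _) x y, symm_of_commute h0 h0 (Commute.refl _) x y⟩

theorem word_symmK (j : D.Index) (x y : 𝔇K.Space) :
    ⟪(D.word j).OK D.Ψ D.σ D.w₁ 𝔇K x, y⟫_ℂ = ⟪x, (D.word j).OK D.Ψ D.σ D.w₁ 𝔇K y⟫_ℂ ∧
      ⟪(D.base j).OK D.Ψ D.σ D.w₁ 𝔇K x, y⟫_ℂ = ⟪x, (D.base j).OK D.Ψ D.σ D.w₁ 𝔇K y⟫_ℂ := by
  have h0 : ∀ a b, ⟪(MWord.unit (S := S) 0).OK D.Ψ D.σ D.w₁ 𝔇K a, b⟫_ℂ =
      ⟪a, (MWord.unit (S := S) 0).OK D.Ψ D.σ D.w₁ 𝔇K b⟫_ℂ :=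
    MWord.OK_symm _ _ _ _ 𝔇K (MWord.hermK_nil _ _ rfl)
  rcases j with p | w | u
  · exact ⟨MWord.OK_symm _ _ _ _ 𝔇K (MWord.hermK_nil _ _ rfl) x y, h0 x y⟩
  · exact ⟨MWord.OK_symm _ _ _ _ 𝔇K (MWord.hermK_single _ _ rfl) x y, h0 x y⟩
  · have hs : ∀ a b, ⟪(MWord.hecke D.ws D.ws_good).OK D.Ψ D.σ D.w₁ 𝔇K a, b⟫_ℂ =
        ⟪a, (MWord.hecke D.ws D.ws_good).OK D.Ψ D.σ D.w₁ 𝔇K b⟫_ℂ :=
      MWord.OK_symm _ _ _ _ 𝔇K (MWord.hermK_single _ _ rfl)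
    simp only [word, base, ← MWord.OK_mul]
    exact ⟨symm_of_commute hs hs (Commute.refl _) x y, symm_of_commute h0 h0 (Commute.refl _) x y⟩

theorem genF_symm (j : D.Index) (x y : 𝔇F.Space) :
    ⟪D.genF 𝔇F j x, y⟫_ℂ = ⟪x, D.genF 𝔇F j y⟫_ℂ := by
  simp [genF, inner_sub_left, inner_sub_right, inner_smul_left, inner_smul_right, D.conj_scal j,
    (D.word_symmF 𝔇F j x y).1, (D.word_symmF 𝔇F j x y).2]

theorem genK_symm (j : D.Index) (x y : 𝔇K.Space) :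
    ⟪D.genK 𝔇K j x, y⟫_ℂ = ⟪x, D.genK 𝔇K j y⟫_ℂ := by
  simp [genK, inner_sub_left, inner_sub_right, inner_smul_left, inner_smul_right, D.conj_scal j,
    (D.word_symmK 𝔇K j x y).1, (D.word_symmK 𝔇K j x y).2]

theorem commute_genF (x : MWord S) (j : D.Index) : Commute (x.OF D.Ψ 𝔇F) (D.genF 𝔇F j) :=
  (MWord.commute_OF _ x _ 𝔇F).sub_right ((MWord.commute_OF _ x _ 𝔇F).smul_right _)

theorem commute_genK (x : MWord S) (j : D.Index) :
    Commute (x.OK D.Ψ D.σ D.w₁ 𝔇K) (D.genK 𝔇K j) :=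
  (MWord.commute_OK _ _ _ x _ 𝔇K).sub_right ((MWord.commute_OK _ _ _ x _ 𝔇K).smul_right _)

/-- The normalisation. -/
def scale (j : D.Index) : ℝ := (‖D.genF 𝔇F j‖ + ‖D.genK 𝔇K j‖ + 1)⁻¹

theorem scale_pos (j : D.Index) : 0 < D.scale 𝔇F 𝔇K j := inv_pos.mpr (by positivity)

/-- An enumeration of the indices. -/
def enum : ℕ → D.Index := (exists_surjective_nat D.Index).choose

theorem enum_surjective : Function.Surjective D.enum := (exists_surjective_nat D.Index).choose_spec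

/-- The normalised generators on `F`. -/
def XF (n : ℕ) : 𝔇F.Space →L[ℂ] 𝔇F.Space :=
  (D.scale 𝔇F 𝔇K (D.enum n) : ℂ) • D.genF 𝔇F (D.enum n)

/-- The normalised generators on `K`. -/
def XK (n : ℕ) : 𝔇K.Space →L[ℂ] 𝔇K.Space :=
  (D.scale 𝔇F 𝔇K (D.enum n) : ℂ) • D.genK 𝔇K (D.enum n)

theorem mem_kerF {v : 𝔇F.Space} :
    v ∈ Joint.kerAll (D.XF 𝔇F 𝔇K) ↔ ∀ j, D.genF 𝔇F j v = 0 := by
  rw [Joint.mem_kerAll]
  refine ⟨fun h j => ?_, fun h n => by rw [XF, smul_apply, h, smul_zero]⟩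
  obtain ⟨n, rfl⟩ := D.enum_surjective j
  have := h n
  rw [XF, smul_apply, smul_eq_zero, Complex.ofReal_eq_zero] at this
  exact this.resolve_left (D.scale_pos 𝔇F 𝔇K _).ne'

theorem mem_kerK {v : 𝔇K.Space} :
    v ∈ Joint.kerAll (D.XK 𝔇F 𝔇K) ↔ ∀ j, D.genK 𝔇K j v = 0 := by
  rw [Joint.mem_kerAll]
  refine ⟨fun h j => ?_, fun h n => by rw [XK, smul_apply, h, smul_zero]⟩
  obtain ⟨n, rfl⟩ := D.enum_surjective j
  have := h n
  rw [XK, smul_apply, smul_eq_zero, Complex.ofReal_eq_zero] at this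
  exact this.resolve_left (D.scale_pos 𝔇F 𝔇K _).ne'

theorem norm_XF (n : ℕ) (x : 𝔇F.Space) : ‖D.XF 𝔇F 𝔇K n x‖ ≤ ‖x‖ := by
  rw [XF, smul_apply, norm_smul, Complex.norm_real,
    Real.norm_of_nonneg (D.scale_pos 𝔇F 𝔇K _).le]
  refine (mul_le_mul_of_nonneg_left ((D.genF 𝔇F (D.enum n)).le_opNorm x)
    (D.scale_pos 𝔇F 𝔇K _).le).trans ?_
  rw [← mul_assoc]
  refine mul_le_of_le_one_left (norm_nonneg _) ?_
  rw [scale, inv_mul_le_iff₀ (by positivity), mul_one]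
  linarith [norm_nonneg (D.genK 𝔇K (D.enum n))]

theorem norm_XK (n : ℕ) (x : 𝔇K.Space) : ‖D.XK 𝔇F 𝔇K n x‖ ≤ ‖x‖ := by
  rw [XK, smul_apply, norm_smul, Complex.norm_real,
    Real.norm_of_nonneg (D.scale_pos 𝔇F 𝔇K _).le]
  refine (mul_le_mul_of_nonneg_left ((D.genK 𝔇K (D.enum n)).le_opNorm x)
    (D.scale_pos 𝔇F 𝔇K _).le).trans ?_
  rw [← mul_assoc]
  refine mul_le_of_le_one_left (norm_nonneg _) ?_
  rw [scale, inv_mul_le_iff₀ (by positivity), mul_one]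
  linarith [norm_nonneg (D.genF 𝔇F (D.enum n))]

variable [IsFiniteMeasure ((yVol (S.levelIdeal S.F)).restrict 𝔇F.carrier)]
  [IsFiniteMeasure ((yVol (S.levelIdeal S.K)).restrict 𝔇K.carrier)]
  {ι ι' : Type*} [Countable ι] [Countable ι'] (e : HilbertBasis ι ℂ 𝔇F.Space)
  (e' : HilbertBasis ι' ℂ 𝔇K.Space)

/-- **The pairings of the projections.** -/
theorem exists_pairing_projection :
    ∃ κ : ℂ,
      Joint.pairing (MWord.famF D.Ψ D.σ 𝔇F e) (MWord.famF' D.Ψ 𝔇F (MWord.hecke D.ws D.ws_good) e)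
          (Joint.kerAll (D.XF 𝔇F 𝔇K)).starProjection =
        κ * Joint.pairing (MWord.famK D.Ψ D.σ D.w₁ 𝔇K e')
            (MWord.famK' D.Ψ D.σ D.w₁ 𝔇K (MWord.hecke D.ws D.ws_good) e')
            (Joint.kerAll (D.XK 𝔇F 𝔇K)).starProjection := by
  classical
  obtain ⟨κ, hword, hone⟩ := MWord.exists_pairing_eq D.Ψ D.σ D.w₁ 𝔇F 𝔇K e e' D.nontriv D.isGen D.w₁_over
    D.ws_good D.ws_inert
  refine ⟨κ, Joint.pairing_projection
    (fun n x y => by rw [XF, smul_apply, smul_apply, inner_smul_left, inner_smul_right,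
      D.genF_symm 𝔇F (D.enum n) x y, Complex.conj_ofReal])
    (fun n x y => by rw [XK, smul_apply, smul_apply, inner_smul_left, inner_smul_right,
      D.genK_symm 𝔇K (D.enum n) x y, Complex.conj_ofReal])
    (D.norm_XF 𝔇F 𝔇K) (D.norm_XK 𝔇F 𝔇K)
    (MWord.summable_famF D.Ψ D.σ 𝔇F e D.nontriv) (MWord.summable_famF' D.Ψ 𝔇F e D.nontriv _)
    (MWord.summable_famK D.Ψ D.σ D.w₁ 𝔇K e' D.nontriv)
    (MWord.summable_famK' D.Ψ D.σ D.w₁ 𝔇K e' D.nontriv _) κ fun Z hZ => ?_⟩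
  let aF := MWord.famF D.Ψ D.σ 𝔇F e
  let cF := MWord.famF' D.Ψ 𝔇F (MWord.hecke D.ws D.ws_good) e
  let aK := MWord.famK D.Ψ D.σ D.w₁ 𝔇K e'
  let cK := MWord.famK' D.Ψ D.σ D.w₁ 𝔇K (MWord.hecke D.ws D.ws_good) e'
  have hF1 := MWord.summable_famF D.Ψ D.σ 𝔇F e D.nontriv
  have hF2 := MWord.summable_famF' D.Ψ 𝔇F e D.nontriv (MWord.hecke D.ws D.ws_good)
  have hK1 := MWord.summable_famK D.Ψ D.σ D.w₁ 𝔇K e' D.nontriv
  have hK2 := MWord.summable_famK' D.Ψ D.σ D.w₁ 𝔇K e' D.nontriv (MWord.hecke D.ws D.ws_good)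
  let Q : Submodule ℂ ((𝔇F.Space →L[ℂ] 𝔇F.Space) × (𝔇K.Space →L[ℂ] 𝔇K.Space)) :=
    { carrier := {Z | Joint.pairing aF cF Z.1 = κ * Joint.pairing aK cK Z.2}
      zero_mem' := by simp [Joint.pairing]
      add_mem' := fun {Z W} (hZ : _ = _) (hW : _ = _) => by
        show _ = _
        rw [Prod.fst_add, Prod.snd_add, Joint.pairing_add hF1 hF2, Joint.pairing_add hK1 hK2, hZ, hW]
        ring
      smul_mem' := fun r Z (hZ : _ = _) => by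
        show _ = _
        rw [Prod.smul_fst, Prod.smul_snd, Joint.pairing_smul, Joint.pairing_smul, hZ]
        ring }
  let G : Set ((𝔇F.Space →L[ℂ] 𝔇F.Space) × (𝔇K.Space →L[ℂ] 𝔇K.Space)) :=
    {Z | ∃ x : MWord S, Even (x.pl.count D.ws) ∧ Z = (x.OF D.Ψ 𝔇F, x.OK D.Ψ D.σ D.w₁ 𝔇K)}
  have hgen : Set.range (fun n => (D.XF 𝔇F 𝔇K n, D.XK 𝔇F 𝔇K n)) ⊆ Algebra.adjoin ℂ G := by
    rintro _ ⟨n, rfl⟩
    have e : (D.XF 𝔇F 𝔇K n, D.XK 𝔇F 𝔇K n) = (D.scale 𝔇F 𝔇K (D.enum n) : ℂ) •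
        ((((D.word (D.enum n)).OF D.Ψ 𝔇F, (D.word (D.enum n)).OK D.Ψ D.σ D.w₁ 𝔇K) :
          (𝔇F.Space →L[ℂ] 𝔇F.Space) × (𝔇K.Space →L[ℂ] 𝔇K.Space)) -
          D.scal (D.enum n) • ((D.base (D.enum n)).OF D.Ψ 𝔇F,
            (D.base (D.enum n)).OK D.Ψ D.σ D.w₁ 𝔇K)) := rfl
    simp only [SetLike.mem_coe]
    rw [e]
    have h1 : ∀ x : MWord S, Even (x.pl.count D.ws) →
        (x.OF D.Ψ 𝔇F, x.OK D.Ψ D.σ D.w₁ 𝔇K) ∈ Algebra.adjoin ℂ G :=
      fun x hx => Algebra.subset_adjoin ⟨x, hx, rfl⟩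
    exact Subalgebra.smul_mem _ (sub_mem (h1 _ (D.even_word _).1)
      (Subalgebra.smul_mem _ (h1 _ (D.even_word _).2) _)) _
  have hclosure : ∀ Z ∈ Submonoid.closure G, Z = 1 ∨ Z ∈ G := by
    intro Z hZ
    induction hZ using Submonoid.closure_induction with
    | mem Z h => exact Or.inr h
    | one => exact Or.inl rfl
    | mul a b _ _ ha hb =>
      rcases ha with rfl | ⟨x, hx, rfl⟩
      · rwa [one_mul]
      rcases hb with rfl | ⟨y, hy, rfl⟩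
      · rw [mul_one]; exact Or.inr ⟨x, hx, rfl⟩
      refine Or.inr ⟨x.mul y, ?_, ?_⟩
      · simp only [MWord.mul, List.count_append]
        exact hx.add hy
      · rw [Prod.mk_mul_mk, MWord.OF_mul, MWord.OK_mul]
  have hsub : (Algebra.adjoin ℂ G).toSubmodule ≤ Q := by
    rw [Algebra.adjoin_eq_span, Submodule.span_le]
    intro Z hZ
    rcases hclosure Z hZ with rfl | ⟨x, hx, rfl⟩
    · exact hone
    · exact hword x hx
  exact hsub (Algebra.adjoin_le hgen hZ)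

end DescentData

end FermatAgent.LT
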